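import Mathlib
import Fermat.Prelude.Def_FLTPrelim_GaloisRep

/-!
# Stable lines in small `ZMod p`-modules, and rationality of Galois-fixed elements

Abstract input for S51 (at least one of the mod `3` and mod `5` representations of a semistable
curve is irreducible):

* `card_lt_cube` : a proper nonzero submodule `N` of a finite `ZMod p`-module `M` with
  `Nat.card M < p ^ 3` is a line: every element of `N` is a natural multiple of any nonzero
  element of `N`;
* `exists_stable_point` : the same for a Galois-stable submodule of the `p`-torsion of a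
  Weierstrass curve: there is a nonzero `p`-torsion point `P` all of whose Galois conjugates
  are multiples of `P`;
* `exists_rat_of_fixed` : an element of `AlgebraicClosure ℚ` fixed by all automorphisms is
  rational, and the symmetric functions of a Galois-stable pair are rational.
-/

set_option autoImplicit false

namespace Fermat.Agent.S51.StableLine

open Module

section Line

variable {p : ℕ} [Fact p.Prime] {M : Type*} [AddCommGroup M] [Module (ZMod p) M]

/-- A finite `ZMod p`-module with fewer than `p ^ 3` elements has dimension at most `2`. -/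
theorem finrank_le_two [Finite M] (hM : Nat.card M < p ^ 3) : finrank (ZMod p) M ≤ 2 := by
  have hp : 1 < p := (Fact.out : p.Prime).one_lt
  have h := Module.natCard_eq_pow_finrank (K := ZMod p) (V := M)
  rw [Nat.card_zmod] at h
  rw [h] at hM
  have := (Nat.pow_lt_pow_iff_right hp).mp hM
  omega

/-- In a finite `ZMod p`-module with fewer than `p ^ 3` elements, a proper nonzero submodule is
generated by any of its nonzero elements. -/
theorem eq_span_singleton [Finite M] (hM : Nat.card M < p ^ 3) (N : Submodule (ZMod p) M)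
    (h1 : N ≠ ⊤) {P : M} (hP : P ∈ N) (hP0 : P ≠ 0) :
    N = Submodule.span (ZMod p) {P} := by
  have h2 := finrank_le_two hM
  have hlt : finrank (ZMod p) N < finrank (ZMod p) M := Submodule.finrank_lt h1
  have hle : Submodule.span (ZMod p) {P} ≤ N := (Submodule.span_singleton_le_iff_mem P N).mpr hP
  have hs : finrank (ZMod p) (Submodule.span (ZMod p) {P}) = 1 := finrank_span_singleton hP0
  refine (Submodule.eq_of_le_of_finrank_le hle ?_).symm
  rw [hs]
  have : 0 < finrank (ZMod p) N := by
    have := Submodule.finrank_mono hle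
    omega
  omega

/-- In a finite `ZMod p`-module with fewer than `p ^ 3` elements, every element of a proper
submodule is a natural multiple of any nonzero element of that submodule. -/
theorem exists_nsmul_eq [Finite M] (hM : Nat.card M < p ^ 3) (N : Submodule (ZMod p) M)
    (h1 : N ≠ ⊤) {P : M} (hP : P ∈ N) (hP0 : P ≠ 0) {Q : M} (hQ : Q ∈ N) :
    ∃ k : ℕ, k < p ∧ Q = k • P := by
  rw [eq_span_singleton hM N h1 hP hP0, Submodule.mem_span_singleton] at hQ
  obtain ⟨c, rfl⟩ := hQ
  refine ⟨c.val, ZMod.val_lt c, ?_⟩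
  rw [← Nat.cast_smul_eq_nsmul (ZMod p), ZMod.natCast_zmod_val]

end Line

section Torsion

open WeierstrassCurve WeierstrassCurve.Affine WeierstrassCurve.Affine.Point

universe r s v

variable {R : Type r} {S : Type s} {K : Type v} [CommRing R] [CommRing S] [Field K]
  [DecidableEq K] {W' : Affine R} [Algebra R S] [Algebra R K] [Algebra S K]
  [IsScalarTower R S K]

/-- A Galois-stable, proper, nonzero submodule of the `p`-torsion (assumed to have fewer than
`p ^ 3` elements) contains a nonzero point all of whose Galois conjugates are multiples of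
itself; moreover every element of the submodule is a multiple of that point. -/
theorem exists_stable_point {p : ℕ} [Fact p.Prime]
    [Finite (Submodule.torsionBy ℤ (W'⁄K).Point p)]
    (hcard : Nat.card (Submodule.torsionBy ℤ (W'⁄K).Point p) < p ^ 3)
    (N : Submodule (ZMod p) (Submodule.torsionBy ℤ (W'⁄K).Point p))
    (hN : IsGaloisStable S N) (h0 : N ≠ ⊥) (h1 : N ≠ ⊤) :
    ∃ P : (W'⁄K).Point, P ≠ 0 ∧ (p : ℤ) • P = 0 ∧
      (∀ σ : K ≃ₐ[S] K, ∃ k : ℕ, k < p ∧ σ • P = k • P) ∧
      ∀ Q ∈ N, ∃ k : ℕ, k < p ∧ (Q : (W'⁄K).Point) = k • P := by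
  obtain ⟨P, hPN, hP0⟩ := (Submodule.ne_bot_iff N).mp h0
  refine ⟨P, fun h => hP0 (Subtype.ext h), ?_, fun σ => ?_, fun Q hQ => ?_⟩
  · exact (Submodule.mem_torsionBy_iff _ _).mp P.2
  · obtain ⟨k, hk, hk2⟩ := exists_nsmul_eq hcard N h1 hPN hP0 (hN σ P hPN)
    refine ⟨k, hk, ?_⟩
    have h3 : ((σ • P : Submodule.torsionBy ℤ (W'⁄K).Point p) : (W'⁄K).Point) =
        σ • (P : (W'⁄K).Point) := rfl
    rw [← h3, hk2]
    simp
  · obtain ⟨k, hk, hk2⟩ := exists_nsmul_eq hcard N h1 hPN hP0 hQ
    refine ⟨k, hk, ?_⟩
    have := congrArg (Subtype.val) hk2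
    simpa using this

end Torsion

section Rational

/-- `AlgebraicClosure ℚ` is an algebraic closure of `ℚ` for the `ℚ`-algebra structure used by
the frozen statements. -/
theorem isAlgClosure_rat : IsAlgClosure ℚ (AlgebraicClosure ℚ) := by
  have h : (DivisionRing.toRatAlgebra : Algebra ℚ (AlgebraicClosure ℚ)) =
      AlgebraicClosure.instAlgebra ℚ := Subsingleton.elim _ _
  rw [h]
  infer_instance

/-- `AlgebraicClosure ℚ` is Galois over `ℚ`. -/
theorem isGalois_rat : IsGalois ℚ (AlgebraicClosure ℚ) :=
  haveI := isAlgClosure_rat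
  IsAlgClosure.isGalois ℚ (AlgebraicClosure ℚ)

/-- An element of `AlgebraicClosure ℚ` fixed by every automorphism is rational. -/
theorem exists_rat_of_fixed (x : AlgebraicClosure ℚ)
    (h : ∀ σ : AlgebraicClosure ℚ ≃ₐ[ℚ] AlgebraicClosure ℚ, σ x = x) :
    ∃ q : ℚ, algebraMap ℚ (AlgebraicClosure ℚ) q = x :=
  haveI := isGalois_rat
  (InfiniteGalois.mem_range_algebraMap_iff_fixed (k := ℚ) (K := AlgebraicClosure ℚ) x).mpr h

/-- The symmetric functions of a Galois-stable pair are rational. -/
theorem exists_rat_add_mul_of_stable_pair (x y : AlgebraicClosure ℚ)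
    (h : ∀ σ : AlgebraicClosure ℚ ≃ₐ[ℚ] AlgebraicClosure ℚ,
      (σ x = x ∧ σ y = y) ∨ (σ x = y ∧ σ y = x)) :
    (∃ s : ℚ, algebraMap ℚ (AlgebraicClosure ℚ) s = x + y) ∧
      ∃ t : ℚ, algebraMap ℚ (AlgebraicClosure ℚ) t = x * y := by
  constructor
  · refine exists_rat_of_fixed _ fun σ => ?_
    rcases h σ with ⟨h1, h2⟩ | ⟨h1, h2⟩
    · rw [map_add, h1, h2]
    · rw [map_add, h1, h2, add_comm]
  · refine exists_rat_of_fixed _ fun σ => ?_
    rcases h σ with ⟨h1, h2⟩ | ⟨h1, h2⟩
    · rw [map_mul, h1, h2]
    · rw [map_mul, h1, h2, mul_comm]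

end Rational

end Fermat.Agent.S51.StableLine
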