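/-
S51 helper (helper5): all rational points of the curve 15a : y^2 = x (x + 9) (x - 16)  (= X_0(15)).

Method: the 2-isogenous curve E2 : Y^2 = X (X - 1) (X - 81) has only 2-torsion.  A rational point
of E2 with Y ≠ 0 gives, by the duplication formulas, a rational (hence integral) solution of
  a^2 = b^2 + e^2,  a^2 = c^2 + 81 e^2   with b, e ≠ 0,
and such "quadruples" are excluded by a Fermat descent on `a` (`no_quad_aux`): from a quadruple
one gets a point m / f^2 of E2 to the right of 81, the classes of (X, X - 1, X - 81) modulo squares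
are (1,1,1), (1,5,5) [both give a smaller quadruple] or are excluded 2-adically / 3-adically.
Main results: `no_quad`, `E2_points`, `rational_points`, `rational_points_x`.
-/
import Mathlib

namespace Fermat.Agent.S51.Descent15

/-- If `k² N = M²` with `k ≠ 0` then `N` is a perfect square. -/
lemma sq_of_sq_mul {k N M : ℤ} (hk : k ≠ 0) (h : k ^ 2 * N = M ^ 2) : ∃ w : ℤ, N = w ^ 2 := by
  have hdvd : k ^ 2 ∣ M ^ 2 := Dvd.intro _ h
  have hk' : k ∣ M := (Int.pow_dvd_pow_iff two_ne_zero).1 hdvd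
  obtain ⟨w, rfl⟩ := hk'
  refine ⟨w, ?_⟩
  have : k ^ 2 * N = k ^ 2 * w ^ 2 := by rw [h]; ring
  exact mul_left_cancel₀ (pow_ne_zero 2 hk) this

lemma exists_sqfree_decomp {A : ℤ} (hA : 0 < A) :
    ∃ d α : ℤ, 0 < d ∧ 0 < α ∧ Squarefree d ∧ A = d * α ^ 2 := by
  obtain ⟨a, b, hab, hsq⟩ := Nat.sq_mul_squarefree A.toNat
  have hA' : (A.toNat : ℤ) = A := Int.toNat_of_nonneg hA.le
  have hpos : 0 < A.toNat := by omega
  have ha0 : 0 < a := by
    rcases Nat.eq_zero_or_pos a with h | h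
    · subst h; simp at hab; omega
    · exact h
  have hb0 : 0 < b := by
    rcases Nat.eq_zero_or_pos b with h | h
    · subst h; simp at hab; omega
    · exact h
  refine ⟨a, b, by exact_mod_cast ha0, by exact_mod_cast hb0, Int.squarefree_natCast.2 hsq, ?_⟩
  rw [← hA', ← hab]; push_cast; ring

lemma sqfree_mul_sq {d α K n : ℤ} (hd : Squarefree d) (hd0 : d ≠ 0) (hα : α ≠ 0)
    (h : d * α ^ 2 * K = n ^ 2) : ∃ k : ℤ, K = d * k ^ 2 := by
  have h1 : α ^ 2 ∣ n ^ 2 := ⟨d * K, by rw [← h]; ring⟩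
  have h2 : α ∣ n := (Int.pow_dvd_pow_iff two_ne_zero).1 h1
  obtain ⟨n', rfl⟩ := h2
  have h3 : d * K = n' ^ 2 := by
    have : α ^ 2 * (d * K) = α ^ 2 * n' ^ 2 := by linear_combination h
    exact mul_left_cancel₀ (pow_ne_zero 2 hα) this
  have h4 : d ∣ n' ^ 2 := ⟨K, h3.symm⟩
  have h5 : d ∣ n' := (hd.dvd_pow_iff_dvd two_ne_zero).1 h4
  obtain ⟨k, rfl⟩ := h5
  refine ⟨k, ?_⟩
  have : d * K = d * (d * k ^ 2) := by rw [h3]; ring
  exact mul_left_cancel₀ hd0 this

lemma not_sqfree_of_sq_dvd {d p : ℤ} (hp : 1 < p) (h : p * p ∣ d) : ¬ Squarefree d := by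
  intro hs
  have := hs p h
  rw [Int.isUnit_iff] at this
  omega

lemma sqfree_dvd_81 {d : ℤ} (hd : 0 < d) (hsq : Squarefree d) (h : d ∣ 81) : d = 1 ∨ d = 3 := by
  have hle : d ≤ 81 := Int.le_of_dvd (by norm_num) h
  interval_cases d <;>
    first
    | omega
    | (exfalso; exact not_sqfree_of_sq_dvd (p := 3) (by norm_num) (by norm_num) hsq)

lemma sqfree_dvd_80 {d : ℤ} (hd : 0 < d) (hsq : Squarefree d) (h : d ∣ 80) :
    d = 1 ∨ d = 2 ∨ d = 5 ∨ d = 10 := by
  have hle : d ≤ 80 := Int.le_of_dvd (by norm_num) h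
  interval_cases d <;>
    first
    | omega
    | (exfalso; exact not_sqfree_of_sq_dvd (p := 2) (by norm_num) (by norm_num) hsq)

lemma sq_mod_facts (x : ℤ) :
    (x % 2 = 0 → (x ^ 2 % 16 = 0 ∨ x ^ 2 % 16 = 4)) ∧ (x % 2 = 1 → x ^ 2 % 8 = 1) := by
  have hsq : x ^ 2 % 16 = (x % 16) * (x % 16) % 16 := by rw [pow_two, Int.mul_emod]
  have h16 : x % 16 = 0 ∨ x % 16 = 1 ∨ x % 16 = 2 ∨ x % 16 = 3 ∨ x % 16 = 4 ∨ x % 16 = 5 ∨
      x % 16 = 6 ∨ x % 16 = 7 ∨ x % 16 = 8 ∨ x % 16 = 9 ∨ x % 16 = 10 ∨ x % 16 = 11 ∨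
      x % 16 = 12 ∨ x % 16 = 13 ∨ x % 16 = 14 ∨ x % 16 = 15 := by omega
  rcases h16 with h | h | h | h | h | h | h | h | h | h | h | h | h | h | h | h <;>
    rw [h] at hsq <;> omega

lemma sq_mod_three (x : ℤ) :
    (x % 3 = 0 → x ^ 2 % 9 = 0) ∧ (x % 3 ≠ 0 → x ^ 2 % 3 = 1) := by
  have hsq : x ^ 2 % 9 = (x % 9) * (x % 9) % 9 := by rw [pow_two, Int.mul_emod]
  have h9 : x % 9 = 0 ∨ x % 9 = 1 ∨ x % 9 = 2 ∨ x % 9 = 3 ∨ x % 9 = 4 ∨ x % 9 = 5 ∨
      x % 9 = 6 ∨ x % 9 = 7 ∨ x % 9 = 8 := by omega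
  rcases h9 with h | h | h | h | h | h | h | h | h <;>
    rw [h] at hsq <;> omega

/-- 2-adic obstruction for the classes `(1,2,2)`. -/
lemma kill_two {α f β γ : ℤ} (hpar : ¬ (α % 2 = 0 ∧ f % 2 = 0))
    (hB : α ^ 2 - f ^ 2 = 2 * β ^ 2) (hC : α ^ 2 - 81 * f ^ 2 = 2 * γ ^ 2) : False := by
  have h1 := sq_mod_facts α
  have h2 := sq_mod_facts f
  have h3 := sq_mod_facts β
  have h4 := sq_mod_facts γ
  generalize α ^ 2 = a2 at *
  generalize f ^ 2 = f2 at *
  generalize β ^ 2 = b2 at *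
  generalize γ ^ 2 = c2 at *
  omega

/-- 2-adic obstruction for the classes `(1,10,10)`. -/
lemma kill_ten {α f β γ : ℤ} (hpar : ¬ (α % 2 = 0 ∧ f % 2 = 0))
    (hB : α ^ 2 - f ^ 2 = 10 * β ^ 2) (hC : α ^ 2 - 81 * f ^ 2 = 10 * γ ^ 2) : False := by
  have h1 := sq_mod_facts α
  have h2 := sq_mod_facts f
  have h3 := sq_mod_facts β
  have h4 := sq_mod_facts γ
  generalize α ^ 2 = a2 at *
  generalize f ^ 2 = f2 at *
  generalize β ^ 2 = b2 at *
  generalize γ ^ 2 = c2 at *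
  omega

/-- one 3-adic descent step -/
lemma three_step {B C' α k : ℤ} (hB : B % 3 = 2) (hC : C' % 3 = α ^ 2 % 3) (h : B * C' = k ^ 2) :
    (3 : ℤ) ∣ α ∧ (3 : ℤ) ∣ k := by
  have h3 : (B * C') % 3 = k ^ 2 % 3 := by rw [h]
  rw [Int.mul_emod, hB, hC] at h3
  have ha := sq_mod_three α
  have hk := sq_mod_three k
  generalize α ^ 2 = a2 at *
  generalize k ^ 2 = k2 at *
  constructor <;> omega

/-- 3-adic obstruction for the classes with `d₁ = 3`. -/
lemma kill_three {α f B k : ℤ} (hf : ¬ (3 : ℤ) ∣ f) (hB : B = 3 * α ^ 2 - f ^ 2)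
    (h : B * (α ^ 2 - 27 * f ^ 2) = k ^ 2) : False := by
  have hf2 := (sq_mod_three f).2 (by omega)
  have hB3 : B % 3 = 2 := by
    generalize α ^ 2 = a2 at *
    generalize f ^ 2 = f2 at *
    omega
  obtain ⟨⟨α1, rfl⟩, ⟨k1, rfl⟩⟩ := three_step (α := α) hB3 (by
    generalize α ^ 2 = a2 at *
    generalize f ^ 2 = f2 at *
    omega) h
  have h' : B * (α1 ^ 2 - 3 * f ^ 2) = k1 ^ 2 := by
    have : (9 : ℤ) * (B * (α1 ^ 2 - 3 * f ^ 2)) = 9 * k1 ^ 2 := by linear_combination h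
    exact mul_left_cancel₀ (by norm_num) this
  obtain ⟨⟨α2, rfl⟩, ⟨k2, rfl⟩⟩ := three_step (α := α1) hB3 (by
    generalize α1 ^ 2 = a2 at *
    generalize f ^ 2 = f2 at *
    omega) h'
  have h'' : B * (3 * α2 ^ 2 - f ^ 2) = 3 * k2 ^ 2 := by
    have : (3 : ℤ) * (B * (3 * α2 ^ 2 - f ^ 2)) = 3 * (3 * k2 ^ 2) := by linear_combination h'
    exact mul_left_cancel₀ (by norm_num) this
  have h3 : (B * (3 * α2 ^ 2 - f ^ 2)) % 3 = (3 * k2 ^ 2) % 3 := by rw [h'']
  rw [Int.mul_emod, hB3] at h3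
  generalize α2 ^ 2 = a2 at *
  generalize f ^ 2 = f2 at *
  generalize k2 ^ 2 = k22 at *
  omega


lemma not_both_dvd_of_isCoprime {m f p : ℤ} (hp : ¬ p ∣ 1) (h : IsCoprime m f) (h1 : p ∣ m)
    (h2 : p ∣ f) : False := by
  obtain ⟨u, v, huv⟩ := h
  apply hp
  rw [← huv]
  exact dvd_add (Dvd.dvd.mul_left h1 u) (Dvd.dvd.mul_left h2 v)

/-- Classification of a point `m / f²` on `Y² = X (X - 1) (X - 81)` to the right of `81`. -/
lemma classify {m f n : ℤ} (hm : 0 < m) (hf : 0 < f) (hcop : IsCoprime m f)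
    (hC0 : 0 < m - 81 * f ^ 2) (hn : m * (m - f ^ 2) * (m - 81 * f ^ 2) = n ^ 2) :
    (∃ α β γ : ℤ, 0 < α ∧ 0 < β ∧ 0 < γ ∧ m = α ^ 2 ∧ m - f ^ 2 = β ^ 2 ∧
        m - 81 * f ^ 2 = γ ^ 2) ∨
    (∃ α β γ : ℤ, 0 < α ∧ 0 < β ∧ 0 < γ ∧ m = α ^ 2 ∧ m - f ^ 2 = 5 * β ^ 2 ∧
        m - 81 * f ^ 2 = 5 * γ ^ 2) := by
  have hf2 : 0 < f ^ 2 := by positivity
  obtain ⟨B, hB⟩ : ∃ B : ℤ, B = m - f ^ 2 := ⟨_, rfl⟩
  obtain ⟨C, hC⟩ : ∃ C : ℤ, C = m - 81 * f ^ 2 := ⟨_, rfl⟩
  rw [← hB, ← hC] at hn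
  rw [← hC] at hC0
  have hB0 : 0 < B := by rw [hB]; linarith
  -- coprimality facts
  have hcop2 : IsCoprime m (f ^ 2) := hcop.pow_right
  have hmB : IsCoprime m B := by
    have : B = m * 1 + -(f ^ 2) := by rw [hB]; ring
    rw [this]
    exact (hcop2.neg_right).mul_add_left_right 1
  have hBf : IsCoprime B f := by
    have : B = m + f * (-f) := by rw [hB]; ring
    rw [this]
    exact hcop.symm.add_mul_left_right (-f) |>.symm
  -- squarefree part of `m`
  obtain ⟨d1, α, hd1, hα, hsq1, hA⟩ := exists_sqfree_decomp hm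
  obtain ⟨k, hk⟩ := sqfree_mul_sq (K := B * C) hsq1 hd1.ne' hα.ne' (by rw [← hA, ← hn]; ring)
  have hd1m : d1 ∣ m := ⟨α ^ 2, hA⟩
  have hd1B : IsCoprime d1 B := IsCoprime.of_isCoprime_of_dvd_left hmB hd1m
  have hd1C : d1 ∣ C := hd1B.dvd_of_dvd_mul_left ⟨k ^ 2, hk⟩
  have hd1f : IsCoprime d1 (f ^ 2) := IsCoprime.of_isCoprime_of_dvd_left hcop2 hd1m
  have hd181 : d1 ∣ 81 := by
    have h1 : d1 ∣ m - C := dvd_sub hd1m hd1C
    have h2 : m - C = 81 * f ^ 2 := by rw [hC]; ring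
    rw [h2] at h1
    exact hd1f.dvd_of_dvd_mul_right h1
  rcases sqfree_dvd_81 hd1 hsq1 hd181 with rfl | rfl
  swap
  · -- `d₁ = 3` is impossible
    exfalso
    have h3f : ¬ (3 : ℤ) ∣ f := fun h3 =>
      not_both_dvd_of_isCoprime (by norm_num) hcop hd1m h3
    have hBα : B = 3 * α ^ 2 - f ^ 2 := by rw [hB, hA]
    have hCα : C = 3 * (α ^ 2 - 27 * f ^ 2) := by rw [hC, hA]; ring
    have hk' : B * (α ^ 2 - 27 * f ^ 2) = k ^ 2 := by
      have : (3 : ℤ) * (B * (α ^ 2 - 27 * f ^ 2)) = 3 * k ^ 2 := by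
        rw [← hk, hCα]; ring
      exact mul_left_cancel₀ (by norm_num) this
    exact kill_three h3f hBα hk'
  -- now `m = α²`
  have hA' : m = α ^ 2 := by rw [hA]; ring
  have hk' : B * C = k ^ 2 := by rw [hk]; ring
  obtain ⟨d2, β, hd2, hβ, hsq2, hBd⟩ := exists_sqfree_decomp hB0
  obtain ⟨γ, hγ⟩ := sqfree_mul_sq (K := C) hsq2 hd2.ne' hβ.ne' (by rw [← hBd, hk'])
  have hd2B : d2 ∣ B := ⟨β ^ 2, hBd⟩
  have hd2C : d2 ∣ C := ⟨γ ^ 2, hγ⟩
  have hd2f : IsCoprime d2 (f ^ 2) := (IsCoprime.of_isCoprime_of_dvd_left hBf hd2B).pow_right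
  have hd280 : d2 ∣ 80 := by
    have h1 : d2 ∣ B - C := dvd_sub hd2B hd2C
    have h2 : B - C = 80 * f ^ 2 := by rw [hB, hC]; ring
    rw [h2] at h1
    exact hd2f.dvd_of_dvd_mul_right h1
  have hγ0 : γ ≠ 0 := by
    rintro rfl
    rw [hγ] at hC0
    simp at hC0
  have hpar : ¬ (α % 2 = 0 ∧ f % 2 = 0) := by
    rintro ⟨h1, h2⟩
    refine not_both_dvd_of_isCoprime (p := 2) (by norm_num) hcop ?_ (Int.dvd_of_emod_eq_zero h2)
    rw [hA']
    exact Dvd.dvd.pow (Int.dvd_of_emod_eq_zero h1) two_ne_zero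
  rcases sqfree_dvd_80 hd2 hsq2 hd280 with rfl | rfl | rfl | rfl
  · left
    refine ⟨α, β, |γ|, hα, hβ, abs_pos.2 hγ0, hA', ?_, ?_⟩
    · rw [← hB, hBd]; ring
    · rw [← hC, hγ, sq_abs]; ring
  · exfalso
    refine kill_two (α := α) (f := f) (β := β) (γ := γ) hpar ?_ ?_
    · rw [← hA', ← hB, hBd]
    · rw [← hA', ← hC, hγ]
  · right
    refine ⟨α, β, |γ|, hα, hβ, abs_pos.2 hγ0, hA', ?_, ?_⟩
    · rw [← hB, hBd]
    · rw [← hC, hγ, sq_abs]
  · exfalso
    refine kill_ten (α := α) (f := f) (β := β) (γ := γ) hpar ?_ ?_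
    · rw [← hA', ← hB, hBd]
    · rw [← hA', ← hC, hγ]


/-- Main descent: no "quadruple" `a² = b² + e²`, `a² = c² + 81 e²`. -/
theorem no_quad_aux : ∀ (N : ℕ) (a b c e : ℤ), 0 < a → 0 < b → 0 ≤ c → 0 < e → a < N →
    a ^ 2 = b ^ 2 + e ^ 2 → a ^ 2 = c ^ 2 + 81 * e ^ 2 → False := by
  intro N
  induction N with
  | zero => intro a b c e ha _ _ _ haN _ _; simp at haN; omega
  | succ N ih =>
    intro a b c e ha hb hc he haN h1 h2
    have he2 : 0 < e ^ 2 := by positivity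
    have hba : b < a := by
      by_contra h
      push Not at h
      have := pow_le_pow_left₀ ha.le h 2
      linarith
    have hca : c < a := by
      by_contra h
      push Not at h
      have := pow_le_pow_left₀ ha.le h 2
      linarith
    have h9 : 9 * e ≤ a := by
      by_contra h
      push Not at h
      have := pow_lt_pow_left₀ h ha.le two_ne_zero
      nlinarith [sq_nonneg c]
    have hsum : a + b ≤ e ^ 2 := by
      have : 1 * (a + b) ≤ (a - b) * (a + b) :=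
        mul_le_mul_of_nonneg_right (by omega) (by omega)
      nlinarith
    have he10 : 10 ≤ e := by
      by_contra h
      push Not at h
      have : e * e ≤ 9 * e := mul_le_mul_of_nonneg_right (by omega) he.le
      nlinarith
    have ha90 : 90 ≤ a := by omega
    obtain ⟨X, hX⟩ : ∃ X : ℤ, X = a + c := ⟨_, rfl⟩
    obtain ⟨Y, hY⟩ : ∃ Y : ℤ, Y = a - b := ⟨_, rfl⟩
    have hX0 : 0 < X := by omega
    have hY0 : 0 < Y := by omega
    have key : (X - 81 * Y) * (a + b) = (a + c) * (b + c) := by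
      rw [hX, hY]; linear_combination (-81) * h1 + h2
    have hXY : X - Y = b + c := by rw [hX, hY]; ring
    have h81 : 0 < X - 81 * Y := by
      by_contra h
      push Not at h
      have h3 : (X - 81 * Y) * (a + b) ≤ 0 := mul_nonpos_of_nonpos_of_nonneg h (by omega)
      have h4 : 0 < (a + c) * (b + c) := mul_pos (by omega) (by omega)
      linarith
    have e2 : (a - b) * (a + b) = e ^ 2 := by linear_combination h1
    have big : (a + b) ^ 2 * (Y * (X * (X - Y) * (X - 81 * Y))) = (e * (a + c) * (b + c)) ^ 2 := by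
      calc (a + b) ^ 2 * (Y * (X * (X - Y) * (X - 81 * Y)))
          = ((a - b) * (a + b)) * ((a + c) * (b + c)) * ((X - 81 * Y) * (a + b)) := by
            rw [hXY, hX, hY]; ring
        _ = e ^ 2 * ((a + c) * (b + c)) * ((a + c) * (b + c)) := by rw [e2, key]
        _ = (e * (a + c) * (b + c)) ^ 2 := by ring
    obtain ⟨w, hw⟩ := sq_of_sq_mul (k := a + b) (by omega) big
    -- reduce `X / Y` to lowest terms
    have hgpos : 0 < Int.gcd X Y := Int.gcd_pos_of_ne_zero_left _ hX0.ne'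
    obtain ⟨m, q, hmq, hXm, hYq⟩ := Int.exists_gcd_one hgpos
    obtain ⟨G, hG⟩ : ∃ G : ℤ, G = (Int.gcd X Y : ℤ) := ⟨_, rfl⟩
    rw [← hG] at hXm hYq
    have hG0 : 0 < G := by rw [hG]; exact_mod_cast hgpos
    have hm0 : 0 < m := by
      rw [hXm] at hX0
      exact (mul_pos_iff_of_pos_right hG0).1 hX0
    have hq0 : 0 < q := by
      rw [hYq] at hY0
      exact (mul_pos_iff_of_pos_right hG0).1 hY0
    have hmq0 : 0 < m - q := by
      have : 0 < (m - q) * G := by
        have : (m - q) * G = X - Y := by rw [hXm, hYq]; ring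
        rw [this, hXY]; omega
      exact (mul_pos_iff_of_pos_right hG0).1 this
    have hm81 : 0 < m - 81 * q := by
      have : 0 < (m - 81 * q) * G := by
        have : (m - 81 * q) * G = X - 81 * Y := by rw [hXm, hYq]; ring
        rw [this]; exact h81
      exact (mul_pos_iff_of_pos_right hG0).1 this
    have big2 : (G ^ 2) ^ 2 * (q * (m * (m - q) * (m - 81 * q))) = w ^ 2 := by
      rw [← hw, hXm, hYq]; ring
    obtain ⟨w', hw'⟩ := sq_of_sq_mul (k := G ^ 2) (pow_ne_zero 2 hG0.ne') big2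
    have hcop : IsCoprime m q := Int.isCoprime_iff_gcd_eq_one.2 hmq
    have hc1 : IsCoprime q (m - q) := by
      have : m - q = m + q * (-1) := by ring
      rw [this]
      exact hcop.symm.add_mul_left_right (-1)
    have hc2 : IsCoprime q (m - 81 * q) := by
      have : m - 81 * q = m + q * (-81) := by ring
      rw [this]
      exact hcop.symm.add_mul_left_right (-81)
    have hcopK : IsCoprime q (m * (m - q) * (m - 81 * q)) :=
      (hcop.symm.mul_right hc1).mul_right hc2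
    have hK0 : 0 < m * (m - q) * (m - 81 * q) := mul_pos (mul_pos hm0 hmq0) hm81
    obtain ⟨f0, hf0⟩ := Int.sq_of_isCoprime hcopK hw'
    have hqf : q = f0 ^ 2 := by
      rcases hf0 with h | h
      · exact h
      · exfalso; have := sq_nonneg f0; omega
    obtain ⟨n0, hn0⟩ := Int.sq_of_isCoprime hcopK.symm (by rw [mul_comm]; exact hw')
    have hKn : m * (m - q) * (m - 81 * q) = n0 ^ 2 := by
      rcases hn0 with h | h
      · exact h
      · exfalso; have := sq_nonneg n0; omega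
    have hf00 : f0 ≠ 0 := by
      rintro rfl
      simp at hqf
      omega
    obtain ⟨f, hf⟩ : ∃ f : ℤ, f = |f0| := ⟨_, rfl⟩
    have hfpos : 0 < f := by rw [hf]; exact abs_pos.2 hf00
    have hqf' : q = f ^ 2 := by rw [hf, sq_abs]; exact hqf
    rw [hqf'] at hKn hm81 hcop hmq0
    have hcopf : IsCoprime m f := (IsCoprime.pow_right_iff (by norm_num)).1 hcop
    have hmX : m ≤ X := by
      rw [hXm]
      exact le_mul_of_one_le_right hm0.le (by omega)
    have hm2a : m < 2 * a := by omega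
    rcases classify hm0 hfpos hcopf hm81 hKn with
      ⟨α, β, γ, hα, hβ, hγ, hA, hB, hC⟩ | ⟨α, β, γ, hα, hβ, hγ, hA, hB, hC⟩
    · -- class I
      have hαa : α < a := by
        apply lt_of_pow_lt_pow_left₀ 2 ha.le
        nlinarith
      refine ih α β γ f hα hβ hγ.le hfpos (by push_cast at haN; omega) ?_ ?_
      · linarith
      · linarith
    · -- class III
      have hβa : 9 * β < a := by
        apply lt_of_pow_lt_pow_left₀ 2 ha.le
        nlinarith
      refine ih (9 * β) (4 * α) (36 * f) γ (by omega) (by omega) (by omega) hγ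
        (by push_cast at haN; omega) ?_ ?_
      · have e1 : (9 * β) ^ 2 = 81 * β ^ 2 := by ring
        have e2 : (4 * α) ^ 2 = 16 * α ^ 2 := by ring
        rw [e1, e2]; linarith
      · have e1 : (9 * β) ^ 2 = 81 * β ^ 2 := by ring
        have e2 : (36 * f) ^ 2 = 1296 * f ^ 2 := by ring
        rw [e1, e2]; linarith


theorem no_quad (a b c e : ℤ) (hb : b ≠ 0) (he : e ≠ 0) (h1 : a ^ 2 = b ^ 2 + e ^ 2)
    (h2 : a ^ 2 = c ^ 2 + 81 * e ^ 2) : False := by
  have ha : a ≠ 0 := by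
    rintro rfl
    have := sq_nonneg b
    have : 0 < e ^ 2 := by positivity
    linarith
  refine no_quad_aux (|a|.toNat + 1) |a| |b| |c| |e| (abs_pos.2 ha) (abs_pos.2 hb)
    (abs_nonneg c) (abs_pos.2 he) ?_ ?_ ?_
  · have : (0 : ℤ) ≤ |a| := abs_nonneg a
    push_cast
    omega
  · simpa only [sq_abs] using h1
  · simpa only [sq_abs] using h2

theorem no_quad_rat (a b c e : ℚ) (hb : b ≠ 0) (he : e ≠ 0) (h1 : a ^ 2 = b ^ 2 + e ^ 2)
    (h2 : a ^ 2 = c ^ 2 + 81 * e ^ 2) : False := by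
  have hL : ((a.den * b.den * c.den * e.den : ℕ) : ℚ) ≠ 0 := by
    have := a.den_ne_zero
    have := b.den_ne_zero
    have := c.den_ne_zero
    have := e.den_ne_zero
    exact_mod_cast by positivity
  obtain ⟨L, hLdef⟩ : ∃ L : ℚ, L = ((a.den * b.den * c.den * e.den : ℕ) : ℚ) := ⟨_, rfl⟩
  rw [← hLdef] at hL
  have ha' : ((a.num * (b.den * c.den * e.den : ℕ) : ℤ) : ℚ) = a * L := by
    rw [hLdef]; push_cast
    have := Rat.mul_den_eq_num a
    rw [← this]; ring
  have hb' : ((b.num * (a.den * c.den * e.den : ℕ) : ℤ) : ℚ) = b * L := by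
    rw [hLdef]; push_cast
    have := Rat.mul_den_eq_num b
    rw [← this]; ring
  have hc' : ((c.num * (a.den * b.den * e.den : ℕ) : ℤ) : ℚ) = c * L := by
    rw [hLdef]; push_cast
    have := Rat.mul_den_eq_num c
    rw [← this]; ring
  have he' : ((e.num * (a.den * b.den * c.den : ℕ) : ℤ) : ℚ) = e * L := by
    rw [hLdef]; push_cast
    have := Rat.mul_den_eq_num e
    rw [← this]; ring
  refine no_quad (a.num * (b.den * c.den * e.den : ℕ)) (b.num * (a.den * c.den * e.den : ℕ))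
    (c.num * (a.den * b.den * e.den : ℕ)) (e.num * (a.den * b.den * c.den : ℕ)) ?_ ?_ ?_ ?_
  · have : (((b.num * (a.den * c.den * e.den : ℕ) : ℤ)) : ℚ) ≠ 0 := by
      rw [hb']; exact mul_ne_zero hb hL
    exact_mod_cast this
  · have : (((e.num * (a.den * b.den * c.den : ℕ) : ℤ)) : ℚ) ≠ 0 := by
      rw [he']; exact mul_ne_zero he hL
    exact_mod_cast this
  · have : (((a.num * (b.den * c.den * e.den : ℕ) : ℤ)) : ℚ) ^ 2 =
        (((b.num * (a.den * c.den * e.den : ℕ) : ℤ)) : ℚ) ^ 2 +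
        (((e.num * (a.den * b.den * c.den : ℕ) : ℤ)) : ℚ) ^ 2 := by
      rw [ha', hb', he']; linear_combination L ^ 2 * h1
    exact_mod_cast this
  · have : (((a.num * (b.den * c.den * e.den : ℕ) : ℤ)) : ℚ) ^ 2 =
        (((c.num * (a.den * b.den * e.den : ℕ) : ℤ)) : ℚ) ^ 2 +
        81 * (((e.num * (a.den * b.den * c.den : ℕ) : ℤ)) : ℚ) ^ 2 := by
      rw [ha', hc', he']; linear_combination L ^ 2 * h2
    exact_mod_cast this

/-- The curve `Y² = X (X - 1) (X - 81)` has only the three rational points with `Y = 0`. -/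
theorem E2_points (X Y : ℚ) (h : Y ^ 2 = X * (X - 1) * (X - 81)) : Y = 0 := by
  by_contra hY
  refine no_quad_rat (X ^ 2 - 81) (X ^ 2 - 2 * X + 81) (X ^ 2 - 162 * X + 81) (2 * Y) ?_
    (mul_ne_zero two_ne_zero hY) ?_ ?_
  · nlinarith [sq_nonneg (X - 1)]
  · linear_combination (-4) * h
  · linear_combination (-324) * h

/-- All rational points of `15a : y² = x (x + 9) (x - 16)` (the curve `X₀(15)`). -/
theorem rational_points (x y : ℚ) (h : y ^ 2 = x * (x + 9) * (x - 16)) :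
    (x = 0 ∧ y = 0) ∨ (x = -9 ∧ y = 0) ∨ (x = 16 ∧ y = 0) ∨
    (x = 36 ∧ (y = 180 ∨ y = -180)) ∨ (x = -4 ∧ (y = 20 ∨ y = -20)) := by
  have hy0 : y = 0 → (x = 0 ∧ y = 0) ∨ (x = -9 ∧ y = 0) ∨ (x = 16 ∧ y = 0) ∨
      (x = 36 ∧ (y = 180 ∨ y = -180)) ∨ (x = -4 ∧ (y = 20 ∨ y = -20)) := by
    intro hy
    rw [hy] at h
    have h' : x * (x + 9) * (x - 16) = 0 := by rw [← h]; ring
    rcases mul_eq_zero.1 h' with h'' | h''
    · rcases mul_eq_zero.1 h'' with h3 | h3
      · left; exact ⟨h3, hy⟩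
      · right; left; exact ⟨by linarith, hy⟩
    · right; right; left; exact ⟨by linarith, hy⟩
  obtain ⟨t, ht⟩ : ∃ t : ℚ, t = x - 16 := ⟨_, rfl⟩
  have hx : x = t + 16 := by rw [ht]; ring
  by_cases ht0 : t = 0
  · apply hy0
    rw [hx, ht0] at h
    have : y ^ 2 = 0 := by rw [h]; ring
    exact pow_eq_zero_iff (two_ne_zero) |>.1 this
  · have hy : y ^ 2 = t * (t ^ 2 + 41 * t + 400) := by rw [h, hx]; ring
    have hE := E2_points ((t ^ 2 + 41 * t + 400) / t) (y * (400 - t ^ 2) / t ^ 2) (by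
      rw [div_pow, mul_pow, hy]
      field_simp
      ring)
    rcases div_eq_zero_iff.1 hE with h0 | h0
    · rcases mul_eq_zero.1 h0 with h1 | h1
      · exact hy0 h1
      · have h2 : (t - 20) * (t + 20) = 0 := by linear_combination -h1
        rcases mul_eq_zero.1 h2 with h3 | h3
        · have ht20 : t = 20 := by linarith
          have hx36 : x = 36 := by rw [hx, ht20]; norm_num
          have hy2 : (y - 180) * (y + 180) = 0 := by
            rw [hx36] at h; linear_combination h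
          right; right; right; left
          refine ⟨hx36, ?_⟩
          rcases mul_eq_zero.1 hy2 with h4 | h4
          · left; linarith
          · right; linarith
        · have ht20 : t = -20 := by linarith
          have hx4 : x = -4 := by rw [hx, ht20]; norm_num
          have hy2 : (y - 20) * (y + 20) = 0 := by
            rw [hx4] at h; linear_combination h
          right; right; right; right
          refine ⟨hx4, ?_⟩
          rcases mul_eq_zero.1 hy2 with h4 | h4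
          · left; linarith
          · right; linarith
    · exfalso; exact ht0 (pow_eq_zero_iff two_ne_zero |>.1 h0)

/-- The shape consumed by `QuarticTransfer.quartic_points_of_weierstrass`. -/
theorem rational_points_x (x y : ℚ) (h : y ^ 2 = x * (x + 9) * (x - 16)) :
    x = 0 ∨ x = -9 ∨ x = 16 ∨ x = 36 ∨ x = -4 := by
  rcases rational_points x y h with h | h | h | h | h
  · exact Or.inl h.1
  · exact Or.inr (Or.inl h.1)
  · exact Or.inr (Or.inr (Or.inl h.1))
  · exact Or.inr (Or.inr (Or.inr (Or.inl h.1)))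
  · exact Or.inr (Or.inr (Or.inr (Or.inr h.1)))

end Fermat.Agent.S51.Descent15
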