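import Mathlib

set_option autoImplicit false

namespace Fermat.Agent.S51.QuarticTransfer

/-- The explicit birational map from the quartic model `v² = u⁴ - 10u³ - 13u² + 10u + 1` of
`X₀(15)` to the Weierstrass model `y² = x(x+9)(x-16)`. -/
theorem weierstrass_of_quartic (u v : ℚ) (hu : u ≠ 0)
    (h : v ^ 2 = u ^ 4 - 10 * u ^ 3 - 13 * u ^ 2 + 10 * u + 1) :
    ((4 * (v + 1) + 20 * u - 76 * u ^ 2 + 5 * u * (2 * (v + 1) + 10 * u) - 10 * u ^ 3) / u ^ 3) ^ 2 =
      ((2 * (v + 1) + 10 * u - 2 * u ^ 2) / u ^ 2) *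
        ((2 * (v + 1) + 10 * u - 2 * u ^ 2) / u ^ 2 + 9) *
        ((2 * (v + 1) + 10 * u - 2 * u ^ 2) / u ^ 2 - 16) := by
  have key : (4 * (v + 1) + 20 * u - 76 * u ^ 2 + 5 * u * (2 * (v + 1) + 10 * u) - 10 * u ^ 3) ^ 2 =
      (2 * (v + 1) + 10 * u - 2 * u ^ 2) * (2 * (v + 1) + 10 * u + 7 * u ^ 2) *
        (2 * (v + 1) + 10 * u - 18 * u ^ 2) := by
    linear_combination (152 * u ^ 2 - 40 * u - 8 * v - 8) * h
  have e1 : (2 * (v + 1) + 10 * u - 2 * u ^ 2) / u ^ 2 + 9 =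
      (2 * (v + 1) + 10 * u + 7 * u ^ 2) / u ^ 2 := by
    field_simp; ring
  have e2 : (2 * (v + 1) + 10 * u - 2 * u ^ 2) / u ^ 2 - 16 =
      (2 * (v + 1) + 10 * u - 18 * u ^ 2) / u ^ 2 := by
    field_simp; ring
  rw [e1, e2, div_pow, key]
  field_simp

/-- The rational points of the quartic model of `X₀(15)`, from those of the Weierstrass model. -/
theorem quartic_points_of_weierstrass
    (H : ∀ x y : ℚ, y ^ 2 = x * (x + 9) * (x - 16) →
      x = 0 ∨ x = -9 ∨ x = 16 ∨ x = 36 ∨ x = -4)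
    (u v : ℚ) (h : v ^ 2 = u ^ 4 - 10 * u ^ 3 - 13 * u ^ 2 + 10 * u + 1) :
    u = 0 ∨ u = -2 ∨ u = 1 / 2 := by
  by_cases hu : u = 0
  · exact Or.inl hu
  right
  have hW := weierstrass_of_quartic u v hu h
  have hu2 : u ^ 2 ≠ 0 := pow_ne_zero 2 hu
  -- the relation between `u` and `X`
  have hrel : ∀ X : ℚ, (2 * (v + 1) + 10 * u - 2 * u ^ 2) / u ^ 2 = X →
      ((X + 2) ^ 2 - 4) * u ^ 2 + (40 - 20 * (X + 2)) * u + (152 - 4 * (X + 2)) = 0 := by
    intro X hX
    have hv : 2 * (v + 1) + 10 * u - 2 * u ^ 2 = X * u ^ 2 := by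
      rw [← hX]; field_simp
    have hv' : v = ((X + 2) * u ^ 2 - 10 * u - 2) / 2 := by linarith
    have h2 : (((X + 2) ^ 2 - 4) * u ^ 2 + (40 - 20 * (X + 2)) * u + (152 - 4 * (X + 2))) * u ^ 2
        = 0 := by
      rw [hv'] at h
      linear_combination 4 * h
    rcases mul_eq_zero.mp h2 with h3 | h3
    · exact h3
    · exact absurd h3 hu2
  rcases H _ _ hW with hX | hX | hX | hX | hX
  · have := hrel _ hX
    norm_num at this
  · have := hrel _ hX
    left
    have h4 : (u + 2) ^ 2 = 0 := by linear_combination this / 45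
    have h5 : u + 2 = 0 := by simpa using h4
    linarith
  · have := hrel _ hX
    right
    have h4 : (2 * u - 1) ^ 2 = 0 := by linear_combination this / 80
    have h5 : 2 * u - 1 = 0 := by simpa using h4
    linarith
  · have := hrel _ hX
    right
    have h4 : u * (2 * u - 1) = 0 := by linear_combination this / 720
    rcases mul_eq_zero.mp h4 with h5 | h5
    · exact absurd h5 hu
    · linarith
  · have := hrel _ hX
    left
    linarith

end Fermat.Agent.S51.QuarticTransfer
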