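import Mathlib
import Fermat.Prelude.Def_FLTPrelim_FreyPackage
import Fermat.Prelude.Def_FLTPrelim_GaloisRep
import Fermat.Prelude.Def_FLTPrelim_Modularity
import Fermat.Prelude.Def_FLTPrelim_ModularRep

/-!
# S51 (3 or 5 irreducible for semistable curves): shared definitions

For an integral Weierstrass model `W`, the curve `W_ℚ` is isomorphic to the short model
`y² = x³ + A x + B` with `A = -c₄/48`, `B = -c₆/864`; the isomorphism is
`(x, y) ↦ (x + b₂/12, y + (a₁ x + a₃)/2)`, so `X(P) := x(P) + b₂/12` is the x-coordinate on the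
short model.
-/

set_option autoImplicit false

namespace Fermat.Agent.S51

/-- Reduced short-Weierstrass coefficient `A = -c₄/48`. -/
noncomputable def redA (W : WeierstrassCurve ℤ) : ℚ := -(W.c₄ : ℚ) / 48

/-- Reduced short-Weierstrass coefficient `B = -c₆/864`. -/
noncomputable def redB (W : WeierstrassCurve ℤ) : ℚ := -(W.c₆ : ℚ) / 864

end Fermat.Agent.S51
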