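import Mathlib

/-!
# Pure algebra of the duplication map on a short Weierstrass curve (input for S51)

For `y² = x³ + A x + B` the x-coordinate of `2P` is `dup x = dupNum x / (4 * cubic x)`.
We record the polynomial identities relating `dup`, the division polynomials `ψ₃`, `ψ₅` and the
discriminant `disc = 4A³ + 27B²` (all found/verified by exact polynomial arithmetic), and their
consequences over a field:

* `dupNum_sub` : `dupNum x - 4 x · cubic x = -ψ₃ x`, hence `dup x = x ↔ ψ₃ x = 0`;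
* `double_dup` : the numerator of `dup (dup x) - x` is `-ψ₃ x · ψ₅ x`, hence
  `dup (dup x) = x ↔ ψ₃ x · ψ₅ x = 0`;
* `silverman`, `silverman_hom` : `cubic` and `dupNum` have no common zero when `disc ≠ 0`;
* `bezout35` : `ψ₃` and `ψ₅` have no common zero when `disc ≠ 0`;
* `pair_identity₁`, `pair_identity₂` : the relations satisfied by `s = x₁ + x₂`, `t = x₁ x₂`
  when `dup x₁ = x₂` and `dup x₂ = x₁`.
-/

set_option autoImplicit false

namespace Fermat.Agent.S51.DupAlgebra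

section Ring

variable {K : Type*} [CommRing K] (A B : K)

/-- The cubic `x³ + A x + B`. -/
def cubic (X : K) : K := X ^ 3 + A * X + B

/-- Numerator of the duplication map. -/
def dupNum (X : K) : K := X ^ 4 - 2 * A * X ^ 2 - 8 * B * X + A ^ 2

/-- The third division polynomial. -/
def psi3 (X : K) : K := 3 * X ^ 4 + 6 * A * X ^ 2 + 12 * B * X - A ^ 2

/-- The fifth division polynomial. -/
def psi5 (X : K) : K :=
  5 * X ^ 12 + 62 * A * X ^ 10 + 380 * B * X ^ 9 - 105 * A ^ 2 * X ^ 8 + 240 * A * B * X ^ 7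
    + (-300 * A ^ 3 - 240 * B ^ 2) * X ^ 6 - 696 * A ^ 2 * B * X ^ 5
    + (-125 * A ^ 4 - 1920 * A * B ^ 2) * X ^ 4 + (-80 * A ^ 3 * B - 1600 * B ^ 3) * X ^ 3
    + (-50 * A ^ 5 - 240 * A ^ 2 * B ^ 2) * X ^ 2 + (-100 * A ^ 4 * B - 640 * A * B ^ 3) * X
    + (A ^ 6 - 32 * A ^ 3 * B ^ 2 - 256 * B ^ 4)

/-- The discriminant `4A³ + 27B²` of the cubic. -/
def disc : K := 4 * A ^ 3 + 27 * B ^ 2

/-- Homogenised `dupNum`. -/
def dupNumHom (N D : K) : K := N ^ 4 - 2 * A * N ^ 2 * D ^ 2 - 8 * B * N * D ^ 3 + A ^ 2 * D ^ 4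

/-- Homogenised `cubic`. -/
def cubicHom (N D : K) : K := N ^ 3 + A * N * D ^ 2 + B * D ^ 3

theorem dupNum_sub (X : K) : dupNum A B X - 4 * X * cubic A B X = -psi3 A B X := by
  simp only [dupNum, cubic, psi3]; ring

theorem silverman (X : K) :
    (3 * X ^ 2 + 4 * A) * dupNum A B X - (3 * X ^ 3 - 5 * A * X - 27 * B) * cubic A B X =
      disc A B := by
  simp only [dupNum, cubic, disc]; ring

theorem silverman_hom (N D : K) :
    (3 * N ^ 2 + 4 * A * D ^ 2) * dupNumHom A B N D -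
      (3 * N ^ 3 - 5 * A * N * D ^ 2 - 27 * B * D ^ 3) * cubicHom A B N D =
      disc A B * D ^ 6 := by
  simp only [dupNumHom, cubicHom, disc]; ring

/-- The numerator of `dup (dup X) - X`. -/
theorem double_dup (X : K) :
    dupNumHom A B (dupNum A B X) (4 * cubic A B X) -
      4 * X * (4 * cubic A B X) * cubicHom A B (dupNum A B X) (4 * cubic A B X) =
      -(psi3 A B X * psi5 A B X) := by
  simp only [dupNumHom, cubicHom, dupNum, cubic, psi3, psi5]; ring

/-- Bezout certificate: `ψ₃` and `ψ₅` generate `256 disc³`. -/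
theorem bezout35 (X : K) :
    (-2025 * X ^ 14 - 29025 * X ^ 12 * A - 145800 * X ^ 11 * B - 4941 * X ^ 10 * A ^ 2
      - 294840 * X ^ 9 * A * B + 217287 * X ^ 8 * A ^ 3 + 713205 * X ^ 8 * B ^ 2
      - 1296 * X ^ 7 * A ^ 2 * B + 265077 * X ^ 6 * A ^ 4 + 1319652 * X ^ 6 * A * B ^ 2
      + 161712 * X ^ 5 * A ^ 3 * B + 288360 * X ^ 5 * B ^ 3 + 49605 * X ^ 4 * A ^ 5
      + 362070 * X ^ 4 * A ^ 2 * B ^ 2 - 195624 * X ^ 3 * A ^ 4 * B - 1472688 * X ^ 3 * A * B ^ 3
      + 1569 * X ^ 2 * A ^ 6 - 346284 * X ^ 2 * A ^ 3 * B ^ 2 - 2624400 * X ^ 2 * B ^ 4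
      - 4152 * X * A ^ 5 * B - 9720 * X * A ^ 2 * B ^ 3 - 18571 * A ^ 7 - 281475 * A ^ 4 * B ^ 2
      - 1049760 * A * B ^ 4) * psi3 A B X
    + (1215 * X ^ 6 + 4779 * X ^ 4 * A + 3645 * X ^ 2 * A ^ 2 - 2187 * A ^ 3 - 19683 * B ^ 2)
      * psi5 A B X = 256 * disc A B ^ 3 := by
  simp only [psi3, psi5, disc]; ring

/-- First relation between `s = x₁ + x₂`, `t = x₁ x₂` and the mutual duplication relations. -/
theorem pair_identity₁ (x₁ x₂ : K) :
    (x₂ - x₁) * (A ^ 2 + 2 * ((x₁ + x₂) ^ 2 - x₁ * x₂) * A -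
      ((x₁ + x₂) ^ 4 - 5 * (x₁ + x₂) ^ 2 * (x₁ * x₂) - 5 * (x₁ * x₂) ^ 2)) =
    (2 * x₂ + x₁) * (dupNum A B x₁ - 4 * x₂ * cubic A B x₁) -
      (2 * x₁ + x₂) * (dupNum A B x₂ - 4 * x₁ * cubic A B x₂) := by
  simp only [dupNum, cubic]; ring

/-- Second relation between `s = x₁ + x₂`, `t = x₁ x₂` and the mutual duplication relations. -/
theorem pair_identity₂ (x₁ x₂ : K) :
    (dupNum A B x₁ - 4 * x₂ * cubic A B x₁) + (dupNum A B x₂ - 4 * x₁ * cubic A B x₂) =
    2 * A ^ 2 - 2 * A * ((x₁ + x₂) ^ 2 + 2 * (x₁ * x₂)) + (x₁ + x₂) ^ 4 -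
      8 * (x₁ + x₂) ^ 2 * (x₁ * x₂) + 10 * (x₁ * x₂) ^ 2 - 12 * (x₁ + x₂) * B := by
  simp only [dupNum, cubic]; ring

end Ring

section Field

variable {K : Type*} [Field K] (A B : K)

/-- The duplication map on x-coordinates. -/
noncomputable def dup (X : K) : K := dupNum A B X / (4 * cubic A B X)

variable {A B}

/-- `cubic` and `dupNum` have no common zero. -/
theorem dupNum_ne_zero_of_cubic_eq_zero (hd : disc A B ≠ 0) {X : K} (h : cubic A B X = 0) :
    dupNum A B X ≠ 0 := by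
  intro h2
  have := silverman A B X
  rw [h, h2, mul_zero, mul_zero, sub_zero] at this
  exact hd this.symm

/-- A root of `ψ₃` is not a root of the cubic. -/
theorem cubic_ne_zero_of_psi3 (hd : disc A B ≠ 0) {X : K} (h : psi3 A B X = 0) :
    cubic A B X ≠ 0 := by
  intro h2
  have h3 := dupNum_sub A B X
  rw [h, h2, mul_zero, sub_zero, neg_zero] at h3
  exact dupNum_ne_zero_of_cubic_eq_zero hd h2 h3

/-- A root of `ψ₅` is not a root of the cubic. -/
theorem cubic_ne_zero_of_psi5 (hd : disc A B ≠ 0) {X : K} (h : psi5 A B X = 0) :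
    cubic A B X ≠ 0 := by
  intro h2
  have h3 := double_dup A B X
  rw [h, h2] at h3
  simp only [dupNumHom, cubicHom, mul_zero, zero_mul, sub_zero, neg_zero] at h3
  have h4 : dupNum A B X ^ 4 = 0 := by
    have h5 : (0 : K) ^ 2 = 0 := by norm_num
    have h6 : (0 : K) ^ 3 = 0 := by norm_num
    have h7 : (0 : K) ^ 4 = 0 := by norm_num
    rw [h5, h6, h7] at h3
    simpa using h3
  exact dupNum_ne_zero_of_cubic_eq_zero hd h2 (pow_eq_zero_iff (by norm_num) |>.mp h4)

/-- `ψ₃` and `ψ₅` have no common zero (characteristic `≠ 2`). -/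
theorem psi3_ne_zero_of_psi5 (h2 : (2 : K) ≠ 0) (hd : disc A B ≠ 0) {X : K}
    (h : psi5 A B X = 0) : psi3 A B X ≠ 0 := by
  intro h3
  have := bezout35 A B X
  rw [h, h3, mul_zero, mul_zero, add_zero] at this
  have h256 : (256 : K) ≠ 0 := by
    have : (256 : K) = 2 ^ 8 := by norm_num
    rw [this]
    exact pow_ne_zero 8 h2
  exact mul_ne_zero h256 (pow_ne_zero 3 hd) this.symm

/-- `dup X = X` iff `ψ₃ X = 0`. -/
theorem dup_eq_self_iff (h2 : (2 : K) ≠ 0) {X : K} (hX : cubic A B X ≠ 0) :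
    dup A B X = X ↔ psi3 A B X = 0 := by
  have h4 : (4 : K) * cubic A B X ≠ 0 := by
    have : (4 : K) = 2 * 2 := by norm_num
    rw [this]
    exact mul_ne_zero (mul_ne_zero h2 h2) hX
  rw [dup, div_eq_iff h4]
  have := dupNum_sub A B X
  constructor
  · intro h
    rw [h] at this
    have h5 : -psi3 A B X = 0 := by rw [← this]; ring
    exact neg_eq_zero.mp h5
  · intro h
    rw [h, neg_zero] at this
    linear_combination this

/-- `dup X = Y` iff the numerator relation holds. -/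
theorem dup_eq_iff (h2 : (2 : K) ≠ 0) {X Y : K} (hX : cubic A B X ≠ 0) :
    dup A B X = Y ↔ dupNum A B X - 4 * Y * cubic A B X = 0 := by
  have h4 : (4 : K) * cubic A B X ≠ 0 := by
    have : (4 : K) = 2 * 2 := by norm_num
    rw [this]
    exact mul_ne_zero (mul_ne_zero h2 h2) hX
  have e : Y * (4 * cubic A B X) = 4 * Y * cubic A B X := by ring
  rw [dup, div_eq_iff h4, sub_eq_zero, e]

omit A B in
/-- The cubic at a quotient. -/
theorem cubic_div (A B N D : K) (hD : D ≠ 0) :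
    cubic A B (N / D) * D ^ 3 = cubicHom A B N D := by
  simp only [cubic, cubicHom]
  field_simp

omit A B in
/-- `dupNum` at a quotient. -/
theorem dupNum_div (A B N D : K) (hD : D ≠ 0) :
    dupNum A B (N / D) * D ^ 4 = dupNumHom A B N D := by
  simp only [dupNum, dupNumHom]
  field_simp

/-- The value of the cubic at `dup X`. -/
theorem cubic_dup (h2 : (2 : K) ≠ 0) {X : K} (hX : cubic A B X ≠ 0) :
    cubic A B (dup A B X) * (4 * cubic A B X) ^ 3 =
      cubicHom A B (dupNum A B X) (4 * cubic A B X) := by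
  have h4 : (4 : K) * cubic A B X ≠ 0 := by
    have : (4 : K) = 2 * 2 := by norm_num
    rw [this]
    exact mul_ne_zero (mul_ne_zero h2 h2) hX
  exact cubic_div A B _ _ h4

/-- The value of `dupNum` at `dup X`. -/
theorem dupNum_dup (h2 : (2 : K) ≠ 0) {X : K} (hX : cubic A B X ≠ 0) :
    dupNum A B (dup A B X) * (4 * cubic A B X) ^ 4 =
      dupNumHom A B (dupNum A B X) (4 * cubic A B X) := by
  have h4 : (4 : K) * cubic A B X ≠ 0 := by
    have : (4 : K) = 2 * 2 := by norm_num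
    rw [this]
    exact mul_ne_zero (mul_ne_zero h2 h2) hX
  exact dupNum_div A B _ _ h4

/-- If `ψ₃ X · ψ₅ X = 0` then `dup X` is not a root of the cubic. -/
theorem cubic_dup_ne_zero (h2 : (2 : K) ≠ 0) (hd : disc A B ≠ 0) {X : K}
    (hX : cubic A B X ≠ 0) (h : psi3 A B X * psi5 A B X = 0) :
    cubic A B (dup A B X) ≠ 0 := by
  have h4 : (4 : K) * cubic A B X ≠ 0 := by
    have : (4 : K) = 2 * 2 := by norm_num
    rw [this]
    exact mul_ne_zero (mul_ne_zero h2 h2) hX
  intro h0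
  have hc := cubic_dup h2 hX
  rw [h0, zero_mul] at hc
  have hdd := double_dup A B X
  rw [h, neg_zero, ← hc, mul_zero, sub_zero] at hdd
  have hs := silverman_hom A B (dupNum A B X) (4 * cubic A B X)
  rw [hdd, ← hc, mul_zero, mul_zero, sub_zero] at hs
  exact mul_ne_zero hd (pow_ne_zero 6 h4) hs.symm

/-- `dup (dup X) = X` iff `ψ₃ X · ψ₅ X = 0`. -/
theorem dup_dup_eq_self_iff (h2 : (2 : K) ≠ 0) {X : K} (hX : cubic A B X ≠ 0)
    (hX2 : cubic A B (dup A B X) ≠ 0) :
    dup A B (dup A B X) = X ↔ psi3 A B X * psi5 A B X = 0 := by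
  have h4 : (4 : K) * cubic A B X ≠ 0 := by
    have : (4 : K) = 2 * 2 := by norm_num
    rw [this]
    exact mul_ne_zero (mul_ne_zero h2 h2) hX
  rw [dup_eq_iff h2 hX2]
  have hc := cubic_dup h2 hX
  have hn := dupNum_dup h2 hX
  have hdd := double_dup A B X
  have key : (dupNum A B (dup A B X) - 4 * X * cubic A B (dup A B X)) * (4 * cubic A B X) ^ 4 =
      -(psi3 A B X * psi5 A B X) := by
    rw [← hdd, ← hc, ← hn]
    ring
  constructor
  · intro h
    rw [h, zero_mul] at key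
    exact neg_eq_zero.mp key.symm
  · intro h
    rw [h, neg_zero] at key
    rcases mul_eq_zero.mp key with h5 | h5
    · exact h5
    · exact absurd h5 (pow_ne_zero 4 h4)

end Field

end Fermat.Agent.S51.DupAlgebra
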