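import Mathlib
import Fermat.Agent.S51.DupAlgebra

/-!
# Root counts and packaged consequences of the duplication algebra (input for S51)

* `psi3Poly`, `psi5Poly` : the division polynomials as elements of `K[X]`, with
  `ncard_psi3_roots_le`, `ncard_psi5_roots_le` (at most `4`, resp. `12` roots);
* `five_pair_of_psi5`, `psi5_of_five_pair` : a root `x₁` of `ψ₅` and `x₂ = dup x₁` satisfy the
  mutual duplication relations, and conversely;
* `three_iff` : `dup x = x ↔ ψ₃ x = 0`;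
* `five_relations`, `no_common_root`, `five_data_of_pair` : descent of the relations for
  `s = x₁ + x₂`, `t = x₁ x₂` to `ℚ`.
-/

set_option autoImplicit false

namespace Fermat.Agent.S51.DupRoots

open Polynomial Fermat.Agent.S51.DupAlgebra

section Poly

variable {K : Type*} [Field K] (A B : K)

/-- `ψ₃` as a polynomial. -/
noncomputable def psi3Poly : K[X] :=
  C 3 * X ^ 4 + C (6 * A) * X ^ 2 + C (12 * B) * X - C (A ^ 2)

/-- `ψ₅` as a polynomial. -/
noncomputable def psi5Poly : K[X] :=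
  C 5 * X ^ 12 + C (62 * A) * X ^ 10 + C (380 * B) * X ^ 9 - C (105 * A ^ 2) * X ^ 8
    + C (240 * A * B) * X ^ 7 + C (-300 * A ^ 3 - 240 * B ^ 2) * X ^ 6
    - C (696 * A ^ 2 * B) * X ^ 5 + C (-125 * A ^ 4 - 1920 * A * B ^ 2) * X ^ 4
    + C (-80 * A ^ 3 * B - 1600 * B ^ 3) * X ^ 3 + C (-50 * A ^ 5 - 240 * A ^ 2 * B ^ 2) * X ^ 2
    + C (-100 * A ^ 4 * B - 640 * A * B ^ 3) * X + C (A ^ 6 - 32 * A ^ 3 * B ^ 2 - 256 * B ^ 4)

theorem eval_psi3Poly (x : K) : (psi3Poly A B).eval x = psi3 A B x := by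
  simp only [psi3Poly, psi3, eval_add, eval_sub, eval_mul, eval_C, eval_pow, eval_X]

theorem eval_psi5Poly (x : K) : (psi5Poly A B).eval x = psi5 A B x := by
  simp only [psi5Poly, psi5, eval_add, eval_sub, eval_mul, eval_C, eval_pow, eval_X]

theorem natDegree_psi3Poly_le : (psi3Poly A B).natDegree ≤ 4 := by
  unfold psi3Poly
  compute_degree

theorem natDegree_psi5Poly_le : (psi5Poly A B).natDegree ≤ 12 := by
  unfold psi5Poly
  compute_degree

theorem coeff_psi3Poly : (psi3Poly A B).coeff 4 = 3 := by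
  simp only [psi3Poly, coeff_add, coeff_sub, coeff_C_mul_X_pow, coeff_C_mul_X, coeff_C]
  norm_num

theorem coeff_psi5Poly : (psi5Poly A B).coeff 12 = 5 := by
  simp only [psi5Poly, coeff_add, coeff_sub, coeff_C_mul_X_pow, coeff_C_mul_X, coeff_C]
  norm_num

theorem psi3Poly_ne_zero (h3 : (3 : K) ≠ 0) : psi3Poly A B ≠ 0 := by
  intro h
  have := coeff_psi3Poly A B
  rw [h, coeff_zero] at this
  exact h3 this.symm

theorem psi5Poly_ne_zero (h5 : (5 : K) ≠ 0) : psi5Poly A B ≠ 0 := by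
  intro h
  have := coeff_psi5Poly A B
  rw [h, coeff_zero] at this
  exact h5 this.symm

/-- The zero set of a nonzero polynomial of degree `≤ n` has at most `n` elements. -/
theorem ncard_zeros_le {p : K[X]} (hp : p ≠ 0) {n : ℕ} (hn : p.natDegree ≤ n) :
    {x : K | p.eval x = 0}.Finite ∧ {x : K | p.eval x = 0}.ncard ≤ n := by
  classical
  have hset : {x : K | p.eval x = 0} = ↑p.roots.toFinset := by
    ext x
    simp [mem_roots hp, IsRoot]
  rw [hset]
  refine ⟨Finset.finite_toSet _, ?_⟩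
  rw [Set.ncard_coe_finset]
  exact (Multiset.toFinset_card_le _).trans ((card_roots' p).trans hn)

theorem finite_psi3_roots (h3 : (3 : K) ≠ 0) : {x : K | psi3 A B x = 0}.Finite := by
  have := (ncard_zeros_le (psi3Poly_ne_zero A B h3) (natDegree_psi3Poly_le A B)).1
  simpa only [eval_psi3Poly] using this

theorem ncard_psi3_roots_le (h3 : (3 : K) ≠ 0) : {x : K | psi3 A B x = 0}.ncard ≤ 4 := by
  have := (ncard_zeros_le (psi3Poly_ne_zero A B h3) (natDegree_psi3Poly_le A B)).2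
  simpa only [eval_psi3Poly] using this

theorem finite_psi5_roots (h5 : (5 : K) ≠ 0) : {x : K | psi5 A B x = 0}.Finite := by
  have := (ncard_zeros_le (psi5Poly_ne_zero A B h5) (natDegree_psi5Poly_le A B)).1
  simpa only [eval_psi5Poly] using this

theorem ncard_psi5_roots_le (h5 : (5 : K) ≠ 0) : {x : K | psi5 A B x = 0}.ncard ≤ 12 := by
  have := (ncard_zeros_le (psi5Poly_ne_zero A B h5) (natDegree_psi5Poly_le A B)).2
  simpa only [eval_psi5Poly] using this

/-- Over an algebraically closed field `ψ₃` has a root. -/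
theorem exists_psi3_root [IsAlgClosed K] (h3 : (3 : K) ≠ 0) : ∃ x : K, psi3 A B x = 0 := by
  have hdeg : (psi3Poly A B).degree ≠ 0 := by
    intro h
    have h0 := natDegree_eq_zero_iff_degree_le_zero.mpr h.le
    have := coeff_psi3Poly A B
    rw [coeff_eq_zero_of_natDegree_lt (by omega)] at this
    exact h3 this.symm
  obtain ⟨x, hx⟩ := IsAlgClosed.exists_root (psi3Poly A B) hdeg
  exact ⟨x, by rw [← eval_psi3Poly]; exact hx⟩

/-- Over an algebraically closed field `ψ₅` has a root. -/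
theorem exists_psi5_root [IsAlgClosed K] (h5 : (5 : K) ≠ 0) : ∃ x : K, psi5 A B x = 0 := by
  have hdeg : (psi5Poly A B).degree ≠ 0 := by
    intro h
    have h0 := natDegree_eq_zero_iff_degree_le_zero.mpr h.le
    have := coeff_psi5Poly A B
    rw [coeff_eq_zero_of_natDegree_lt (by omega)] at this
    exact h5 this.symm
  obtain ⟨x, hx⟩ := IsAlgClosed.exists_root (psi5Poly A B) hdeg
  exact ⟨x, by rw [← eval_psi5Poly]; exact hx⟩

end Poly

section Pairs

variable {K : Type*} [Field K] {A B : K}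

/-- A root `x₁` of `ψ₅` and `x₂ := dup x₁` satisfy the mutual duplication relations. -/
theorem five_pair_of_psi5 (h2 : (2 : K) ≠ 0) (hd : disc A B ≠ 0) {x₁ : K}
    (h : psi5 A B x₁ = 0) :
    cubic A B x₁ ≠ 0 ∧ cubic A B (dup A B x₁) ≠ 0 ∧
      dupNum A B x₁ = 4 * dup A B x₁ * cubic A B x₁ ∧
      dupNum A B (dup A B x₁) = 4 * x₁ * cubic A B (dup A B x₁) ∧
      dup A B x₁ ≠ x₁ ∧ psi3 A B x₁ ≠ 0 := by
  have hf1 := cubic_ne_zero_of_psi5 hd h
  have h35 : psi3 A B x₁ * psi5 A B x₁ = 0 := by rw [h, mul_zero]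
  have hf2 := cubic_dup_ne_zero h2 hd hf1 h35
  have h3 := psi3_ne_zero_of_psi5 h2 hd h
  refine ⟨hf1, hf2, ?_, ?_, ?_, h3⟩
  · exact sub_eq_zero.mp ((dup_eq_iff h2 hf1).mp rfl)
  · exact sub_eq_zero.mp ((dup_eq_iff h2 hf2).mp ((dup_dup_eq_self_iff h2 hf1 hf2).mpr h35))
  · intro h4
    exact h3 ((dup_eq_self_iff h2 hf1).mp h4)

/-- Mutual duplication relations for `x₁ ≠ x₂` force `ψ₅ x₁ = 0`. -/
theorem psi5_of_five_pair (h2 : (2 : K) ≠ 0) (hd : disc A B ≠ 0) {x₁ x₂ : K} (hne : x₁ ≠ x₂)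
    (R1 : dupNum A B x₁ = 4 * x₂ * cubic A B x₁) (R2 : dupNum A B x₂ = 4 * x₁ * cubic A B x₂) :
    cubic A B x₁ ≠ 0 ∧ cubic A B x₂ ≠ 0 ∧ dup A B x₁ = x₂ ∧ dup A B x₂ = x₁ ∧
      psi3 A B x₁ ≠ 0 ∧ psi5 A B x₁ = 0 := by
  have hf1 : cubic A B x₁ ≠ 0 := by
    intro h0
    rw [h0, mul_zero] at R1
    exact dupNum_ne_zero_of_cubic_eq_zero hd h0 R1
  have hf2 : cubic A B x₂ ≠ 0 := by
    intro h0
    rw [h0, mul_zero] at R2
    exact dupNum_ne_zero_of_cubic_eq_zero hd h0 R2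
  have hd1 : dup A B x₁ = x₂ := (dup_eq_iff h2 hf1).mpr (sub_eq_zero.mpr R1)
  have hd2 : dup A B x₂ = x₁ := (dup_eq_iff h2 hf2).mpr (sub_eq_zero.mpr R2)
  have h3 : psi3 A B x₁ ≠ 0 := by
    intro h3
    have := (dup_eq_self_iff h2 hf1).mpr h3
    exact hne (this.symm.trans hd1)
  refine ⟨hf1, hf2, hd1, hd2, h3, ?_⟩
  have hf2' : cubic A B (dup A B x₁) ≠ 0 := by rw [hd1]; exact hf2
  have hdd : dup A B (dup A B x₁) = x₁ := by rw [hd1, hd2]
  have := (dup_dup_eq_self_iff h2 hf1 hf2').mp hdd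
  rcases mul_eq_zero.mp this with h | h
  · exact absurd h h3
  · exact h

/-- The relations satisfied by `s = x₁ + x₂` and `t = x₁ x₂` for a mutually duplicating pair. -/
theorem five_relations {x₁ x₂ s t : K} (hs : x₁ + x₂ = s) (ht : x₁ * x₂ = t) (hne : x₁ ≠ x₂)
    (R1 : dupNum A B x₁ = 4 * x₂ * cubic A B x₁) (R2 : dupNum A B x₂ = 4 * x₁ * cubic A B x₂) :
    A ^ 2 + 2 * (s ^ 2 - t) * A - (s ^ 4 - 5 * s ^ 2 * t - 5 * t ^ 2) = 0 ∧
      12 * s * B = 2 * A ^ 2 - 2 * A * (s ^ 2 + 2 * t) + s ^ 4 - 8 * s ^ 2 * t + 10 * t ^ 2 := by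
  subst hs ht
  have h1 := pair_identity₁ A B x₁ x₂
  have h2 := pair_identity₂ A B x₁ x₂
  have h1' : (x₂ - x₁) * (A ^ 2 + 2 * ((x₁ + x₂) ^ 2 - x₁ * x₂) * A -
      ((x₁ + x₂) ^ 4 - 5 * (x₁ + x₂) ^ 2 * (x₁ * x₂) - 5 * (x₁ * x₂) ^ 2)) = 0 := by
    rw [h1, R1, R2]; ring
  have h2' : (0 : K) = 2 * A ^ 2 - 2 * A * ((x₁ + x₂) ^ 2 + 2 * (x₁ * x₂)) + (x₁ + x₂) ^ 4 -
      8 * (x₁ + x₂) ^ 2 * (x₁ * x₂) + 10 * (x₁ * x₂) ^ 2 - 12 * (x₁ + x₂) * B := by
    rw [← h2, R1, R2]; ring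
  constructor
  · rcases mul_eq_zero.mp h1' with h | h
    · exact absurd (sub_eq_zero.mp h).symm hne
    · exact h
  · linear_combination h2'

/-- A root of `ψ₃` is not a root of `X² - s X + t` when neither `x₁` nor `x₂` is a root of
`ψ₃`. -/
theorem no_common_root {x₁ x₂ s t : K} (hs : x₁ + x₂ = s) (ht : x₁ * x₂ = t)
    (h1 : psi3 A B x₁ ≠ 0) (h2 : psi3 A B x₂ ≠ 0) (x : K) (hx : psi3 A B x = 0) :
    x ^ 2 - s * x + t ≠ 0 := by
  subst hs ht
  intro h
  have : (x - x₁) * (x - x₂) = 0 := by linear_combination h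
  rcases mul_eq_zero.mp this with h3 | h3
  · rw [sub_eq_zero.mp h3] at hx
    exact h1 hx
  · rw [sub_eq_zero.mp h3] at hx
    exact h2 hx

end Pairs

section Descent

variable {K : Type*} [Field K]

theorem map_cubic (φ : ℚ →+* K) (A B x : ℚ) :
    φ (cubic A B x) = cubic (φ A) (φ B) (φ x) := by
  simp only [cubic, map_add, map_mul, map_pow]

theorem map_dupNum (φ : ℚ →+* K) (A B x : ℚ) :
    φ (dupNum A B x) = dupNum (φ A) (φ B) (φ x) := by
  simp only [dupNum, map_add, map_sub, map_mul, map_pow, map_ofNat]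

theorem map_psi3 (φ : ℚ →+* K) (A B x : ℚ) :
    φ (psi3 A B x) = psi3 (φ A) (φ B) (φ x) := by
  simp only [psi3, map_add, map_sub, map_mul, map_pow, map_ofNat]

theorem map_disc (φ : ℚ →+* K) (A B : ℚ) : φ (disc A B) = disc (φ A) (φ B) := by
  simp only [disc, map_add, map_mul, map_pow, map_ofNat]

/-- A rational root of `ψ₃` from a root in an extension field which is rational. -/
theorem three_data_of_root (φ : ℚ →+* K) (A B q : ℚ) (h : psi3 (φ A) (φ B) (φ q) = 0) :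
    3 * q ^ 4 + 6 * A * q ^ 2 + 12 * B * q - A ^ 2 = 0 := by
  rw [← map_psi3, map_eq_zero] at h
  exact h

/-- **The `five_data` package**: a mutually duplicating pair `x₁ ≠ x₂` in an extension field of
`ℚ` with rational `s = x₁ + x₂`, `t = x₁ x₂` gives the relations over `ℚ`. -/
theorem five_data_of_pair (φ : ℚ →+* K) (A B s t : ℚ) (hd : disc A B ≠ 0) {x₁ x₂ : K}
    (hs : x₁ + x₂ = φ s) (ht : x₁ * x₂ = φ t) (hne : x₁ ≠ x₂)
    (R1 : dupNum (φ A) (φ B) x₁ = 4 * x₂ * cubic (φ A) (φ B) x₁)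
    (R2 : dupNum (φ A) (φ B) x₂ = 4 * x₁ * cubic (φ A) (φ B) x₂) :
    s ^ 2 - 4 * t ≠ 0 ∧
      A ^ 2 + 2 * (s ^ 2 - t) * A - (s ^ 4 - 5 * s ^ 2 * t - 5 * t ^ 2) = 0 ∧
      12 * s * B = 2 * A ^ 2 - 2 * A * (s ^ 2 + 2 * t) + s ^ 4 - 8 * s ^ 2 * t + 10 * t ^ 2 ∧
      ∀ x : ℚ, 3 * x ^ 4 + 6 * A * x ^ 2 + 12 * B * x - A ^ 2 = 0 → x ^ 2 - s * x + t ≠ 0 := by
  have hinj : Function.Injective φ := φ.injective
  have h2 : (2 : K) ≠ 0 := by
    have : φ 2 = 2 := map_ofNat φ 2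
    rw [← this]
    exact (map_ne_zero φ).mpr (by norm_num)
  have hdK : disc (φ A) (φ B) ≠ 0 := by
    rw [← map_disc]
    exact (map_ne_zero φ).mpr hd
  obtain ⟨hf1, hf2, hd1, hd2, h31, -⟩ := psi5_of_five_pair h2 hdK hne R1 R2
  have h32 : psi3 (φ A) (φ B) x₂ ≠ 0 := by
    intro h3
    have := (dup_eq_self_iff h2 hf2).mpr h3
    exact hne (hd2.symm.trans this)
  obtain ⟨e1, e2⟩ := five_relations hs ht hne R1 R2
  refine ⟨?_, ?_, ?_, ?_⟩
  · intro h
    have h' : φ (s ^ 2 - 4 * t) = 0 := by rw [h, map_zero]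
    have : (x₁ - x₂) ^ 2 = 0 := by
      have e : (x₁ - x₂) ^ 2 = (x₁ + x₂) ^ 2 - 4 * (x₁ * x₂) := by ring
      rw [e, hs, ht]
      simpa only [map_sub, map_mul, map_pow, map_ofNat] using h'
    exact hne (sub_eq_zero.mp (pow_eq_zero_iff (by norm_num) |>.mp this))
  · apply hinj
    simpa only [map_add, map_sub, map_mul, map_pow, map_ofNat, map_zero] using e1
  · apply hinj
    simpa only [map_add, map_sub, map_mul, map_pow, map_ofNat] using e2
  · intro x hx hq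
    have hx' : psi3 (φ A) (φ B) (φ x) = 0 := by
      rw [← map_psi3]
      simp only [psi3]
      rw [hx, map_zero]
    have := no_common_root hs ht h31 h32 (φ x) hx'
    apply this
    have : φ (x ^ 2 - s * x + t) = 0 := by rw [hq, map_zero]
    simpa only [map_add, map_sub, map_mul, map_pow] using this

end Descent

end Fermat.Agent.S51.DupRoots
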