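import Mathlib

/-!
# S51: from the concordant-forms descent to the rational points of `X₀(15)`

The Fermat descent statement

  `HD : ∀ p q r s : ℤ, p ^ 2 - q ^ 2 = r ^ 2 → p ^ 2 - 81 * q ^ 2 = s ^ 2 → q = 0`

says that the only rational point `P` on `E' : y² = x (x - 1) (x - 81)` all of whose `x - eᵢ`
are squares is the point at infinity.  Since `2 P` always has that property, `E'(ℚ)` consists
of the `2`-torsion only.  The curve `E : y² = x (x + 9) (x - 16)` is `2`-isogenous to `E'`,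
which pins down `E(ℚ)`.
-/

set_option autoImplicit false

namespace Fermat.Agent.S51.Transfer15

/-- A rational number whose square is an integer comes from an integer. -/
theorem exists_int_sq_of_rat_sq {n : ℤ} {t : ℚ} (h : t ^ 2 = (n : ℚ)) : ∃ m : ℤ, n = m ^ 2 := by
  have h1 : IsSquare ((n : ℤ) : ℚ) := ⟨t, by rw [← h, sq]⟩
  obtain ⟨m, hm⟩ := Rat.isSquare_intCast_iff.mp h1
  exact ⟨m, by rw [hm, sq]⟩

/-- All rational points of `y² = x (x - 1) (x - 81)` have `y = 0`. -/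
theorem Eprime_points
    (HD : ∀ p q r s : ℤ, p ^ 2 - q ^ 2 = r ^ 2 → p ^ 2 - 81 * q ^ 2 = s ^ 2 → q = 0)
    (x y : ℚ) (h : y ^ 2 = x * (x - 1) * (x - 81)) : y = 0 := by
  by_contra hy
  set u : ℚ := (x ^ 2 - 81) / (2 * y) with hu
  set v : ℚ := (x ^ 2 - 2 * x + 81) / (2 * y) with hv
  set w : ℚ := (x ^ 2 - 162 * x + 81) / (2 * y) with hw
  have h2y : (2 * y) ≠ 0 := mul_ne_zero two_ne_zero hy
  have h2y2 : (2 * y) ^ 2 ≠ 0 := pow_ne_zero 2 h2y
  have kuv : (x ^ 2 - 81) ^ 2 - 1 * (2 * y) ^ 2 = (x ^ 2 - 2 * x + 81) ^ 2 := by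
    linear_combination (-4 : ℚ) * h
  have kuw : (x ^ 2 - 81) ^ 2 - 81 * (2 * y) ^ 2 = (x ^ 2 - 162 * x + 81) ^ 2 := by
    linear_combination (-324 : ℚ) * h
  have huv : u ^ 2 - 1 = v ^ 2 := by
    rw [hu, hv, div_pow, div_pow, ← kuv, sub_div, mul_div_assoc, div_self h2y2, mul_one]
  have huw : u ^ 2 - 81 = w ^ 2 := by
    rw [hu, hw, div_pow, div_pow, ← kuw, sub_div, mul_div_assoc, div_self h2y2, mul_one]
  -- clear denominators
  have hden : (u.den : ℚ) ≠ 0 := by exact_mod_cast u.den_ne_zero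
  have hnum : u * (u.den : ℚ) = (u.num : ℚ) := Rat.mul_den_eq_num u
  have h1 : (v * u.den) ^ 2 = ((u.num ^ 2 - (u.den : ℤ) ^ 2 : ℤ) : ℚ) := by
    push_cast
    rw [← hnum]
    linear_combination (u.den : ℚ) ^ 2 * (-huv)
  have h2 : (w * u.den) ^ 2 = ((u.num ^ 2 - 81 * (u.den : ℤ) ^ 2 : ℤ) : ℚ) := by
    push_cast
    rw [← hnum]
    linear_combination (u.den : ℚ) ^ 2 * (-huw)
  obtain ⟨r, hr⟩ := exists_int_sq_of_rat_sq h1
  obtain ⟨s, hs⟩ := exists_int_sq_of_rat_sq h2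
  have := HD u.num (u.den : ℤ) r s hr hs
  exact u.den_ne_zero (by exact_mod_cast this)

/-- The rational points of `y² = x (x + 9) (x - 16)` (the curve `15a1 = X₀(15)`). -/
theorem weierstrass_points
    (HD : ∀ p q r s : ℤ, p ^ 2 - q ^ 2 = r ^ 2 → p ^ 2 - 81 * q ^ 2 = s ^ 2 → q = 0)
    (x y : ℚ) (h : y ^ 2 = x * (x + 9) * (x - 16)) :
    x = 0 ∨ x = -9 ∨ x = 16 ∨ x = 36 ∨ x = -4 := by
  by_cases hx : x = 16
  · exact Or.inr (Or.inr (Or.inl hx))
  have hX : x - 16 ≠ 0 := sub_ne_zero.mpr hx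
  have hX2 : (x - 16) ^ 2 ≠ 0 := pow_ne_zero 2 hX
  -- the image under the 2-isogeny with kernel generated by (16, 0)
  have hE' : (y * (400 - (x - 16) ^ 2) / (x - 16) ^ 2) ^ 2 =
      (y ^ 2 / (x - 16) ^ 2) * (y ^ 2 / (x - 16) ^ 2 - 1) * (y ^ 2 / (x - 16) ^ 2 - 81) := by
    have e1 : y ^ 2 / (x - 16) ^ 2 - 1 = (y ^ 2 - (x - 16) ^ 2) / (x - 16) ^ 2 := by
      field_simp
    have e2 : y ^ 2 / (x - 16) ^ 2 - 81 = (y ^ 2 - 81 * (x - 16) ^ 2) / (x - 16) ^ 2 := by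
      field_simp
    have key : (400 - (x - 16) ^ 2) ^ 2 * (x - 16) ^ 2 =
        (y ^ 2 - (x - 16) ^ 2) * (y ^ 2 - 81 * (x - 16) ^ 2) := by
      linear_combination (-(y ^ 2 + x * (x + 9) * (x - 16) - 82 * (x - 16) ^ 2)) * h
    rw [e1, e2, div_pow, div_mul_div_comm, div_mul_div_comm, div_eq_div_iff (pow_ne_zero 2 hX2)
      (mul_ne_zero (mul_ne_zero hX2 hX2) hX2)]
    linear_combination (y ^ 2 * ((x - 16) ^ 2) ^ 2) * key
  have h0 := Eprime_points HD _ _ hE'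
  rw [div_eq_zero_iff] at h0
  rcases h0 with h0 | h0
  · rcases mul_eq_zero.mp h0 with hy | h400
    · -- y = 0
      rw [hy] at h
      have h3 : x * (x + 9) * (x - 16) = 0 := by rw [← h]; ring
      rcases mul_eq_zero.mp h3 with h4 | h4
      · rcases mul_eq_zero.mp h4 with h5 | h5
        · exact Or.inl h5
        · exact Or.inr (Or.inl (by linarith))
      · exact absurd h4 hX
    · -- (x - 16)^2 = 400
      have h3 : (x - 36) * (x + 4) = 0 := by linear_combination -h400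
      rcases mul_eq_zero.mp h3 with h4 | h4
      · exact Or.inr (Or.inr (Or.inr (Or.inl (by linarith))))
      · exact Or.inr (Or.inr (Or.inr (Or.inr (by linarith))))
  · exact absurd h0 hX2

end Fermat.Agent.S51.Transfer15
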