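import Fermat.Agent.S51.Wiring
import Fermat.Agent.S51.Tors.Inputs
import Fermat.Agent.S51.QuarticTransfer
import Fermat.Agent.S51.Transfer15

/-!
# S51: everything except the descent

`result_of_weierstrass`: S51 from the list of rational points of `y² = x(x+9)(x-16)`.
`result_of_descent`: S51 from the integer descent statement
`p² - q² = r²`, `p² - 81 q² = s²` ⟹ `q = 0`.
-/

set_option autoImplicit false

open WeierstrassCurve

namespace Fermat.Agent.S51

theorem result_of_weierstrass
    (H : ∀ x y : ℚ, y ^ 2 = x * (x + 9) * (x - 16) →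
      x = 0 ∨ x = -9 ∨ x = 16 ∨ x = 36 ∨ x = -4)
    (W : WeierstrassCurve ℤ) (hΔ : W.Δ ≠ 0) (hW : W.IsSemistableModel) :
    W.ModRepIsIrreducible 3 ∨ W.ModRepIsIrreducible 5 :=
  result_of_inputs Tors.Inputs.three Tors.Inputs.five
    (fun x y h => QuarticTransfer.quartic_points_of_weierstrass H x y h) W hΔ hW

theorem result_of_descent
    (HD : ∀ p q r s : ℤ, p ^ 2 - q ^ 2 = r ^ 2 → p ^ 2 - 81 * q ^ 2 = s ^ 2 → q = 0)
    (W : WeierstrassCurve ℤ) (hΔ : W.Δ ≠ 0) (hW : W.IsSemistableModel) :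
    W.ModRepIsIrreducible 3 ∨ W.ModRepIsIrreducible 5 :=
  result_of_weierstrass (fun x y h => Transfer15.weierstrass_points HD x y h) W hΔ hW

end Fermat.Agent.S51
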