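import Mathlib

/-!
# S51: the concordant-forms descent

There are no integers `p, q, r, s` with `q ≠ 0`, `p² - q² = r²` and `p² - 81 q² = s²`.
Equivalently: on the elliptic curve `y² = x (x - 1) (x - 81)` (Cremona `15a2`) the only rational
point all of whose `x - eᵢ` are squares is the point at infinity.  The proof is a Fermat descent
on `p`.
-/

set_option autoImplicit false

namespace Fermat.Agent.S51.Concordant

/-- Coprime integers are not both even. -/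
theorem not_two_dvd_both {x y : ℤ} (h : IsCoprime x y) (hx : (2 : ℤ) ∣ x) (hy : (2 : ℤ) ∣ y) :
    False := by
  obtain ⟨u, v, huv⟩ := h
  have h2 : (2 : ℤ) ∣ 1 := by
    rw [← huv]
    exact dvd_add (dvd_mul_of_dvd_right hx u) (dvd_mul_of_dvd_right hy v)
  omega

/-- If `A B = q²` with `A, B` positive and coprime, then `A` and `B` are squares. -/
theorem sq_factor {A B q : ℤ} (hA : 0 < A) (hB : 0 < B) (hq : 0 < q) (hcop : IsCoprime A B)
    (h : A * B = q ^ 2) :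
    ∃ a b : ℤ, 0 < a ∧ 0 < b ∧ A = a ^ 2 ∧ B = b ^ 2 ∧ q = a * b := by
  obtain ⟨a0, ha0⟩ := Int.sq_of_isCoprime hcop h
  obtain ⟨b0, hb0⟩ := Int.sq_of_isCoprime hcop.symm (by rw [mul_comm]; exact h)
  have hA' : A = a0 ^ 2 := by
    rcases ha0 with h1 | h1
    · exact h1
    · exfalso; nlinarith [sq_nonneg a0]
  have hB' : B = b0 ^ 2 := by
    rcases hb0 with h1 | h1
    · exact h1
    · exfalso; nlinarith [sq_nonneg b0]
  have ha0' : a0 ≠ 0 := by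
    rintro rfl
    simp at hA'
    omega
  have hb0' : b0 ≠ 0 := by
    rintro rfl
    simp at hB'
    omega
  refine ⟨|a0|, |b0|, abs_pos.mpr ha0', abs_pos.mpr hb0', by rw [sq_abs]; exact hA',
    by rw [sq_abs]; exact hB', ?_⟩
  have hpos : 0 < |a0| * |b0| := mul_pos (abs_pos.mpr ha0') (abs_pos.mpr hb0')
  have h3 : (q - |a0| * |b0|) * (q + |a0| * |b0|) = 0 := by
    have : (|a0| * |b0|) ^ 2 = q ^ 2 := by
      rw [mul_pow, sq_abs, sq_abs, ← hA', ← hB', h]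
    linear_combination -this
  rcases mul_eq_zero.mp h3 with h4 | h4
  · linarith
  · exfalso; linarith

/-- From `p² - q² = r²` and `gcd(p,q) = 1` we get `gcd(p,r) = 1`. -/
theorem coprime_of_sq_sub {p q r : ℤ} (hpq : IsCoprime p q) (h : p ^ 2 - q ^ 2 = r ^ 2) :
    IsCoprime p r := by
  have h1 : IsCoprime p (q ^ 2) := hpq.pow_right
  have h2 : IsCoprime p (r ^ 2) := by
    have e : r ^ 2 = -(q ^ 2) + p * p := by linarith
    rw [e]
    exact h1.neg_right.add_mul_left_right p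
  exact (IsCoprime.pow_right_iff (by norm_num : 0 < 2)).mp h2

/-- `3 ∤ p` in a primitive solution. -/
theorem not_three_dvd {p q r : ℤ} (hpq : IsCoprime p q) (h : p ^ 2 - q ^ 2 = r ^ 2) :
    ¬ (3 : ℤ) ∣ p := by
  intro h3
  have key : ∀ a b c : ZMod 3, a = 0 → a ^ 2 - b ^ 2 = c ^ 2 → b = 0 := by decide
  have hq : (3 : ℤ) ∣ q := by
    have h3' : ((p : ℤ) : ZMod 3) = 0 := (ZMod.intCast_zmod_eq_zero_iff_dvd p 3).mpr h3
    have h' := congrArg (Int.cast : ℤ → ZMod 3) h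
    push_cast at h'
    exact (ZMod.intCast_zmod_eq_zero_iff_dvd q 3).mp (key _ _ _ h3' h')
  obtain ⟨u, v, huv⟩ := hpq
  have h31 : (3 : ℤ) ∣ 1 := by
    rw [← huv]
    exact dvd_add (dvd_mul_of_dvd_right h3 u) (dvd_mul_of_dvd_right hq v)
  omega

/-- From `p² - 81 q² = s²`, `gcd(p,q) = 1` and `3 ∤ p` we get `gcd(p,s) = 1`. -/
theorem coprime_of_sq_sub' {p q s : ℤ} (hpq : IsCoprime p q) (h3 : ¬ (3 : ℤ) ∣ p)
    (h : p ^ 2 - 81 * q ^ 2 = s ^ 2) : IsCoprime p s := by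
  have h3' : IsCoprime p 3 := (Int.prime_three.coprime_iff_not_dvd.mpr h3).symm
  have h1 : IsCoprime p (81 * q ^ 2) := by
    have : IsCoprime p ((3 : ℤ) ^ 4) := h3'.pow_right
    exact IsCoprime.mul_right (by norm_num at this ⊢; exact this) hpq.pow_right
  have h2 : IsCoprime p (s ^ 2) := by
    have e : s ^ 2 = -(81 * q ^ 2) + p * p := by linarith
    rw [e]
    exact h1.neg_right.add_mul_left_right p
  exact (IsCoprime.pow_right_iff (by norm_num : 0 < 2)).mp h2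

/-- Parametrisation of `P² - R² = Q²` with `P, R` coprime. -/
theorem pair_param {P R Q : ℤ} (hP : 0 < P) (hQ : 0 < Q) (hcop : IsCoprime P R)
    (h : P ^ 2 - R ^ 2 = Q ^ 2) :
    (¬ (2 : ℤ) ∣ Q → ∃ a b : ℤ, 0 < a ∧ 0 < b ∧ IsCoprime a b ∧ a * b = Q ∧
        a ^ 2 + b ^ 2 = 2 * P) ∧
    (∀ Q₁ : ℤ, Q = 2 * Q₁ → ∃ a b : ℤ, 0 < a ∧ 0 < b ∧ IsCoprime a b ∧ a * b = Q₁ ∧
        a ^ 2 + b ^ 2 = P) := by
  have hAB : (P + R) * (P - R) = Q ^ 2 := by linear_combination h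
  have hQ2 : 0 < Q ^ 2 := by positivity
  have hApos : 0 < P + R ∧ 0 < P - R := by
    have hprod : 0 < (P + R) * (P - R) := by rw [hAB]; exact hQ2
    rcases pos_and_pos_or_neg_and_neg_of_mul_pos hprod with h1 | h1
    · exact h1
    · exfalso; linarith [h1.1, h1.2]
  obtain ⟨hA, hB⟩ := hApos
  obtain ⟨u, v, huv⟩ := hcop
  constructor
  · intro hodd
    have hAodd : ¬ (2 : ℤ) ∣ (P + R) := by
      intro h2
      have : (2 : ℤ) ∣ Q ^ 2 := by rw [← hAB]; exact dvd_mul_of_dvd_left h2 _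
      exact hodd (Int.prime_two.dvd_of_dvd_pow this)
    obtain ⟨k, hk⟩ : ∃ k : ℤ, P + R = 2 * k + 1 := ⟨(P + R) / 2, by omega⟩
    have hcopAB : IsCoprime (P + R) (P - R) :=
      ⟨1 - k * (u + v), -(k * (u - v)), by linear_combination hk - 2 * k * huv⟩
    obtain ⟨a, b, ha, hb, hAa, hBb, hQab⟩ := sq_factor hA hB hQ hcopAB hAB
    refine ⟨a, b, ha, hb, ?_, hQab.symm, by linarith⟩
    have : IsCoprime (a ^ 2) (b ^ 2) := by rw [← hAa, ← hBb]; exact hcopAB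
    exact (IsCoprime.pow_iff (by norm_num : 0 < 2) (by norm_num : 0 < 2)).mp this
  · intro Q₁ hQ₁
    have hQ₁pos : 0 < Q₁ := by omega
    have hev : Even ((P + R) * (P - R)) := by
      rw [hAB, hQ₁]
      exact ⟨2 * Q₁ ^ 2, by ring⟩
    have hiff : Even (P + R) ↔ Even (P - R) := by
      have : Even ((P + R) - (P - R)) := ⟨R, by ring⟩
      exact Int.even_sub.mp this
    have hA2 : Even (P + R) := by
      rcases Int.even_mul.mp hev with h1 | h1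
      · exact h1
      · exact hiff.mpr h1
    have hB2 : Even (P - R) := hiff.mp hA2
    obtain ⟨A₁, hA₁⟩ := hA2
    obtain ⟨B₁, hB₁⟩ := hB2
    have hA₁pos : 0 < A₁ := by omega
    have hB₁pos : 0 < B₁ := by omega
    have hPsum : P = A₁ + B₁ := by linarith
    have hRdiff : R = A₁ - B₁ := by linarith
    have hcop1 : IsCoprime A₁ B₁ :=
      ⟨u + v, u - v, by rw [hPsum, hRdiff] at huv; linear_combination huv⟩
    have hprod : A₁ * B₁ = Q₁ ^ 2 := by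
      have h4 : (A₁ + A₁) * (B₁ + B₁) = (2 * Q₁) ^ 2 := by rw [← hA₁, ← hB₁, hAB, hQ₁]
      have h5 : 4 * (A₁ * B₁) = 4 * Q₁ ^ 2 := by linear_combination h4
      linarith
    obtain ⟨a, b, ha, hb, hAa, hBb, hQab⟩ := sq_factor hA₁pos hB₁pos hQ₁pos hcop1 hprod
    refine ⟨a, b, ha, hb, ?_, hQab.symm, by rw [hPsum, hAa, hBb]⟩
    have : IsCoprime (a ^ 2) (b ^ 2) := by rw [← hAa, ← hBb]; exact hcop1
    exact (IsCoprime.pow_iff (by norm_num : 0 < 2) (by norm_num : 0 < 2)).mp this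

/-- First half of the descent step: a primitive positive solution yields `a, b, c, d`. -/
theorem abcd_of_solution {p q r s : ℤ} (hp : 0 < p) (hq : 0 < q) (hpq : IsCoprime p q)
    (h1 : p ^ 2 - q ^ 2 = r ^ 2) (h2 : p ^ 2 - 81 * q ^ 2 = s ^ 2) :
    ∃ a b c d : ℤ, 0 < a ∧ 0 < b ∧ 0 < c ∧ 0 < d ∧ IsCoprime a b ∧ IsCoprime c d ∧
      9 * (a * b) = c * d ∧ a ^ 2 + b ^ 2 = c ^ 2 + d ^ 2 ∧ a ^ 2 + b ^ 2 ≤ 2 * p := by
  have h3 := not_three_dvd hpq h1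
  have hpr := coprime_of_sq_sub hpq h1
  have hps := coprime_of_sq_sub' hpq h3 h2
  have h2' : p ^ 2 - s ^ 2 = (9 * q) ^ 2 := by linear_combination h2
  have h1' : p ^ 2 - r ^ 2 = q ^ 2 := by linear_combination h1
  have h9q : 0 < 9 * q := by linarith
  obtain ⟨hodd1, hev1⟩ := pair_param hp hq hpr h1'
  obtain ⟨hodd2, hev2⟩ := pair_param hp h9q hps h2'
  by_cases hpar : (2 : ℤ) ∣ q
  · obtain ⟨q₁, hq₁⟩ := hpar
    obtain ⟨a, b, ha, hb, hab, habq, habp⟩ := hev1 q₁ hq₁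
    obtain ⟨c, d, hc, hd, hcd, hcdq, hcdp⟩ := hev2 (9 * q₁) (by rw [hq₁]; ring)
    exact ⟨a, b, c, d, ha, hb, hc, hd, hab, hcd, by rw [habq, hcdq], by rw [habp, hcdp],
      by rw [habp]; linarith⟩
  · have hpar9 : ¬ (2 : ℤ) ∣ 9 * q := by omega
    obtain ⟨a, b, ha, hb, hab, habq, habp⟩ := hodd1 hpar
    obtain ⟨c, d, hc, hd, hcd, hcdq, hcdp⟩ := hodd2 hpar9
    exact ⟨a, b, c, d, ha, hb, hc, hd, hab, hcd, by rw [habq, hcdq], by rw [habp, hcdp],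
      by rw [habp]⟩

/-- The four-number lemma. -/
theorem four_numbers {a b c d : ℤ} (ha : 0 < a) (_hb : 0 < b) (hc : 0 < c) (hd : 0 < d)
    (hab : IsCoprime a b) (h : a * b = c * d) :
    ∃ α β γ δ : ℤ, 0 < α ∧ 0 < β ∧ 0 < γ ∧ 0 < δ ∧ a = α * β ∧ b = γ * δ ∧ c = α * γ ∧
      d = β * δ ∧ IsCoprime α δ ∧ IsCoprime β γ := by
  have hg : 0 < Int.gcd a c := Int.gcd_pos_of_ne_zero_left c ha.ne'
  obtain ⟨β, γ, hβγ, haβ, hcγ⟩ := Int.exists_gcd_one hg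
  set α : ℤ := (Int.gcd a c : ℤ) with hα
  have hαpos : 0 < α := by rw [hα]; exact_mod_cast hg
  have hβpos : 0 < β := by
    by_contra hneg
    have : β * α ≤ 0 := mul_nonpos_of_nonpos_of_nonneg (not_lt.mp hneg) hαpos.le
    linarith
  have hγpos : 0 < γ := by
    by_contra hneg
    have : γ * α ≤ 0 := mul_nonpos_of_nonpos_of_nonneg (not_lt.mp hneg) hαpos.le
    linarith
  have hcop : IsCoprime β γ := Int.isCoprime_iff_gcd_eq_one.mpr hβγ
  have h' : β * b = γ * d := by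
    have : α * (β * b) = α * (γ * d) := by
      calc α * (β * b) = (β * α) * b := by ring
        _ = a * b := by rw [← haβ]
        _ = c * d := h
        _ = (γ * α) * d := by rw [← hcγ]
        _ = α * (γ * d) := by ring
    exact mul_left_cancel₀ hαpos.ne' this
  have hβd : β ∣ d := by
    have : β ∣ γ * d := ⟨b, h'.symm⟩
    exact hcop.dvd_of_dvd_mul_left this
  obtain ⟨δ, hδ⟩ := hβd
  have hδpos : 0 < δ := by
    by_contra hneg
    have : β * δ ≤ 0 := mul_nonpos_of_nonneg_of_nonpos hβpos.le (not_lt.mp hneg)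
    linarith
  have hb' : b = γ * δ := by
    have : β * b = β * (γ * δ) := by rw [h', hδ]; ring
    exact mul_left_cancel₀ hβpos.ne' this
  refine ⟨α, β, γ, δ, hαpos, hβpos, hγpos, hδpos, by rw [haβ]; ring, hb', by rw [hcγ]; ring,
    hδ, ?_, hcop⟩
  have hab' : IsCoprime (α * β) (γ * δ) := by
    have e1 : a = α * β := by rw [haβ]; ring
    rw [← e1, ← hb']; exact hab
  exact hab'.of_mul_left_left.of_mul_right_right

/-- The divisors of `80`. -/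
theorem dvd_eighty_cases {G : ℤ} (h : G ∣ 80) :
    G = 1 ∨ G = -1 ∨ G = 2 ∨ G = -2 ∨ G = 4 ∨ G = -4 ∨ G = 5 ∨ G = -5 ∨ G = 8 ∨ G = -8 ∨
    G = 10 ∨ G = -10 ∨ G = 16 ∨ G = -16 ∨ G = 20 ∨ G = -20 ∨ G = 40 ∨ G = -40 ∨
    G = 80 ∨ G = -80 := by
  have h1 : G ≤ 80 := Int.le_of_dvd (by norm_num) h
  have h2 : -G ≤ 80 := Int.le_of_dvd (by norm_num) ((neg_dvd).mpr h)
  have h3 : -80 ≤ G := by linarith
  obtain ⟨k, hk⟩ := h
  interval_cases G <;> omega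

/-- Size estimates for the descent. -/
theorem size_aux {α β γ δ : ℤ} (hα : 0 < α) (hβ : 0 < β) (hγ : 0 < γ) (hδ : 0 < δ) :
    2 * γ < (α * γ) ^ 2 + 81 * (β * δ) ^ 2 ∧ 2 * α < (α * γ) ^ 2 + 81 * (β * δ) ^ 2 ∧
    2 * (9 * β) < (α * γ) ^ 2 + 81 * (β * δ) ^ 2 ∧
    2 * (9 * δ) < (α * γ) ^ 2 + 81 * (β * δ) ^ 2 := by
  have h1 : 1 ≤ α := hα
  have h2 : 1 ≤ β := hβ
  have h3 : 1 ≤ γ := hγ
  have h4 : 1 ≤ δ := hδ
  have e1 : γ ≤ α * γ := by nlinarith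
  have e2 : α ≤ α * γ := by nlinarith
  have e3 : β ≤ β * δ := by nlinarith
  have e4 : δ ≤ β * δ := by nlinarith
  have f1 : γ ^ 2 ≤ (α * γ) ^ 2 := pow_le_pow_left₀ hγ.le e1 2
  have f2 : α ^ 2 ≤ (α * γ) ^ 2 := pow_le_pow_left₀ hα.le e2 2
  have f3 : β ^ 2 ≤ (β * δ) ^ 2 := pow_le_pow_left₀ hβ.le e3 2
  have f4 : δ ^ 2 ≤ (β * δ) ^ 2 := pow_le_pow_left₀ hδ.le e4 2
  have g1 : 1 ≤ (α * γ) ^ 2 := by nlinarith
  have g2 : 1 ≤ (β * δ) ^ 2 := by nlinarith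
  refine ⟨?_, ?_, ?_, ?_⟩
  · nlinarith [sq_nonneg (γ - 1)]
  · nlinarith [sq_nonneg (α - 1)]
  · nlinarith [sq_nonneg (β - 1)]
  · nlinarith [sq_nonneg (δ - 1)]

/-- Second half of the descent step. -/
theorem core {a b c d : ℤ} (ha : 0 < a) (hb : 0 < b) (hc : 0 < c) (hd : 0 < d)
    (hab : IsCoprime a b) (h1 : a * b = c * d) (h2 : a ^ 2 + b ^ 2 = c ^ 2 + 81 * d ^ 2) :
    ∃ p' q' r' s' : ℤ, 0 < p' ∧ 0 < q' ∧ p' ^ 2 - q' ^ 2 = r' ^ 2 ∧
      p' ^ 2 - 81 * q' ^ 2 = s' ^ 2 ∧ 2 * p' < c ^ 2 + 81 * d ^ 2 := by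
  obtain ⟨α, β, γ, δ, hα, hβ, hγ, hδ, rfl, rfl, rfl, rfl, hαδ, hβγ⟩ :=
    four_numbers ha hb hc hd hab h1
  have hkey : α ^ 2 * (β ^ 2 - γ ^ 2) = δ ^ 2 * (81 * β ^ 2 - γ ^ 2) := by
    linear_combination h2
  have hdvd : α ^ 2 ∣ 81 * β ^ 2 - γ ^ 2 := by
    have hc2 : IsCoprime (α ^ 2) (δ ^ 2) := hαδ.pow
    have : α ^ 2 ∣ (81 * β ^ 2 - γ ^ 2) * δ ^ 2 :=
      ⟨β ^ 2 - γ ^ 2, by linear_combination -hkey⟩
    exact hc2.dvd_of_dvd_mul_right this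
  obtain ⟨G, hG⟩ := hdvd
  have hG2 : β ^ 2 - γ ^ 2 = δ ^ 2 * G := by
    have : α ^ 2 * (β ^ 2 - γ ^ 2) = α ^ 2 * (δ ^ 2 * G) := by rw [hkey, hG]; ring
    exact mul_left_cancel₀ (pow_ne_zero 2 hα.ne') this
  obtain ⟨u, v, huv⟩ : IsCoprime (β ^ 2) (γ ^ 2) := hβγ.pow
  have h80 : G ∣ 80 :=
    ⟨u * (α ^ 2 - δ ^ 2) + v * (α ^ 2 - 81 * δ ^ 2),
      by linear_combination (-80) * huv + u * (hG - hG2) + v * (hG - 81 * hG2)⟩
  obtain ⟨s1, s2, s3, s4⟩ := size_aux hα hβ hγ hδ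
  -- the bad classes
  have bad2 : ∀ g : ℤ, (((g : ℤ) : ZMod 8) = 2 ∨ ((g : ℤ) : ZMod 8) = 6) → G = g → False := by
    intro g hg hGg
    have key : ∀ g α β γ δ : ZMod 8, (g = 2 ∨ g = 6) → β ^ 2 - γ ^ 2 = δ ^ 2 * g →
        81 * β ^ 2 - γ ^ 2 = α ^ 2 * g → (4 * β = 0 ∧ 4 * γ = 0) ∨ (4 * α = 0 ∧ 4 * δ = 0) := by
      decide
    have e1 := congrArg (Int.cast : ℤ → ZMod 8) hG2
    have e2 := congrArg (Int.cast : ℤ → ZMod 8) hG
    rw [hGg] at e1 e2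
    push_cast at e1 e2
    have even_of : ∀ x : ℤ, (4 * (x : ZMod 8) = 0) → (2 : ℤ) ∣ x := by
      intro x hx
      have : (((4 * x : ℤ)) : ZMod 8) = 0 := by push_cast; exact hx
      have h8 := (ZMod.intCast_zmod_eq_zero_iff_dvd (4 * x) 8).mp this
      omega
    rcases key _ _ _ _ _ hg e1 e2 with ⟨k1, k2⟩ | ⟨k1, k2⟩
    · exact not_two_dvd_both hβγ (even_of _ k1) (even_of _ k2)
    · exact not_two_dvd_both hαδ (even_of _ k1) (even_of _ k2)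
  have bad8 : ∀ e : ℤ, (((e : ℤ) : ZMod 4) = 1 ∨ ((e : ℤ) : ZMod 4) = 3) → G = 8 * e → False := by
    intro e he hGe
    have key : ∀ e α β γ δ : ZMod 4, (e = 1 ∨ e = 3) → 10 * β ^ 2 = e * (α ^ 2 - δ ^ 2) →
        10 * γ ^ 2 = e * (α ^ 2 - 81 * δ ^ 2) → (2 * β = 0 ∧ 2 * γ = 0) := by
      decide
    have e1 : 10 * β ^ 2 = e * (α ^ 2 - δ ^ 2) := by
      rw [hGe] at hG hG2
      linarith
    have e2 : 10 * γ ^ 2 = e * (α ^ 2 - 81 * δ ^ 2) := by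
      rw [hGe] at hG hG2
      linarith
    have e1' := congrArg (Int.cast : ℤ → ZMod 4) e1
    have e2' := congrArg (Int.cast : ℤ → ZMod 4) e2
    push_cast at e1' e2'
    have even_of : ∀ x : ℤ, (2 * (x : ZMod 4) = 0) → (2 : ℤ) ∣ x := by
      intro x hx
      have : (((2 * x : ℤ)) : ZMod 4) = 0 := by push_cast; exact hx
      have h4 := (ZMod.intCast_zmod_eq_zero_iff_dvd (2 * x) 4).mp this
      omega
    obtain ⟨k1, k2⟩ := key _ _ _ _ _ he e1' e2'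
    exact not_two_dvd_both hβγ (even_of _ k1) (even_of _ k2)
  rcases dvd_eighty_cases h80 with hc | hc | hc | hc | hc | hc | hc | hc | hc | hc | hc | hc |
    hc | hc | hc | hc | hc | hc | hc | hc
  · -- G = 1
    rw [hc] at hG hG2
    exact ⟨9 * β, γ, α, 9 * δ, by positivity, hγ, by linarith, by linarith, s3⟩
  · -- G = -1
    rw [hc] at hG hG2
    exact ⟨γ, β, δ, α, hγ, hβ, by linarith, by linarith, s1⟩
  · exact (bad2 2 (by decide) hc).elim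
  · exact (bad2 (-2) (by decide) hc).elim
  · -- G = 4
    rw [hc] at hG hG2
    exact ⟨9 * β, γ, 2 * α, 18 * δ, by positivity, hγ, by linarith, by linarith, s3⟩
  · -- G = -4
    rw [hc] at hG hG2
    exact ⟨γ, β, 2 * δ, 2 * α, hγ, hβ, by linarith, by linarith, s1⟩
  · -- G = 5
    rw [hc] at hG hG2
    exact ⟨α, δ, 4 * β, 4 * γ, hα, hδ, by linarith, by linarith, s2⟩
  · -- G = -5
    rw [hc] at hG hG2
    exact ⟨9 * δ, α, 4 * γ, 36 * β, by positivity, hα, by linarith, by linarith, s4⟩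
  · exact (bad8 1 (by decide) (by rw [hc]; norm_num)).elim
  · exact (bad8 (-1) (by decide) (by rw [hc]; norm_num)).elim
  · exact (bad2 10 (by decide) hc).elim
  · exact (bad2 (-10) (by decide) hc).elim
  · -- G = 16
    rw [hc] at hG hG2
    exact ⟨9 * β, γ, 4 * α, 36 * δ, by positivity, hγ, by linarith, by linarith, s3⟩
  · -- G = -16
    rw [hc] at hG hG2
    exact ⟨γ, β, 4 * δ, 4 * α, hγ, hβ, by linarith, by linarith, s1⟩
  · -- G = 20
    rw [hc] at hG hG2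
    exact ⟨α, δ, 2 * β, 2 * γ, hα, hδ, by linarith, by linarith, s2⟩
  · -- G = -20
    rw [hc] at hG hG2
    exact ⟨9 * δ, α, 2 * γ, 18 * β, by positivity, hα, by linarith, by linarith, s4⟩
  · exact (bad8 5 (by decide) (by rw [hc]; norm_num)).elim
  · exact (bad8 (-5) (by decide) (by rw [hc]; norm_num)).elim
  · -- G = 80
    rw [hc] at hG hG2
    exact ⟨α, δ, β, γ, hα, hδ, by linarith, by linarith, s2⟩
  · -- G = -80
    rw [hc] at hG hG2
    exact ⟨9 * δ, α, γ, 9 * β, by positivity, hα, by linarith, by linarith, s4⟩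

/-- The descent step: a primitive positive solution yields a strictly smaller positive one. -/
theorem descent_step {p q r s : ℤ} (hp : 0 < p) (hq : 0 < q) (hpq : IsCoprime p q)
    (h1 : p ^ 2 - q ^ 2 = r ^ 2) (h2 : p ^ 2 - 81 * q ^ 2 = s ^ 2) :
    ∃ p' q' r' s' : ℤ, 0 < p' ∧ 0 < q' ∧ p' ^ 2 - q' ^ 2 = r' ^ 2 ∧
      p' ^ 2 - 81 * q' ^ 2 = s' ^ 2 ∧ p' < p := by
  obtain ⟨a, b, c, d, ha, hb, hc, hd, hab, hcd, h9, hsum, hle⟩ := abcd_of_solution hp hq hpq h1 h2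
  have h3cd : (3 : ℤ) ∣ c * d := by rw [← h9]; exact ⟨3 * (a * b), by ring⟩
  have h9cd : (9 : ℤ) ∣ c * d := by rw [← h9]; exact ⟨a * b, rfl⟩
  by_cases h3c : (3 : ℤ) ∣ c
  · -- then `9 ∣ c`
    have h3d : ¬ (3 : ℤ) ∣ d := by
      intro h3d
      obtain ⟨u, v, huv⟩ := hcd
      have h31 : (3 : ℤ) ∣ 1 := by
        rw [← huv]
        exact dvd_add (dvd_mul_of_dvd_right h3c u) (dvd_mul_of_dvd_right h3d v)
      omega
    have hcop9 : IsCoprime (9 : ℤ) d := by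
      have h3' : IsCoprime (3 : ℤ) d := Int.prime_three.coprime_iff_not_dvd.mpr h3d
      have : IsCoprime ((3 : ℤ) ^ 2) d := h3'.pow_left
      norm_num at this
      exact this
    obtain ⟨c', hc'⟩ : (9 : ℤ) ∣ c := hcop9.dvd_of_dvd_mul_right h9cd
    have hc'pos : 0 < c' := by omega
    have e1 : a * b = d * c' := by
      have : 9 * (a * b) = 9 * (d * c') := by rw [h9, hc']; ring
      linarith
    have e2 : a ^ 2 + b ^ 2 = d ^ 2 + 81 * c' ^ 2 := by rw [hsum, hc']; ring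
    obtain ⟨p', q', r', s', hp', hq', g1, g2, g3⟩ := core ha hb hd hc'pos hab e1 e2
    exact ⟨p', q', r', s', hp', hq', g1, g2, by linarith⟩
  · -- then `9 ∣ d`
    have hcop9 : IsCoprime (9 : ℤ) c := by
      have h3' : IsCoprime (3 : ℤ) c := Int.prime_three.coprime_iff_not_dvd.mpr h3c
      have : IsCoprime ((3 : ℤ) ^ 2) c := h3'.pow_left
      norm_num at this
      exact this
    obtain ⟨d', hd'⟩ : (9 : ℤ) ∣ d := hcop9.dvd_of_dvd_mul_left h9cd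
    have hd'pos : 0 < d' := by omega
    have e1 : a * b = c * d' := by
      have : 9 * (a * b) = 9 * (c * d') := by rw [h9, hd']; ring
      linarith
    have e2 : a ^ 2 + b ^ 2 = c ^ 2 + 81 * d' ^ 2 := by rw [hsum, hd']; ring
    obtain ⟨p', q', r', s', hp', hq', g1, g2, g3⟩ := core ha hb hc hd'pos hab e1 e2
    exact ⟨p', q', r', s', hp', hq', g1, g2, by linarith⟩

/-- Dividing out the gcd. -/
theorem exists_primitive {p q r s : ℤ} (hp : 0 < p) (hq : 0 < q)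
    (h1 : p ^ 2 - q ^ 2 = r ^ 2) (h2 : p ^ 2 - 81 * q ^ 2 = s ^ 2) :
    ∃ p₁ q₁ r₁ s₁ : ℤ, 0 < p₁ ∧ 0 < q₁ ∧ IsCoprime p₁ q₁ ∧ p₁ ^ 2 - q₁ ^ 2 = r₁ ^ 2 ∧
      p₁ ^ 2 - 81 * q₁ ^ 2 = s₁ ^ 2 ∧ p₁ ≤ p := by
  have hg : 0 < Int.gcd p q := Int.gcd_pos_of_ne_zero_left q hp.ne'
  obtain ⟨p₁, q₁, hcop, hp₁, hq₁⟩ := Int.exists_gcd_one hg
  set g : ℤ := (Int.gcd p q : ℤ) with hgdef
  have hgpos : 0 < g := by rw [hgdef]; exact_mod_cast hg
  have hg1 : 1 ≤ g := hgpos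
  have hp₁pos : 0 < p₁ := by
    by_contra hneg
    have : p₁ * g ≤ 0 := mul_nonpos_of_nonpos_of_nonneg (not_lt.mp hneg) hgpos.le
    linarith
  have hq₁pos : 0 < q₁ := by
    by_contra hneg
    have : q₁ * g ≤ 0 := mul_nonpos_of_nonpos_of_nonneg (not_lt.mp hneg) hgpos.le
    linarith
  have hr : g ∣ r := by
    have : g ^ 2 ∣ r ^ 2 := ⟨p₁ ^ 2 - q₁ ^ 2, by rw [← h1, hp₁, hq₁]; ring⟩
    exact (Int.pow_dvd_pow_iff (by norm_num : 2 ≠ 0)).mp this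
  have hs : g ∣ s := by
    have : g ^ 2 ∣ s ^ 2 := ⟨p₁ ^ 2 - 81 * q₁ ^ 2, by rw [← h2, hp₁, hq₁]; ring⟩
    exact (Int.pow_dvd_pow_iff (by norm_num : 2 ≠ 0)).mp this
  obtain ⟨r₁, hr₁⟩ := hr
  obtain ⟨s₁, hs₁⟩ := hs
  have hg2 : g ^ 2 ≠ 0 := pow_ne_zero 2 hgpos.ne'
  refine ⟨p₁, q₁, r₁, s₁, hp₁pos, hq₁pos, Int.isCoprime_iff_gcd_eq_one.mpr hcop, ?_, ?_, ?_⟩
  · have : g ^ 2 * (p₁ ^ 2 - q₁ ^ 2) = g ^ 2 * r₁ ^ 2 := by
      have e := h1
      rw [hp₁, hq₁, hr₁] at e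
      linear_combination e
    exact mul_left_cancel₀ hg2 this
  · have : g ^ 2 * (p₁ ^ 2 - 81 * q₁ ^ 2) = g ^ 2 * s₁ ^ 2 := by
      have e := h2
      rw [hp₁, hq₁, hs₁] at e
      linear_combination e
    exact mul_left_cancel₀ hg2 this
  · rw [hp₁]; nlinarith

/-- No positive solutions, by descent on `p`. -/
theorem no_pos_solution : ∀ (n : ℕ) (p q r s : ℤ), 0 < p → 0 < q → p < n →
    p ^ 2 - q ^ 2 = r ^ 2 → p ^ 2 - 81 * q ^ 2 = s ^ 2 → False := by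
  intro n
  induction n with
  | zero => intro p q r s hp _ hn; simp at hn; omega
  | succ n ih =>
    intro p q r s hp hq hn h1 h2
    obtain ⟨p₁, q₁, r₁, s₁, hp₁, hq₁, hcop, g1, g2, hle⟩ := exists_primitive hp hq h1 h2
    obtain ⟨p', q', r', s', hp', hq', k1, k2, hlt⟩ := descent_step hp₁ hq₁ hcop g1 g2
    refine ih p' q' r' s' hp' hq' ?_ k1 k2
    push_cast at hn
    omega

/-- **The concordant-forms descent**: `p² - q² = r²` and `p² - 81 q² = s²` force `q = 0`. -/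
theorem no_concordant (p q r s : ℤ) (h1 : p ^ 2 - q ^ 2 = r ^ 2)
    (h2 : p ^ 2 - 81 * q ^ 2 = s ^ 2) : q = 0 := by
  by_contra hq
  have hp : p ≠ 0 := by
    rintro rfl
    have : q ^ 2 = 0 := by nlinarith [sq_nonneg r, sq_nonneg q]
    exact hq (by simpa using this)
  refine no_pos_solution (|p|.toNat + 1) |p| |q| r s (abs_pos.mpr hp) (abs_pos.mpr hq) ?_
    (by rw [sq_abs, sq_abs]; exact h1) (by rw [sq_abs, sq_abs]; exact h2)
  have : 0 ≤ |p| := abs_nonneg p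
  push_cast
  omega

end Fermat.Agent.S51.Concordant
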