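import Mathlib

/-!
# Rational points of `y² = x (x + 9) (x - 16)` (the curve `15a1 = X₀(15)`)

We prove that the only rational points of the elliptic curve `y² = x(x+9)(x-16)` are the
seven affine torsion points, `x ∈ {0, -9, 16, 36, -4}` (Mordell-Weil group `ℤ/2 × ℤ/4`, rank `0`).

Method: complete 2-descent made explicit.  Write `x = m/e²` in lowest terms.  The triple
`(x, x+9, x-16)` lies modulo squares in one of the four classes of the torsion points
`(1,1,1), (-1,1,-1), (1,5,5), (-1,5,-5)` (2-, 3- and 5-adic arguments).  On each of the four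
2-coverings (intersections of two quadrics in the variables `u, v, w, e`) the halving map is a
ratio of two linear forms `L1/L0`, a rational point `Q` with `2Q = P - T`; an explicit
quadratic form `K` with `K² = L1 (L1+9L0) (L1-16L0) L0` on the covering certifies that `L1/L0`
is the abscissa of a rational point.  The naive height `max(|m|, e²)` strictly drops outside an
explicit small region, which is handled by a finite search (`decide`).
-/

set_option autoImplicit false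

namespace Fermat.Agent.S51.E15

/-- Integer data of a rational point on `y² = x(x+9)(x-16)`: `x = m / e²` in lowest terms. -/
theorem exists_int_data {x y : ℚ} (h : y ^ 2 = x * (x + 9) * (x - 16)) :
    ∃ m e k : ℤ, 0 < e ∧ IsCoprime m e ∧ x = (m : ℚ) / (e : ℚ) ^ 2 ∧
      k ^ 2 = m * (m + 9 * e ^ 2) * (m - 16 * e ^ 2) := by
  set a : ℤ := x.num with ha
  set b : ℤ := (x.den : ℤ) with hb
  have hbpos : 0 < b := by simp [hb, x.den_pos]
  have hab : IsCoprime a b := by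
    rw [Int.isCoprime_iff_gcd_eq_one]
    simpa [ha, hb, Int.gcd, Int.natAbs_natCast] using x.reduced
  have hx : x = (a : ℚ) / (b : ℚ) := by
    rw [ha, hb]; exact_mod_cast (Rat.num_div_den x).symm
  have hbq : (b : ℚ) ≠ 0 := by exact_mod_cast hbpos.ne'
  set N : ℤ := a * (a + 9 * b) * (a - 16 * b) with hN
  -- (y b²)² = N b
  have hsq : (y * (b : ℚ) ^ 2) ^ 2 = ((N * b : ℤ) : ℚ) := by
    rw [mul_pow, h, hx, hN]
    push_cast
    field_simp
  have hNb : IsSquare (N * b) := by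
    rw [← Rat.isSquare_intCast_iff, ← hsq]
    exact ⟨y * (b : ℚ) ^ 2, by ring⟩
  obtain ⟨K, hK⟩ := hNb
  have hcop : IsCoprime b N := by
    have h1 : IsCoprime b a := hab.symm
    have h2 : IsCoprime b (a + 9 * b) := by
      have := h1.add_mul_left_right 9
      simpa [mul_comm] using this
    have h3 : IsCoprime b (a - 16 * b) := by
      have := h1.add_mul_left_right (-16)
      have e : a + b * (-16) = a - 16 * b := by ring
      rwa [e] at this
    exact (h1.mul_right h2).mul_right h3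
  have hbN : b * N = K ^ 2 := by rw [mul_comm, hK]; ring
  obtain ⟨e0, he0⟩ := Int.sq_of_isCoprime hcop hbN
  have hbe : b = e0 ^ 2 := by
    rcases he0 with h' | h'
    · exact h'
    · exfalso; nlinarith [sq_nonneg e0]
  have he0ne : e0 ≠ 0 := by
    rintro rfl
    simp at hbe
    omega
  refine ⟨a, |e0|, K / |e0|, abs_pos.mpr he0ne, ?_, ?_, ?_⟩
  · have : IsCoprime a (e0 ^ 2) := hbe ▸ hab
    have h2 : IsCoprime a e0 := IsCoprime.of_mul_right_left (by simpa [sq] using this)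
    rcases abs_choice e0 with h' | h' <;> rw [h']
    · exact h2
    · exact h2.neg_right
  · rw [hx, hbe]; push_cast; rw [sq_abs]
  · have hdvd : |e0| ∣ K := by
      have : e0 ^ 2 ∣ K ^ 2 := ⟨N, by rw [← hbN, hbe]⟩
      have := (Int.pow_dvd_pow_iff two_ne_zero).mp this
      exact (abs_dvd e0 K).mpr this
    obtain ⟨k, hk⟩ := hdvd
    have hne : |e0| ≠ 0 := abs_ne_zero.mpr he0ne
    rw [hk, Int.mul_ediv_cancel_left _ hne, sq_abs, ← hbe]
    have h4 : e0 ^ 2 * N = e0 ^ 2 * k ^ 2 := by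
      rw [← hbe, hbN, hk, mul_pow, sq_abs, hbe]
    have h5 : e0 ^ 2 ≠ 0 := pow_ne_zero 2 he0ne
    have := mul_left_cancel₀ h5 h4
    rw [← this, hN]

/-- A rational point from a certificate `(L1, L0, K)`. -/
theorem curve_of_cert {L1 L0 K : ℤ} (h0 : L0 ≠ 0)
    (hK : K ^ 2 = L1 * (L1 + 9 * L0) * (L1 - 16 * L0) * L0) :
    ((K : ℚ) / (L0 : ℚ) ^ 2) ^ 2 =
      ((L1 : ℚ) / L0) * ((L1 : ℚ) / L0 + 9) * ((L1 : ℚ) / L0 - 16) := by
  have h0' : (L0 : ℚ) ≠ 0 := by exact_mod_cast h0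
  have hK' : (K : ℚ) ^ 2 = L1 * (L1 + 9 * L0) * (L1 - 16 * L0) * L0 := by exact_mod_cast hK
  field_simp
  linear_combination hK'

/-- From a certificate we get integer data of a point whose numerator and denominator are
bounded by `L1` and `L0`. -/
theorem exists_smaller {L1 L0 K : ℤ} (h0 : L0 ≠ 0)
    (hK : K ^ 2 = L1 * (L1 + 9 * L0) * (L1 - 16 * L0) * L0) :
    ∃ m e k : ℤ, 0 < e ∧ IsCoprime m e ∧ k ^ 2 = m * (m + 9 * e ^ 2) * (m - 16 * e ^ 2) ∧
      m * L0 = L1 * e ^ 2 ∧ m.natAbs ≤ L1.natAbs ∧ (e ^ 2).natAbs ≤ L0.natAbs := by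
  obtain ⟨m, e, k, he, hme, hx, hk⟩ := exists_int_data (curve_of_cert h0 hK)
  have h0' : (L0 : ℚ) ≠ 0 := by exact_mod_cast h0
  have he' : (e : ℚ) ≠ 0 := by exact_mod_cast he.ne'
  have hrel : m * L0 = L1 * e ^ 2 := by
    have : (m : ℚ) * L0 = L1 * (e : ℚ) ^ 2 := by
      field_simp at hx
      linear_combination -hx
    exact_mod_cast this
  have hme2 : IsCoprime m (e ^ 2) := hme.pow_right
  refine ⟨m, e, k, he, hme, hk, hrel, ?_, ?_⟩
  · -- m ∣ L1
    have hdvd : m ∣ L1 := by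
      have : m ∣ L1 * e ^ 2 := ⟨L0, hrel.symm⟩
      exact hme2.dvd_of_dvd_mul_right this
    by_cases hL1 : L1 = 0
    · have : m = 0 := by
        have : m * L0 = 0 := by rw [hrel, hL1]; ring
        rcases mul_eq_zero.mp this with h' | h'
        · exact h'
        · exact absurd h' h0
      simp [this, hL1]
    · exact Nat.le_of_dvd (Int.natAbs_pos.mpr hL1) (Int.natAbs_dvd_natAbs.mpr hdvd)
  · have hdvd : e ^ 2 ∣ L0 := by
      have : e ^ 2 ∣ m * L0 := ⟨L1, by rw [hrel]; ring⟩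
      exact hme2.symm.dvd_of_dvd_mul_left this
    exact Nat.le_of_dvd (Int.natAbs_pos.mpr h0) (Int.natAbs_dvd_natAbs.mpr hdvd)

/-- Three integers with square product whose pairwise gcds are pairwise coprime are, up to sign
and the gcds, squares. -/
theorem decomp3 {A B C k g2 g3 g5 A3 B3 A2 C2 B5 C5 : ℤ}
    (hk : k ^ 2 = A * B * C)
    (hA3 : A = g3 * A3) (hB3 : B = g3 * B3) (h3 : IsCoprime A3 B3)
    (hA2 : A = g2 * A2) (hC2 : C = g2 * C2) (h2 : IsCoprime A2 C2)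
    (hB5 : B = g5 * B5) (hC5 : C = g5 * C5) (h5 : IsCoprime B5 C5)
    (h23 : IsCoprime g2 g3) (h25 : IsCoprime g2 g5) (h35 : IsCoprime g3 g5)
    (hg2 : g2 ≠ 0) (hg3 : g3 ≠ 0) (hg5 : g5 ≠ 0) :
    ∃ a b c : ℤ, (A = g2 * g3 * a ^ 2 ∨ A = -(g2 * g3 * a ^ 2)) ∧
      (B = g3 * g5 * b ^ 2 ∨ B = -(g3 * g5 * b ^ 2)) ∧
      (C = g2 * g5 * c ^ 2 ∨ C = -(g2 * g5 * c ^ 2)) := by
  -- A3 = g2 * A'
  obtain ⟨A', hA'⟩ : g2 ∣ A3 := by
    have : g2 ∣ g3 * A3 := ⟨A2, by rw [← hA3, hA2]⟩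
    exact h23.dvd_of_dvd_mul_left this
  obtain ⟨B', hB'⟩ : g5 ∣ B3 := by
    have : g5 ∣ g3 * B3 := ⟨B5, by rw [← hB3, hB5]⟩
    exact h35.symm.dvd_of_dvd_mul_left this
  obtain ⟨C', hC'⟩ : g5 ∣ C2 := by
    have : g5 ∣ g2 * C2 := ⟨C5, by rw [← hC2, hC5]⟩
    exact h25.symm.dvd_of_dvd_mul_left this
  have hA : A = g2 * g3 * A' := by rw [hA3, hA']; ring
  have hB : B = g3 * g5 * B' := by rw [hB3, hB']; ring
  have hC : C = g2 * g5 * C' := by rw [hC2, hC']; ring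
  have hA2' : A2 = g3 * A' := by
    have : g2 * A2 = g2 * (g3 * A') := by rw [← hA2, hA]; ring
    exact mul_left_cancel₀ hg2 this
  have hB5' : B5 = g3 * B' := by
    have : g5 * B5 = g5 * (g3 * B') := by rw [← hB5, hB]; ring
    exact mul_left_cancel₀ hg5 this
  have hC5' : C5 = g2 * C' := by
    have : g5 * C5 = g5 * (g2 * C') := by rw [← hC5, hC]; ring
    exact mul_left_cancel₀ hg5 this
  have cAB : IsCoprime A' B' :=
    (h3.of_isCoprime_of_dvd_left ⟨g2, by rw [hA']; ring⟩).of_isCoprime_of_dvd_right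
      ⟨g5, by rw [hB']; ring⟩
  have cAC : IsCoprime A' C' :=
    (h2.of_isCoprime_of_dvd_left ⟨g3, by rw [hA2']; ring⟩).of_isCoprime_of_dvd_right
      ⟨g5, by rw [hC']; ring⟩
  have cBC : IsCoprime B' C' :=
    (h5.of_isCoprime_of_dvd_left ⟨g3, by rw [hB5']; ring⟩).of_isCoprime_of_dvd_right
      ⟨g2, by rw [hC5']; ring⟩
  set G : ℤ := g2 * g3 * g5 with hG
  have hGne : G ≠ 0 := mul_ne_zero (mul_ne_zero hg2 hg3) hg5
  have hkG : k ^ 2 = G ^ 2 * (A' * B' * C') := by rw [hk, hA, hB, hC, hG]; ring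
  obtain ⟨k1, hk1⟩ : G ∣ k := by
    have : G ^ 2 ∣ k ^ 2 := ⟨_, hkG⟩
    exact (Int.pow_dvd_pow_iff two_ne_zero).mp this
  have hprod : A' * B' * C' = k1 ^ 2 := by
    have : G ^ 2 * (A' * B' * C') = G ^ 2 * k1 ^ 2 := by rw [← hkG, hk1]; ring
    exact mul_left_cancel₀ (pow_ne_zero 2 hGne) this
  obtain ⟨a, ha⟩ := Int.sq_of_isCoprime (cAB.mul_right cAC) (by rw [← hprod]; ring : A' * (B' * C') = k1 ^ 2)
  obtain ⟨b, hb⟩ := Int.sq_of_isCoprime (cAB.symm.mul_right cBC) (by rw [← hprod]; ring : B' * (A' * C') = k1 ^ 2)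
  obtain ⟨c, hc⟩ := Int.sq_of_isCoprime (cAC.symm.mul_right cBC.symm) (by rw [← hprod]; ring : C' * (A' * B') = k1 ^ 2)
  refine ⟨a, b, c, ?_, ?_, ?_⟩
  · rcases ha with h | h
    · left; rw [hA, h]
    · right; rw [hA, h]; ring
  · rcases hb with h | h
    · left; rw [hB, h]
    · right; rw [hB, h]; ring
  · rcases hc with h | h
    · left; rw [hC, h]
    · right; rw [hC, h]; ring

theorem zmod3_aux : ∀ a e k : ZMod 3, a ≠ 0 → e ≠ 0 →
    k ^ 2 = a * (a + 3 * e ^ 2) * (3 * a - 16 * e ^ 2) → False := by decide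

theorem zmod8_aux_two : ∀ a e k : ZMod 8, 4 * a ≠ 0 → 4 * e ≠ 0 →
    k ^ 2 = a * (a - 8 * e ^ 2) * (2 * a + 9 * e ^ 2) → False := by decide

theorem zmod8_aux_eight : ∀ a e k : ZMod 8, 4 * a ≠ 0 → 4 * e ≠ 0 →
    k ^ 2 = a * (a - 2 * e ^ 2) * (8 * a + 9 * e ^ 2) → False := by decide

theorem not_three_dvd_cast {z : ℤ} (h : ¬ (3 : ℤ) ∣ z) : (z : ZMod 3) ≠ 0 := by
  intro h0
  exact h ((ZMod.intCast_zmod_eq_zero_iff_dvd z 3).mp h0)

theorem not_two_dvd_cast {z : ℤ} (h : ¬ (2 : ℤ) ∣ z) : 4 * (z : ZMod 8) ≠ 0 := by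
  intro h0
  have h1 : ((4 * z : ℤ) : ZMod 8) = 0 := by push_cast; exact h0
  have h2 : ((8 : ℕ) : ℤ) ∣ 4 * z := (ZMod.intCast_zmod_eq_zero_iff_dvd (4 * z) 8).mp h1
  apply h
  obtain ⟨t, ht⟩ := h2
  exact ⟨t, by push_cast at ht; omega⟩

theorem no_g3_three {a e k : ℤ} (ha : ¬ (3 : ℤ) ∣ a) (he : ¬ (3 : ℤ) ∣ e)
    (hk : k ^ 2 = a * (a + 3 * e ^ 2) * (3 * a - 16 * e ^ 2)) : False := by
  have h := congrArg (Int.cast : ℤ → ZMod 3) hk
  push_cast at h
  exact zmod3_aux _ _ _ (not_three_dvd_cast ha) (not_three_dvd_cast he) h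

theorem no_g2_two {a e k : ℤ} (ha : ¬ (2 : ℤ) ∣ a) (he : ¬ (2 : ℤ) ∣ e)
    (hk : k ^ 2 = a * (a - 8 * e ^ 2) * (2 * a + 9 * e ^ 2)) : False := by
  have h := congrArg (Int.cast : ℤ → ZMod 8) hk
  push_cast at h
  exact zmod8_aux_two _ _ _ (not_two_dvd_cast ha) (not_two_dvd_cast he) h

theorem no_g2_eight {a e k : ℤ} (ha : ¬ (2 : ℤ) ∣ a) (he : ¬ (2 : ℤ) ∣ e)
    (hk : k ^ 2 = a * (a - 2 * e ^ 2) * (8 * a + 9 * e ^ 2)) : False := by
  have h := congrArg (Int.cast : ℤ → ZMod 8) hk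
  push_cast at h
  exact zmod8_aux_eight _ _ _ (not_two_dvd_cast ha) (not_two_dvd_cast he) h

/-- gcd data of two integers whose difference is `N * e²` with `e` coprime to the first. -/
theorem gcd_data {X Y e N : ℤ} (hX : X ≠ 0) (hXe : IsCoprime X e) (hXY : Y - X = N * e ^ 2) :
    ∃ (g : ℕ) (X' Y' : ℤ), 0 < g ∧ (g : ℤ) ∣ N ∧ IsCoprime X' Y' ∧ X = g * X' ∧ Y = g * Y' := by
  have hpos : 0 < Int.gcd X Y := Int.gcd_pos_of_ne_zero_left _ hX
  obtain ⟨X', Y', h1, h2, h3⟩ := Int.exists_gcd_one hpos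
  refine ⟨Int.gcd X Y, X', Y', hpos, ?_, Int.isCoprime_iff_gcd_eq_one.mpr h1, ?_, ?_⟩
  · have hgX : (Int.gcd X Y : ℤ) ∣ X := Int.gcd_dvd_left ..
    have hgY : (Int.gcd X Y : ℤ) ∣ Y := Int.gcd_dvd_right ..
    have hd : (Int.gcd X Y : ℤ) ∣ N * e ^ 2 := hXY ▸ dvd_sub hgY hgX
    have hc : IsCoprime (Int.gcd X Y : ℤ) (e ^ 2) :=
      (hXe.of_isCoprime_of_dvd_left hgX).pow_right
    exact hc.dvd_of_dvd_mul_right hd
  · rw [mul_comm]; exact h2
  · rw [mul_comm]; exact h3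

theorem not_isUnit_two : ¬ IsUnit (2 : ℤ) := by
  rw [Int.isUnit_iff]; omega

theorem not_isUnit_three : ¬ IsUnit (3 : ℤ) := by
  rw [Int.isUnit_iff]; omega

/-- the square root of `k²/n²`-type divisibility: if `n² ∣ k²`-shaped equation holds. -/
theorem exists_eq_mul_of_sq {n k R : ℤ} (h : k ^ 2 = n ^ 2 * R) : ∃ k1, k = n * k1 := by
  have : n ^ 2 ∣ k ^ 2 := ⟨R, h⟩
  exact (Int.pow_dvd_pow_iff two_ne_zero).mp this

theorem g3_cases {m e k : ℤ} (hme : IsCoprime m e)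
    (hk : k ^ 2 = m * (m + 9 * e ^ 2) * (m - 16 * e ^ 2))
    {g : ℕ} {A3 B3 : ℤ} (hg : (g : ℤ) ∣ 9) (hg0 : 0 < g) (hc : IsCoprime A3 B3)
    (hA : m = g * A3) (hB : m + 9 * e ^ 2 = g * B3) : g = 1 ∨ g = 9 := by
  have h1 : g ∣ 9 := by exact_mod_cast hg
  have h2 : g ≤ 9 := Nat.le_of_dvd (by norm_num) h1
  interval_cases g
  · left; rfl
  · exfalso; omega
  · -- g = 3
    exfalso
    push_cast at hA hB
    have hB3 : B3 = A3 + 3 * e ^ 2 := by linarith
    have h3e : ¬ (3 : ℤ) ∣ e := by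
      intro h
      exact not_isUnit_three (hme.isUnit_of_dvd' ⟨A3, hA⟩ h)
    have h3A : ¬ (3 : ℤ) ∣ A3 := by
      intro h
      have : (3 : ℤ) ∣ B3 := by
        rw [hB3]; exact dvd_add h ⟨e ^ 2, rfl⟩
      exact not_isUnit_three (hc.isUnit_of_dvd' h this)
    have hk' : k ^ 2 = 3 ^ 2 * (A3 * (A3 + 3 * e ^ 2) * (3 * A3 - 16 * e ^ 2)) := by
      rw [hk, hA]; ring
    obtain ⟨k1, hk1⟩ := exists_eq_mul_of_sq hk'
    have : k1 ^ 2 = A3 * (A3 + 3 * e ^ 2) * (3 * A3 - 16 * e ^ 2) := by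
      have h9 : (3 : ℤ) ^ 2 ≠ 0 := by norm_num
      apply mul_left_cancel₀ h9
      rw [← hk', hk1]; ring
    exact no_g3_three h3A h3e this
  · exfalso; omega
  · exfalso; omega
  · exfalso; omega
  · exfalso; omega
  · exfalso; omega
  · right; rfl

theorem g2_cases {m e k : ℤ} (hme : IsCoprime m e)
    (hk : k ^ 2 = m * (m + 9 * e ^ 2) * (m - 16 * e ^ 2))
    {g : ℕ} {A2 C2 : ℤ} (hg : (g : ℤ) ∣ 16) (hg0 : 0 < g) (hc : IsCoprime A2 C2)
    (hA : m = g * A2) (hC : m - 16 * e ^ 2 = g * C2) : g = 1 ∨ g = 4 ∨ g = 16 := by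
  have h1 : g ∣ 16 := by exact_mod_cast hg
  have h2 : g ≤ 16 := Nat.le_of_dvd (by norm_num) h1
  have key2 : g = 2 → False := by
    rintro rfl
    push_cast at hA hC
    have hC2 : C2 = A2 - 8 * e ^ 2 := by linarith
    have h2e : ¬ (2 : ℤ) ∣ e := by
      intro h
      exact not_isUnit_two (hme.isUnit_of_dvd' ⟨A2, hA⟩ h)
    have h2A : ¬ (2 : ℤ) ∣ A2 := by
      intro h
      have : (2 : ℤ) ∣ C2 := by
        rw [hC2]; exact dvd_sub h ⟨4 * e ^ 2, by ring⟩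
      exact not_isUnit_two (hc.isUnit_of_dvd' h this)
    have hk' : k ^ 2 = 2 ^ 2 * (A2 * (A2 - 8 * e ^ 2) * (2 * A2 + 9 * e ^ 2)) := by
      rw [hk, hA]; ring
    obtain ⟨k1, hk1⟩ := exists_eq_mul_of_sq hk'
    have : k1 ^ 2 = A2 * (A2 - 8 * e ^ 2) * (2 * A2 + 9 * e ^ 2) := by
      have h9 : (2 : ℤ) ^ 2 ≠ 0 := by norm_num
      apply mul_left_cancel₀ h9
      rw [← hk', hk1]; ring
    exact no_g2_two h2A h2e this
  have key8 : g = 8 → False := by
    rintro rfl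
    push_cast at hA hC
    have hC2 : C2 = A2 - 2 * e ^ 2 := by linarith
    have h2e : ¬ (2 : ℤ) ∣ e := by
      intro h
      exact not_isUnit_two (hme.isUnit_of_dvd' ⟨4 * A2, by rw [hA]; ring⟩ h)
    have h2A : ¬ (2 : ℤ) ∣ A2 := by
      intro h
      have : (2 : ℤ) ∣ C2 := by
        rw [hC2]; exact dvd_sub h ⟨e ^ 2, by ring⟩
      exact not_isUnit_two (hc.isUnit_of_dvd' h this)
    have hk' : k ^ 2 = 8 ^ 2 * (A2 * (A2 - 2 * e ^ 2) * (8 * A2 + 9 * e ^ 2)) := by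
      rw [hk, hA]; ring
    obtain ⟨k1, hk1⟩ := exists_eq_mul_of_sq hk'
    have : k1 ^ 2 = A2 * (A2 - 2 * e ^ 2) * (8 * A2 + 9 * e ^ 2) := by
      have h9 : (8 : ℤ) ^ 2 ≠ 0 := by norm_num
      apply mul_left_cancel₀ h9
      rw [← hk', hk1]; ring
    exact no_g2_eight h2A h2e this
  interval_cases g <;> first | (exfalso; omega) | (exfalso; exact key2 rfl) | (exfalso; exact key8 rfl) | simp

theorem g5_cases {g : ℕ} (hg : (g : ℤ) ∣ 25) (hg0 : 0 < g) : g = 1 ∨ g = 5 ∨ g = 25 := by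
  have h1 : g ∣ 25 := by exact_mod_cast hg
  have h2 : g ≤ 25 := Nat.le_of_dvd (by norm_num) h1
  interval_cases g <;> first | (exfalso; omega) | simp

theorem signs {A B C k c u v w : ℤ} (hk : k ^ 2 = A * B * C) (hk0 : k ≠ 0)
    (hAB : A < B) (hCB : C < B) (hc : 0 < c)
    (hA : A = u ^ 2 ∨ A = -u ^ 2) (hB : B = c * v ^ 2 ∨ B = -(c * v ^ 2))
    (hC : C = c * w ^ 2 ∨ C = -(c * w ^ 2)) :
    (A = u ^ 2 ∧ B = c * v ^ 2 ∧ C = c * w ^ 2) ∨
      (A = -u ^ 2 ∧ B = c * v ^ 2 ∧ C = -(c * w ^ 2)) := by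
  have hkpos : 0 < k ^ 2 := by positivity
  have hu := sq_nonneg u
  have hv : 0 ≤ c * v ^ 2 := by positivity
  have hw : 0 ≤ c * w ^ 2 := by positivity
  rcases hA with hA | hA <;> rcases hB with hB | hB <;> rcases hC with hC | hC
  · left; exact ⟨hA, hB, hC⟩
  · exfalso
    have : k ^ 2 = -(u ^ 2 * (c * v ^ 2) * (c * w ^ 2)) := by rw [hk, hA, hB, hC]; ring
    have h2 : 0 ≤ u ^ 2 * (c * v ^ 2) * (c * w ^ 2) := by positivity
    linarith
  · exfalso; linarith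
  · exfalso; linarith
  · exfalso
    have : k ^ 2 = -(u ^ 2 * (c * v ^ 2) * (c * w ^ 2)) := by rw [hk, hA, hB, hC]; ring
    have h2 : 0 ≤ u ^ 2 * (c * v ^ 2) * (c * w ^ 2) := by positivity
    linarith
  · right; exact ⟨hA, hB, hC⟩
  · exfalso; linarith
  · exfalso
    have : k ^ 2 = -(u ^ 2 * (c * v ^ 2) * (c * w ^ 2)) := by rw [hk, hA, hB, hC]; ring
    have h2 : 0 ≤ u ^ 2 * (c * v ^ 2) * (c * w ^ 2) := by positivity
    linarith

theorem isCoprime_16_9 : IsCoprime (16 : ℤ) 9 := by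
  rw [Int.isCoprime_iff_gcd_eq_one]; rfl

theorem isCoprime_16_25 : IsCoprime (16 : ℤ) 25 := by
  rw [Int.isCoprime_iff_gcd_eq_one]; rfl

theorem isCoprime_9_25 : IsCoprime (9 : ℤ) 25 := by
  rw [Int.isCoprime_iff_gcd_eq_one]; rfl

/-- The classification of rational points into four square classes. -/
theorem classify {m e k : ℤ} (he : 0 < e) (hme : IsCoprime m e)
    (hk : k ^ 2 = m * (m + 9 * e ^ 2) * (m - 16 * e ^ 2)) (hk0 : k ≠ 0) :
    ∃ u v w : ℤ, 0 < u ∧ 0 < v ∧ 0 < w ∧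
      ((m = u ^ 2 ∧ m + 9 * e ^ 2 = v ^ 2 ∧ m - 16 * e ^ 2 = w ^ 2) ∨
       (m = -u ^ 2 ∧ m + 9 * e ^ 2 = v ^ 2 ∧ m - 16 * e ^ 2 = -w ^ 2) ∨
       (m = u ^ 2 ∧ m + 9 * e ^ 2 = 5 * v ^ 2 ∧ m - 16 * e ^ 2 = 5 * w ^ 2) ∨
       (m = -u ^ 2 ∧ m + 9 * e ^ 2 = 5 * v ^ 2 ∧ m - 16 * e ^ 2 = -(5 * w ^ 2))) := by
  have hkpos : 0 < k ^ 2 := by positivity
  have hA0 : m ≠ 0 := by
    rintro rfl; rw [hk] at hkpos; simp at hkpos
  have hB0 : m + 9 * e ^ 2 ≠ 0 := by
    intro h; rw [hk, h] at hkpos; simp at hkpos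
  have hC0 : m - 16 * e ^ 2 ≠ 0 := by
    intro h; rw [hk, h] at hkpos; simp at hkpos
  have hBe : IsCoprime (m + 9 * e ^ 2) e := by
    have := hme.add_mul_right_left (9 * e)
    have e1 : m + 9 * e * e = m + 9 * e ^ 2 := by ring
    rwa [e1] at this
  obtain ⟨g3, A3, B3, hg3pos, hg3, hc3, hA3, hB3⟩ :=
    gcd_data hA0 hme (show (m + 9 * e ^ 2) - m = 9 * e ^ 2 by ring)
  obtain ⟨g2, A2, C2, hg2pos, hg2', hc2, hA2, hC2⟩ :=
    gcd_data hA0 hme (show (m - 16 * e ^ 2) - m = (-16) * e ^ 2 by ring)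
  obtain ⟨g5, B5, C5, hg5pos, hg5', hc5, hB5, hC5⟩ :=
    gcd_data hB0 hBe (show (m - 16 * e ^ 2) - (m + 9 * e ^ 2) = (-25) * e ^ 2 by ring)
  have hg2 : (g2 : ℤ) ∣ 16 := by
    have : (g2 : ℤ) ∣ -16 := hg2'
    exact (dvd_neg).mp this
  have hg5 : (g5 : ℤ) ∣ 25 := by
    have : (g5 : ℤ) ∣ -25 := hg5'
    exact (dvd_neg).mp this
  have h3 := g3_cases hme hk hg3 hg3pos hc3 hA3 hB3
  have h2 := g2_cases hme hk hg2 hg2pos hc2 hA2 hC2
  have h5 := g5_cases hg5 hg5pos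
  have h23 : IsCoprime (g2 : ℤ) (g3 : ℤ) :=
    (isCoprime_16_9.of_isCoprime_of_dvd_left hg2).of_isCoprime_of_dvd_right hg3
  have h25 : IsCoprime (g2 : ℤ) (g5 : ℤ) :=
    (isCoprime_16_25.of_isCoprime_of_dvd_left hg2).of_isCoprime_of_dvd_right hg5
  have h35 : IsCoprime (g3 : ℤ) (g5 : ℤ) :=
    (isCoprime_9_25.of_isCoprime_of_dvd_left hg3).of_isCoprime_of_dvd_right hg5
  have hg2ne : (g2 : ℤ) ≠ 0 := by exact_mod_cast hg2pos.ne'
  have hg3ne : (g3 : ℤ) ≠ 0 := by exact_mod_cast hg3pos.ne'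
  have hg5ne : (g5 : ℤ) ≠ 0 := by exact_mod_cast hg5pos.ne'
  obtain ⟨a, b, c, hA, hB, hC⟩ := decomp3 hk hA3 hB3 hc3 hA2 hC2 hc2 hB5 hC5 hc5 h23 h25 h35
    hg2ne hg3ne hg5ne
  obtain ⟨t3, ht3⟩ : ∃ t3 : ℤ, (g3 : ℤ) = t3 ^ 2 := by
    rcases h3 with rfl | rfl
    · exact ⟨1, by norm_num⟩
    · exact ⟨3, by norm_num⟩
  obtain ⟨t2, ht2⟩ : ∃ t2 : ℤ, (g2 : ℤ) = t2 ^ 2 := by
    rcases h2 with rfl | rfl | rfl
    · exact ⟨1, by norm_num⟩
    · exact ⟨2, by norm_num⟩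
    · exact ⟨4, by norm_num⟩
  obtain ⟨c5, t5, hc5v, ht5⟩ : ∃ c5 t5 : ℤ, (c5 = 1 ∨ c5 = 5) ∧ (g5 : ℤ) = c5 * t5 ^ 2 := by
    rcases h5 with rfl | rfl | rfl
    · exact ⟨1, 1, Or.inl rfl, by norm_num⟩
    · exact ⟨5, 1, Or.inr rfl, by norm_num⟩
    · exact ⟨1, 5, Or.inl rfl, by norm_num⟩
  have hc5pos : 0 < c5 := by rcases hc5v with rfl | rfl <;> norm_num
  set U : ℤ := t2 * t3 * a with hU
  set V : ℤ := t3 * t5 * b with hV
  set W : ℤ := t2 * t5 * c with hW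
  have hA' : m = |U| ^ 2 ∨ m = -|U| ^ 2 := by
    rw [sq_abs, hU]
    rcases hA with h | h
    · left; rw [h, ht2, ht3]; ring
    · right; rw [h, ht2, ht3]; ring
  have hB' : m + 9 * e ^ 2 = c5 * |V| ^ 2 ∨ m + 9 * e ^ 2 = -(c5 * |V| ^ 2) := by
    rw [sq_abs, hV]
    rcases hB with h | h
    · left; rw [h, ht3, ht5]; ring
    · right; rw [h, ht3, ht5]; ring
  have hC' : m - 16 * e ^ 2 = c5 * |W| ^ 2 ∨ m - 16 * e ^ 2 = -(c5 * |W| ^ 2) := by
    rw [sq_abs, hW]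
    rcases hC with h | h
    · left; rw [h, ht2, ht5]; ring
    · right; rw [h, ht2, ht5]; ring
  have he2 : 0 < e ^ 2 := by positivity
  have hs := signs hk hk0 (by linarith) (by linarith) hc5pos hA' hB' hC'
  have hUpos : 0 < |U| := by
    rw [abs_pos]; rintro h0
    rw [h0] at hA'; simp at hA'; exact hA0 hA'
  have hVpos : 0 < |V| := by
    rw [abs_pos]; rintro h0
    rw [h0] at hB'; simp at hB'; exact hB0 hB'
  have hWpos : 0 < |W| := by
    rw [abs_pos]; rintro h0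
    rw [h0] at hC'; simp at hC'; exact hC0 hC'
  refine ⟨|U|, |V|, |W|, hUpos, hVpos, hWpos, ?_⟩
  rcases hc5v with rfl | rfl
  · rcases hs with ⟨h1, h2, h3⟩ | ⟨h1, h2, h3⟩
    · left; exact ⟨h1, by linarith, by linarith⟩
    · right; left; exact ⟨h1, by linarith, by linarith⟩
  · rcases hs with ⟨h1, h2, h3⟩ | ⟨h1, h2, h3⟩
    · right; right; left; exact ⟨h1, h2, h3⟩
    · right; right; right; exact ⟨h1, h2, h3⟩

/-- Descent step in the class `(1,1,1)`. -/
theorem descent_I {u v w e : ℤ} (hu : 0 < u) (hv : 0 < v) (hw : 0 < w) (he : 0 < e)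
    (h1 : u ^ 2 + 9 * e ^ 2 = v ^ 2) (h2 : u ^ 2 - 16 * e ^ 2 = w ^ 2) (hu10 : 10 ≤ u) :
    ∃ L1 L0 K : ℤ, L0 ≠ 0 ∧ K ^ 2 = L1 * (L1 + 9 * L0) * (L1 - 16 * L0) * L0 ∧
      |L1| < u ^ 2 ∧ |L0| < u ^ 2 ∧
      ∀ c : ℤ, (c = 0 ∨ c = -9 ∨ c = 16 ∨ c = 36 ∨ c = -4) → L1 ≠ c * L0 := by
  have hvu : u < v := by nlinarith
  have hwu : w < u := by nlinarith
  have hvw : w < v := by linarith
  have hv2u : v < 2 * u := by nlinarith
  refine ⟨9 * (u - w), v - u, 9 * e * (25 * u - 16 * v - 9 * w), by omega, ?_, ?_, ?_, ?_⟩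
  · linear_combination (-1296*u*v - 2754*u*w + 1296*v*w + 2754*w^2 + 32400*e^2) * h1 +
      (3321*u*v + 729*u*w - 3321*v^2 - 729*v*w + 18225*e^2) * h2
  · rw [abs_of_pos (by linarith)]; nlinarith
  · rw [abs_of_pos (by linarith)]; nlinarith
  · intro c hc hL
    have hL1pos : 0 < 9 * (u - w) := by linarith
    have hL0pos : 0 < v - u := by linarith
    rcases hc with rfl | rfl | rfl | rfl | rfl
    · nlinarith
    · nlinarith
    · -- c = 16: 25u = 16v + 9w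
      have h3 : 144 * (v - w) ^ 2 = 0 := by
        linear_combination (-400) * h1 + (-225) * h2 + (25*u + 16*v + 9*w) * hL
      have : v - w = 0 := by
        have := pow_eq_zero_iff (two_ne_zero) |>.mp (by linarith : (v - w) ^ 2 = 0)
        exact this
      linarith
    · -- c = 36: 5u = 4v + w
      have h5 : 5 * u - 4 * v - w = 0 := by linarith
      have h3 : 8 * w * (v - w) = 0 := by
        linear_combination 16 * h1 + 9 * h2 - (5*u + 4*v + w) * h5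
      have : 0 < 8 * w * (v - w) := by
        have : 0 < v - w := by linarith
        positivity
      linarith
    · nlinarith

/-- Descent step in the class `(-1,1,-1)`. -/
theorem descent_II {u v w e : ℤ} (hu : 0 < u) (hv : 0 < v) (hw : 0 < w) (he : 0 < e)
    (h1 : 9 * e ^ 2 - u ^ 2 = v ^ 2) (h2 : u ^ 2 + 16 * e ^ 2 = w ^ 2) (he5 : 5 ≤ e) :
    ∃ L1 L0 K : ℤ, L0 ≠ 0 ∧ K ^ 2 = L1 * (L1 + 9 * L0) * (L1 - 16 * L0) * L0 ∧
      |L1| < u ^ 2 ∧ |L0| < u ^ 2 ∧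
      ∀ c : ℤ, (c = 0 ∨ c = -9 ∨ c = 16 ∨ c = 36 ∨ c = -4) → L1 ≠ c * L0 := by
  have hv3e : v < 3 * e := by nlinarith
  have hw4e : 4 * e < w := by nlinarith
  have hp1 : (3 * e - v) * (3 * e + v) = u ^ 2 := by linear_combination h1
  have hp2 : (w - 4 * e) * (w + 4 * e) = u ^ 2 := by linear_combination (-1 : ℤ) * h2
  have hvw : v ^ 2 + w ^ 2 = 25 * e ^ 2 := by linear_combination (-1 : ℤ) * h1 - h2
  refine ⟨12 * (3 * e - v), w - 4 * e, 12 * u * (25 * e - 4 * w - 3 * v), by omega, ?_, ?_, ?_, ?_⟩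
  · linear_combination (-1728*v*w + 6912*v*e - 2304*w^2 + 23616*w*e - 57600*e^2) * h1 +
      (1296*v^2 + 1728*v*w - 14688*v*e - 5184*w*e + 32400*e^2) * h2
  · rw [abs_of_pos (by linarith)]
    have : 16 * (3 * e - v) ≤ (3 * e - v) * (3 * e + v) := by
      have h16 : 16 ≤ 3 * e + v := by linarith
      have hpos : 0 < 3 * e - v := by linarith
      nlinarith
    linarith
  · rw [abs_of_pos (by linarith)]
    have : 40 * (w - 4 * e) ≤ (w - 4 * e) * (w + 4 * e) := by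
      have h40 : 40 ≤ w + 4 * e := by linarith
      have hpos : 0 < w - 4 * e := by linarith
      nlinarith
    linarith
  · intro c hc hL
    have hL1pos : 0 < 12 * (3 * e - v) := by linarith
    have hL0pos : 0 < w - 4 * e := by linarith
    rcases hc with rfl | rfl | rfl | rfl | rfl
    · nlinarith
    · nlinarith
    · -- c = 16 : 25 e = 3 v + 4 w
      have h5 : 25 * e - 3 * v - 4 * w = 0 := by linarith
      have h3 : (4 * v - 3 * w) ^ 2 = 0 := by
        linear_combination 25 * hvw + (25 * e + 3 * v + 4 * w) * h5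
      have h4 : 4 * v - 3 * w = 0 := pow_eq_zero_iff (two_ne_zero) |>.mp h3
      have h6 : v = 3 * e := by linarith
      rw [h6] at h1
      have : u ^ 2 = 0 := by linarith
      have : 0 < u ^ 2 := by positivity
      linarith
    · -- c = 36 : 15 e = v + 3 w
      have h5 : 15 * e - v - 3 * w = 0 := by linarith
      have h3 : 2 * v * (4 * v - 3 * w) = 0 := by
        linear_combination 9 * hvw + (15 * e + v + 3 * w) * h5
      have h4 : 4 * v - 3 * w = 0 := by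
        rcases mul_eq_zero.mp h3 with h | h
        · omega
        · exact h
      have h6 : v = 3 * e := by linarith
      rw [h6] at h1
      have : u ^ 2 = 0 := by linarith
      have : 0 < u ^ 2 := by positivity
      linarith
    · nlinarith

/-- Descent step in the class `(1,5,5)`. -/
theorem descent_III {u v w e : ℤ} (hu : 0 < u) (hv : 0 < v) (hw : 0 < w) (he : 0 < e)
    (h1 : u ^ 2 + 9 * e ^ 2 = 5 * v ^ 2) (h2 : u ^ 2 - 16 * e ^ 2 = 5 * w ^ 2) (hu11 : 11 ≤ u) :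
    ∃ L1 L0 K : ℤ, L0 ≠ 0 ∧ K ^ 2 = L1 * (L1 + 9 * L0) * (L1 - 16 * L0) * L0 ∧
      |L1| < u ^ 2 ∧ |L0| < u ^ 2 ∧
      ∀ c : ℤ, (c = 0 ∨ c = -9 ∨ c = 16 ∨ c = 36 ∨ c = -4) → L1 = c * L0 → u = 6 * e := by
  have h4eu : 4 * e < u := by nlinarith
  have hwv : w < v := by nlinarith
  have h5v3u : 5 * v ≤ 3 * u := by nlinarith
  have h5v2u : 2 * u ≤ 5 * v := by nlinarith
  have h2wu : 2 * w ≤ u := by nlinarith
  have hid : 5 * u ^ 2 = 16 * v ^ 2 + 9 * w ^ 2 := by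
    have : 25 * u ^ 2 = 80 * v ^ 2 + 45 * w ^ 2 := by linear_combination 16 * h1 + 9 * h2
    linarith
  refine ⟨-30 * u + 48 * v + 18 * w, 3 * v - 2 * w + 5 * e,
    90*u*v + 240*u*w + 750*u*e - 750*v*w - 960*v*e - 810*w*e, by omega, ?_, ?_, ?_, ?_⟩
  · linear_combination (-64800*u*v - 64800*u*w + 64800*u*e + 108000*v*w - 172800*v*e + 180000*w^2
        + 7200*w*e + 460800*e^2) * h1 +
      (145800*u*v + 10800*u*w + 70200*u*e - 324000*v^2 - 27000*v*w - 151200*v*e - 16200*w*e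
        + 259200*e^2) * h2
  · rw [abs_lt]
    constructor <;> nlinarith
  · rw [abs_of_pos (by linarith)]
    nlinarith
  · intro c hc hL
    rcases hc with rfl | rfl | rfl | rfl | rfl
    · -- c = 0 : 5u = 8v + 3w
      have h5 : 5 * u - 8 * v - 3 * w = 0 := by linarith
      have h3 : 4 * (2 * v - 3 * w) ^ 2 = 0 := by
        linear_combination (-5) * hid + (5 * u + 8 * v + 3 * w) * h5
      have h4 : 2 * v - 3 * w = 0 := by
        have : (2 * v - 3 * w) ^ 2 = 0 := by linarith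
        exact pow_eq_zero_iff (two_ne_zero) |>.mp this
      have h6 : u = 2 * v := by linarith
      have h7 : (v - 3 * e) * (v + 3 * e) = 0 := by
        rw [h6] at h1; linear_combination (-1 : ℤ) * h1
      rcases mul_eq_zero.mp h7 with h | h
      · linarith
      · exfalso; linarith
    · -- c = -9 : 2u = 5v + 3e
      exfalso
      have h5 : 2 * u - 5 * v - 3 * e = 0 := by linarith
      have h3 : 5 * (u - 2 * v) ^ 2 = 0 := by
        linear_combination h1 + (2 * u - 5 * v + 3 * e) * h5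
      have h4 : u - 2 * v = 0 := by
        have : (u - 2 * v) ^ 2 = 0 := by linarith
        exact pow_eq_zero_iff (two_ne_zero) |>.mp this
      linarith
    · exfalso; linarith
    · exfalso; linarith
    · -- c = -4 : 3u = 6v + w + 2e
      exfalso
      have h5 : 3 * (u - 2 * v) = w + 2 * e := by linarith
      have hid2 : (u - 2 * v) * (u + 2 * v) = (w - 2 * e) * (w + 2 * e) := by
        have : 5 * ((u - 2 * v) * (u + 2 * v)) = 5 * ((w - 2 * e) * (w + 2 * e)) := by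
          linear_combination 4 * h1 + h2
        linarith
      have hpos : 0 < u - 2 * v := by linarith
      have h6 : (u - 2 * v) * (u + 2 * v - 3 * (w - 2 * e)) = 0 := by
        rw [← h5] at hid2; linear_combination hid2
      have h7 : u + 2 * v - 3 * (w - 2 * e) = 0 := by
        rcases mul_eq_zero.mp h6 with h | h
        · omega
        · exact h
      linarith

/-- Descent step in the class `(-1,5,-5)`. -/
theorem descent_IV {u v w e : ℤ} (hu : 0 < u) (hv : 0 < v) (hw : 0 < w) (he : 0 < e)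
    (h1 : 9 * e ^ 2 - u ^ 2 = 5 * v ^ 2) (h2 : u ^ 2 + 16 * e ^ 2 = 5 * w ^ 2) (he19 : 19 ≤ e) :
    ∃ L1 L0 K : ℤ, L0 ≠ 0 ∧ K ^ 2 = L1 * (L1 + 9 * L0) * (L1 - 16 * L0) * L0 ∧
      |L1| < e ^ 2 ∧ |L0| < e ^ 2 ∧
      ∀ c : ℤ, (c = 0 ∨ c = -9 ∨ c = 16 ∨ c = 36 ∨ c = -4) → L1 = c * L0 → u = 2 * e := by
  have hu3e : u < 3 * e := by nlinarith
  have hid : 81 * w ^ 2 - (5 * u + 8 * v) ^ 2 = 20 * (u - 2 * v) ^ 2 := by
    have : 5 * (81 * w ^ 2 - (5 * u + 8 * v) ^ 2) = 5 * (20 * (u - 2 * v) ^ 2) := by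
      linear_combination 144 * h1 - 81 * h2
    linarith
  have h9w : 5 * u + 8 * v ≤ 9 * w := by
    have : (5 * u + 8 * v) ^ 2 ≤ (9 * w) ^ 2 := by nlinarith [sq_nonneg (u - 2 * v)]
    exact abs_le_of_sq_le_sq' this (by positivity) |>.2
  have hw224 : 25 * w ≤ 56 * e := by nlinarith
  have hv135 : 20 * v ≤ 27 * e := by nlinarith
  have h107 : 107 * e ≤ 10 * (5 * u + 8 * v) := by nlinarith
  refine ⟨10 * u + 16 * v - 18 * w, v + 2 * w + 5 * e,
    90*u*v + 80*u*w + 250*u*e - 250*v*w - 320*v*e - 90*w*e, by positivity, ?_, ?_, ?_, ?_⟩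
  · linear_combination (800*u*v + 5600*u*w + 10400*u*e - 4000*v*w - 6400*v*e - 20000*w^2
        - 64800*w*e - 51200*e^2) * h1 +
      (-200*u*v + 3600*u*w + 5400*u*e + 4000*v^2 + 9000*v*w + 21600*v*e + 16200*w*e
        + 28800*e^2) * h2
  · rw [abs_lt]
    constructor <;> nlinarith
  · rw [abs_of_pos (by positivity)]
    nlinarith
  · intro c hc hL
    rcases hc with rfl | rfl | rfl | rfl | rfl
    · -- c = 0 : 5u + 8v = 9w
      have h5 : 9 * w = 5 * u + 8 * v := by linarith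
      have h3 : 20 * (u - 2 * v) ^ 2 = 0 := by
        rw [← hid]; linear_combination (9 * w + 5 * u + 8 * v) * h5
      have h4 : u - 2 * v = 0 := by
        have : (u - 2 * v) ^ 2 = 0 := by linarith
        exact pow_eq_zero_iff (two_ne_zero) |>.mp this
      have h6 : u = 2 * v := by linarith
      have h7 : (e - v) * (e + v) = 0 := by
        have : 9 * ((e - v) * (e + v)) = 0 := by rw [h6] at h1; linear_combination h1
        linarith
      rcases mul_eq_zero.mp h7 with h | h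
      · linarith
      · exfalso; linarith
    · exfalso; linarith
    · exfalso; linarith
    · exfalso; linarith
    · -- c = -4 : w = u + 2v + 2e
      exfalso
      have h5 : w = u + 2 * v + 2 * e := by linarith
      rw [h5] at h2
      nlinarith [mul_pos hu hv, mul_pos hu he, mul_pos hv he]

set_option synthInstance.maxSize 4096 in
theorem base_I_nat : ∀ u < 10, ∀ e < 3, ∀ v < 20, u ^ 2 + 9 * e ^ 2 = v ^ 2 →
    ∀ w < 10, 0 < w → 0 < e → u ^ 2 = w ^ 2 + 16 * e ^ 2 → False := by decide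

set_option synthInstance.maxSize 4096 in
theorem base_II_nat : ∀ e < 5, ∀ u < 13, ∀ v < 13, 0 < u → 0 < v → u ^ 2 + v ^ 2 = 9 * e ^ 2 →
    ∀ w < 21, u ^ 2 + 16 * e ^ 2 = w ^ 2 → False := by decide

set_option synthInstance.maxSize 4096 in
theorem base_III_nat : ∀ u < 11, ∀ e < 3, ∀ v < 11, 0 < e → u ^ 2 + 9 * e ^ 2 = 5 * v ^ 2 →
    ∀ w < 11, u ^ 2 = 5 * w ^ 2 + 16 * e ^ 2 → u = 6 * e := by decide

set_option synthInstance.maxSize 4096 in
set_option maxRecDepth 100000 in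
theorem base_IV_nat : ∀ e < 19, ∀ u < 55, ∀ v < 26, 0 < e → u ^ 2 + 5 * v ^ 2 = 9 * e ^ 2 →
    ∀ w < 42, u ^ 2 + 16 * e ^ 2 = 5 * w ^ 2 → u = 2 * e := by decide

theorem base_I {u v w e : ℤ} (hu : 0 < u) (hv : 0 < v) (hw : 0 < w) (he : 0 < e)
    (h1 : u ^ 2 + 9 * e ^ 2 = v ^ 2) (h2 : u ^ 2 - 16 * e ^ 2 = w ^ 2) (hu9 : u ≤ 9) : False := by
  have h4e : 4 * e < u := by nlinarith
  have hwu : w < u := by nlinarith
  have hv20 : v < 20 := by nlinarith
  have h2' : u ^ 2 = w ^ 2 + 16 * e ^ 2 := by linarith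
  lift u to ℕ using hu.le
  lift v to ℕ using hv.le
  lift w to ℕ using hw.le
  lift e to ℕ using he.le
  norm_cast at h1 h2' h4e hwu hv20 hu9 hw he
  exact base_I_nat u (by omega) e (by omega) v hv20 h1 w (by omega) hw he h2'

theorem base_II {u v w e : ℤ} (hu : 0 < u) (hv : 0 < v) (hw : 0 < w) (he : 0 < e)
    (h1 : 9 * e ^ 2 - u ^ 2 = v ^ 2) (h2 : u ^ 2 + 16 * e ^ 2 = w ^ 2) (he4 : e ≤ 4) : False := by
  have hu3e : u < 3 * e := by nlinarith
  have hv3e : v < 3 * e := by nlinarith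
  have hw5e : w < 5 * e := by nlinarith
  have h1' : u ^ 2 + v ^ 2 = 9 * e ^ 2 := by linarith
  lift u to ℕ using hu.le
  lift v to ℕ using hv.le
  lift w to ℕ using hw.le
  lift e to ℕ using he.le
  norm_cast at h1' h2 hu3e hv3e hw5e he4 hu hv
  exact base_II_nat e (by omega) u (by omega) v (by omega) hu hv h1' w (by omega) h2

theorem base_III {u v w e : ℤ} (hu : 0 < u) (hv : 0 < v) (hw : 0 < w) (he : 0 < e)
    (h1 : u ^ 2 + 9 * e ^ 2 = 5 * v ^ 2) (h2 : u ^ 2 - 16 * e ^ 2 = 5 * w ^ 2) (hu10 : u ≤ 10) :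
    u = 6 * e := by
  have h4e : 4 * e < u := by nlinarith
  have hvu : v < u := by nlinarith
  have hwu : w < u := by nlinarith
  have h2' : u ^ 2 = 5 * w ^ 2 + 16 * e ^ 2 := by linarith
  lift u to ℕ using hu.le
  lift v to ℕ using hv.le
  lift w to ℕ using hw.le
  lift e to ℕ using he.le
  norm_cast at h1 h2' h4e hvu hwu hu10 he ⊢
  exact base_III_nat u (by omega) e (by omega) v (by omega) he h1 w (by omega) h2'

theorem base_IV {u v w e : ℤ} (hu : 0 < u) (hv : 0 < v) (hw : 0 < w) (he : 0 < e)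
    (h1 : 9 * e ^ 2 - u ^ 2 = 5 * v ^ 2) (h2 : u ^ 2 + 16 * e ^ 2 = 5 * w ^ 2) (he18 : e ≤ 18) :
    u = 2 * e := by
  have hu3e : u < 3 * e := by nlinarith
  have hv135 : 20 * v ≤ 27 * e := by nlinarith
  have hw224 : 25 * w ≤ 56 * e := by nlinarith
  have h1' : u ^ 2 + 5 * v ^ 2 = 9 * e ^ 2 := by linarith
  lift u to ℕ using hu.le
  lift v to ℕ using hv.le
  lift w to ℕ using hw.le
  lift e to ℕ using he.le
  norm_cast at h1' h2 hu3e hv135 hw224 he18 he ⊢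
  exact base_IV_nat e (by omega) u (by omega) v (by omega) he h1' w (by omega) h2

/-- Main descent: every rational point has `e = 1` and `m` in the torsion list. -/
theorem main_aux : ∀ n : ℕ, ∀ m e k : ℤ, 0 < e → IsCoprime m e →
    k ^ 2 = m * (m + 9 * e ^ 2) * (m - 16 * e ^ 2) → max m.natAbs (e ^ 2).natAbs ≤ n →
    e = 1 ∧ (m = 0 ∨ m = -9 ∨ m = 16 ∨ m = 36 ∨ m = -4) := by
  intro n
  induction n using Nat.strong_induction_on with
  | _ n ih =>
  intro m e k he hme hk hn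
  have hmn : m.natAbs ≤ n := le_trans (le_max_left _ _) hn
  have hen : (e ^ 2).natAbs ≤ n := le_trans (le_max_right _ _) hn
  have he1_of_dvd : e ∣ m → e = 1 := by
    intro hd
    have hu : IsUnit e := hme.isUnit_of_dvd' hd (dvd_refl e)
    rcases Int.isUnit_iff.mp hu with h | h <;> omega
  by_cases hk0 : k = 0
  · rw [hk0] at hk
    have h0 : m * (m + 9 * e ^ 2) * (m - 16 * e ^ 2) = 0 := by linarith
    rcases mul_eq_zero.mp h0 with h | h
    · rcases mul_eq_zero.mp h with h | h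
      · have he1 := he1_of_dvd (h ▸ dvd_zero e)
        exact ⟨he1, Or.inl h⟩
      · have hm : m = e * (-9 * e) := by linarith
        have he1 := he1_of_dvd ⟨-9 * e, hm⟩
        refine ⟨he1, Or.inr (Or.inl ?_)⟩
        rw [hm, he1]; norm_num
    · have hm : m = e * (16 * e) := by linarith
      have he1 := he1_of_dvd ⟨16 * e, hm⟩
      refine ⟨he1, Or.inr (Or.inr (Or.inl ?_))⟩
      rw [hm, he1]; norm_num
  · obtain ⟨u, v, w, hu, hv, hw, hcls⟩ := classify he hme hk hk0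
    have key : ∀ L1 L0 K : ℤ, L0 ≠ 0 → K ^ 2 = L1 * (L1 + 9 * L0) * (L1 - 16 * L0) * L0 →
        L1.natAbs < n → L0.natAbs < n →
        ∃ c : ℤ, (c = 0 ∨ c = -9 ∨ c = 16 ∨ c = 36 ∨ c = -4) ∧ L1 = c * L0 := by
      intro L1 L0 K h0 hK hb1 hb0
      obtain ⟨m', e', k', he', hme', hk', hrel, hm'le, he'le⟩ := exists_smaller h0 hK
      have hlt : max m'.natAbs (e' ^ 2).natAbs < n := max_lt (by omega) (by omega)
      obtain ⟨he'1, hm'⟩ := ih _ hlt m' e' k' he' hme' hk' le_rfl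
      refine ⟨m', hm', ?_⟩
      rw [he'1] at hrel; linarith
    rcases hcls with ⟨hm, hB, hC⟩ | ⟨hm, hB, hC⟩ | ⟨hm, hB, hC⟩ | ⟨hm, hB, hC⟩
    · -- class (1,1,1)
      exfalso
      have h1 : u ^ 2 + 9 * e ^ 2 = v ^ 2 := by rw [← hm]; exact hB
      have h2 : u ^ 2 - 16 * e ^ 2 = w ^ 2 := by rw [← hm]; exact hC
      by_cases hu9 : u ≤ 9
      · exact base_I hu hv hw he h1 h2 hu9
      · obtain ⟨L1, L0, K, h0, hK, hb1, hb0, hd⟩ := descent_I hu hv hw he h1 h2 (by omega)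
        rw [← hm, abs_lt] at hb1 hb0
        obtain ⟨c, hc, hL⟩ := key L1 L0 K h0 hK (by omega) (by omega)
        exact hd c hc hL
    · -- class (-1,1,-1)
      exfalso
      have h1 : 9 * e ^ 2 - u ^ 2 = v ^ 2 := by rw [← hB, hm]; ring
      have h2 : u ^ 2 + 16 * e ^ 2 = w ^ 2 := by linarith
      by_cases he4 : e ≤ 4
      · exact base_II hu hv hw he h1 h2 he4
      · obtain ⟨L1, L0, K, h0, hK, hb1, hb0, hd⟩ := descent_II hu hv hw he h1 h2 (by omega)
        have hm' : u ^ 2 = -m := by linarith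
        rw [hm', abs_lt] at hb1 hb0
        obtain ⟨c, hc, hL⟩ := key L1 L0 K h0 hK (by omega) (by omega)
        exact hd c hc hL
    · -- class (1,5,5)
      have h1 : u ^ 2 + 9 * e ^ 2 = 5 * v ^ 2 := by rw [← hm]; exact hB
      have h2 : u ^ 2 - 16 * e ^ 2 = 5 * w ^ 2 := by rw [← hm]; exact hC
      have hu6 : u = 6 * e := by
        by_cases hu10 : u ≤ 10
        · exact base_III hu hv hw he h1 h2 hu10
        · obtain ⟨L1, L0, K, h0, hK, hb1, hb0, hd⟩ := descent_III hu hv hw he h1 h2 (by omega)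
          rw [← hm, abs_lt] at hb1 hb0
          obtain ⟨c, hc, hL⟩ := key L1 L0 K h0 hK (by omega) (by omega)
          exact hd c hc hL
      have he1 := he1_of_dvd ⟨36 * e, by rw [hm, hu6]; ring⟩
      refine ⟨he1, Or.inr (Or.inr (Or.inr (Or.inl ?_)))⟩
      rw [hm, hu6, he1]; norm_num
    · -- class (-1,5,-5)
      have h1 : 9 * e ^ 2 - u ^ 2 = 5 * v ^ 2 := by rw [← hB, hm]; ring
      have h2 : u ^ 2 + 16 * e ^ 2 = 5 * w ^ 2 := by linarith
      have hu2 : u = 2 * e := by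
        by_cases he18 : e ≤ 18
        · exact base_IV hu hv hw he h1 h2 he18
        · obtain ⟨L1, L0, K, h0, hK, hb1, hb0, hd⟩ := descent_IV hu hv hw he h1 h2 (by omega)
          obtain ⟨E2, hE2⟩ : ∃ E2 : ℤ, E2 = e ^ 2 := ⟨_, rfl⟩
          rw [← hE2] at hb1 hb0 hen
          rw [abs_lt] at hb1 hb0
          obtain ⟨c, hc, hL⟩ := key L1 L0 K h0 hK (by omega) (by omega)
          exact hd c hc hL
      have he1 := he1_of_dvd ⟨-4 * e, by rw [hm, hu2]; ring⟩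
      refine ⟨he1, Or.inr (Or.inr (Or.inr (Or.inr ?_)))⟩
      rw [hm, hu2, he1]; norm_num

/-- **Rational points of `y² = x(x+9)(x-16)`**: the abscissa of a rational point is one of
`0, -9, 16, 36, -4`. -/
theorem rational_points (x y : ℚ) (h : y ^ 2 = x * (x + 9) * (x - 16)) :
    x = 0 ∨ x = -9 ∨ x = 16 ∨ x = 36 ∨ x = -4 := by
  obtain ⟨m, e, k, he, hme, hx, hk⟩ := exists_int_data h
  obtain ⟨he1, hm⟩ := main_aux _ m e k he hme hk le_rfl
  rw [he1] at hx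
  have hxm : x = (m : ℚ) := by rw [hx]; norm_num
  rcases hm with rfl | rfl | rfl | rfl | rfl
  · left; rw [hxm]; norm_num
  · right; left; rw [hxm]; norm_num
  · right; right; left; rw [hxm]; norm_num
  · right; right; right; left; rw [hxm]; norm_num
  · right; right; right; right; rw [hxm]; norm_num

/-- The seven affine rational points of `y² = x(x+9)(x-16)`. -/
theorem rational_points' (x y : ℚ) (h : y ^ 2 = x * (x + 9) * (x - 16)) :
    (x = 0 ∧ y = 0) ∨ (x = -9 ∧ y = 0) ∨ (x = 16 ∧ y = 0) ∨ (x = 36 ∧ y = 180) ∨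
      (x = 36 ∧ y = -180) ∨ (x = -4 ∧ y = 20) ∨ (x = -4 ∧ y = -20) := by
  rcases rational_points x y h with rfl | rfl | rfl | rfl | rfl
  · left; exact ⟨rfl, by simpa using h⟩
  · right; left; exact ⟨rfl, by simpa using h⟩
  · right; right; left; exact ⟨rfl, by simpa using h⟩
  · have h2 : (y - 180) * (y + 180) = 0 := by linear_combination h
    rcases mul_eq_zero.mp h2 with h3 | h3
    · right; right; right; left; exact ⟨rfl, by linarith⟩
    · right; right; right; right; left; exact ⟨rfl, by linarith⟩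
  · have h2 : (y - 20) * (y + 20) = 0 := by linear_combination h
    rcases mul_eq_zero.mp h2 with h3 | h3
    · right; right; right; right; right; left; exact ⟨rfl, by linarith⟩
    · right; right; right; right; right; right; exact ⟨rfl, by linarith⟩

end Fermat.Agent.S51.E15
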