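import Mathlib

/-!
# Algebraic core of the `5`-torsion step of S51

Pure algebra for the short Weierstrass data `f X = X³ + A X + B`: the numerator
`Nd X = X⁴ - 2 A X² - 8 B X + A²` of the duplication map `dup X = Nd X / (4 f X)`, the division
polynomials `psi3`, `psi5`, numerator `N2` and denominator `F2` of the second duplication, and:

* `Nd_sub`, `N2_sub`, `psi5_eq` : the polynomial identities
  `Nd - 4 X f = -psi3`, `N2 - 16 X f F2 = -psi3 psi5`, `psi5 = 32 g4 f² - psi3³`;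
* `bezout_f_Nd`, `bezout_psi3_g4` : Bezout certificates against the discriminant;
* over a field: a root `x₁` of `psi5` has `f x₁ ≠ 0`, `psi3 x₁ ≠ 0`, and `x₂ := dup x₁` satisfies
  `f x₂ ≠ 0`, `x₂ ≠ x₁`, `dup x₂ = x₁` (`dup_facts`); conversely `psi5_eq_zero_of_dup`;
* `psi5Poly`, `psi3Poly` as polynomials, their degrees, number of roots, existence of roots;
* the two relations between `A`, `B` and the symmetric functions `s = x₁ + x₂`, `t = x₁ x₂` of a
  pair swapped by `dup` (`rel_A`, `rel_B`), and `quad_ne_zero_of_psi3`.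
-/

set_option autoImplicit false

namespace Fermat.Agent.S51.FiveAlg

section Ring

variable {R : Type*} [CommRing R] (A B : R)

/-- The cubic `X³ + A X + B`. -/
def f (X : R) : R := X ^ 3 + A * X + B

/-- Numerator of the duplication map. -/
def Nd (X : R) : R := X ^ 4 - 2 * A * X ^ 2 - 8 * B * X + A ^ 2

/-- Third division polynomial. -/
def psi3 (X : R) : R := 3 * X ^ 4 + 6 * A * X ^ 2 + 12 * B * X - A ^ 2

/-- Reduced fourth division polynomial (`psi4 = 4 y g4`). -/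
def g4 (X : R) : R :=
  X ^ 6 + 5 * A * X ^ 4 + 20 * B * X ^ 3 - 5 * A ^ 2 * X ^ 2 - 4 * A * B * X - 8 * B ^ 2 - A ^ 3

/-- Fifth division polynomial. -/
def psi5 (X : R) : R :=
  5 * X ^ 12 + 62 * A * X ^ 10 + 380 * B * X ^ 9 - 105 * A ^ 2 * X ^ 8 + 240 * A * B * X ^ 7
    + (-300 * A ^ 3 - 240 * B ^ 2) * X ^ 6 - 696 * A ^ 2 * B * X ^ 5
    + (-125 * A ^ 4 - 1920 * A * B ^ 2) * X ^ 4 + (-80 * A ^ 3 * B - 1600 * B ^ 3) * X ^ 3
    + (-50 * A ^ 5 - 240 * A ^ 2 * B ^ 2) * X ^ 2 + (-100 * A ^ 4 * B - 640 * A * B ^ 3) * X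
    + (A ^ 6 - 32 * A ^ 3 * B ^ 2 - 256 * B ^ 4)

/-- The discriminant `4 A³ + 27 B²` (up to the factor `-16`). -/
def disc : R := 4 * A ^ 3 + 27 * B ^ 2

/-- Denominator of the second duplication: `F2 X = (4 f X)³ f (dup X)`. -/
def F2 (X : R) : R :=
  Nd A B X ^ 3 + A * Nd A B X * (4 * f A B X) ^ 2 + B * (4 * f A B X) ^ 3

/-- Numerator of the second duplication: `N2 X = (4 f X)⁴ Nd (dup X)`. -/
def N2 (X : R) : R :=
  Nd A B X ^ 4 - 2 * A * Nd A B X ^ 2 * (4 * f A B X) ^ 2 - 8 * B * Nd A B X * (4 * f A B X) ^ 3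
    + A ^ 2 * (4 * f A B X) ^ 4

theorem Nd_sub (X : R) : Nd A B X - 4 * X * f A B X = -psi3 A B X := by
  simp only [Nd, f, psi3]
  ring

theorem N2_sub (X : R) :
    N2 A B X - 16 * X * f A B X * F2 A B X = -(psi3 A B X * psi5 A B X) := by
  simp only [N2, F2, Nd, f, psi3, psi5]
  ring

theorem psi5_eq (X : R) :
    psi5 A B X = 32 * g4 A B X * f A B X ^ 2 - psi3 A B X ^ 3 := by
  simp only [g4, f, psi3, psi5]
  ring

theorem bezout_f_Nd (X : R) :
    (3 * X ^ 2 + 4 * A) * Nd A B X - (3 * X ^ 3 - 5 * A * X - 27 * B) * f A B X = disc A B := by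
  simp only [Nd, f, disc]
  ring

theorem bezout_psi3_g4 (X : R) :
    (54 * X ^ 5 * B + 12 * X ^ 4 * A ^ 2 + 252 * X ^ 3 * A * B + 60 * X ^ 2 * A ^ 3
        + 1107 * X ^ 2 * B ^ 2 - 114 * X * A ^ 2 * B - 56 * A ^ 4 - 423 * A * B ^ 2) * psi3 A B X
      + (-162 * X ^ 3 * B - 36 * X ^ 2 * A ^ 2 - 270 * X * A * B - 72 * A ^ 3 - 729 * B ^ 2)
        * g4 A B X = 8 * disc A B ^ 2 := by
  simp only [psi3, g4, disc]
  ring

/-- The relation between `A` and the symmetric functions of a pair swapped by duplication. -/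
theorem rel_A_aux (x₁ x₂ : R) :
    (x₂ - x₁) * (A ^ 2 + 2 * ((x₁ + x₂) ^ 2 - x₁ * x₂) * A
        - ((x₁ + x₂) ^ 4 - 5 * (x₁ + x₂) ^ 2 * (x₁ * x₂) - 5 * (x₁ * x₂) ^ 2)) =
      (2 * x₂ + x₁) * (Nd A B x₁ - 4 * x₂ * f A B x₁)
        - (2 * x₁ + x₂) * (Nd A B x₂ - 4 * x₁ * f A B x₂) := by
  simp only [Nd, f]
  ring

/-- The relation between `B` and the symmetric functions of a pair swapped by duplication. -/
theorem rel_B_aux (x₁ x₂ : R) :
    (Nd A B x₁ - 4 * x₂ * f A B x₁) + (Nd A B x₂ - 4 * x₁ * f A B x₂) =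
      (2 * A ^ 2 - 2 * A * ((x₁ + x₂) ^ 2 + 2 * (x₁ * x₂)) + (x₁ + x₂) ^ 4
        - 8 * (x₁ + x₂) ^ 2 * (x₁ * x₂) + 10 * (x₁ * x₂) ^ 2) - 12 * (x₁ + x₂) * B := by
  simp only [Nd, f]
  ring

end Ring

section Field

variable {K : Type*} [Field K] (A B : K)

/-- The duplication map on `x`-coordinates of the short Weierstrass model. -/
noncomputable def dup (X : K) : K := Nd A B X / (4 * f A B X)

variable {A B}

/-- `f` and `Nd` have no common root when the discriminant is nonzero. -/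
theorem disc_eq_zero_of_f_of_Nd {X : K} (h1 : f A B X = 0) (h2 : Nd A B X = 0) :
    disc A B = 0 := by
  rw [← bezout_f_Nd A B X, h1, h2, mul_zero, mul_zero, sub_zero]

/-- `f` and `psi3` have no common root when the discriminant is nonzero. -/
theorem disc_eq_zero_of_f_of_psi3 {X : K} (h1 : f A B X = 0) (h2 : psi3 A B X = 0) :
    disc A B = 0 := by
  refine disc_eq_zero_of_f_of_Nd h1 ?_
  have := Nd_sub A B X
  rw [h1, h2] at this
  simpa using this

/-- A root of `psi5` is not a root of `f`. -/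
theorem f_ne_zero_of_psi5 (hd : disc A B ≠ 0) {X : K} (h5 : psi5 A B X = 0) : f A B X ≠ 0 := by
  intro h1
  have h := N2_sub A B X
  rw [h5, h1] at h
  have h2 : Nd A B X ^ 4 = 0 := by
    have h3 : N2 A B X = Nd A B X ^ 4 := by
      simp only [N2, h1]
      ring
    rw [h3] at h
    simpa using h
  exact hd (disc_eq_zero_of_f_of_Nd h1 (pow_eq_zero_iff (by norm_num) |>.mp h2))

/-- A root of `psi5` is not a root of `psi3` (in characteristic different from `2`). -/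
theorem psi3_ne_zero_of_psi5 (h2 : (2 : K) ≠ 0) (hd : disc A B ≠ 0) {X : K}
    (h5 : psi5 A B X = 0) : psi3 A B X ≠ 0 := by
  intro h3
  have hf := f_ne_zero_of_psi5 hd h5
  have h := psi5_eq A B X
  rw [h5, h3] at h
  have hg : g4 A B X = 0 := by
    have h32 : (32 : K) ≠ 0 := by
      have : (32 : K) = 2 ^ 5 := by norm_num
      rw [this]
      exact pow_ne_zero _ h2
    have h4 : 32 * g4 A B X * f A B X ^ 2 = 0 := by
      have := h.symm
      simpa using this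
    rcases mul_eq_zero.mp h4 with h4 | h4
    · rcases mul_eq_zero.mp h4 with h4 | h4
      · exact absurd h4 h32
      · exact h4
    · exact absurd (pow_eq_zero_iff (by norm_num) |>.mp h4) hf
  have hb := bezout_psi3_g4 A B X
  rw [h3, hg, mul_zero, mul_zero, add_zero] at hb
  have h8 : (8 : K) ≠ 0 := by
    have : (8 : K) = 2 ^ 3 := by norm_num
    rw [this]
    exact pow_ne_zero _ h2
  rcases mul_eq_zero.mp hb.symm with h | h
  · exact h8 h
  · exact hd (pow_eq_zero_iff (by norm_num) |>.mp h)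

theorem f_div (n d : K) (hd : d ≠ 0) :
    n ^ 3 + A * n * d ^ 2 + B * d ^ 3 = d ^ 3 * f A B (n / d) := by
  simp only [f]
  field_simp

theorem Nd_div (n d : K) (hd : d ≠ 0) :
    n ^ 4 - 2 * A * n ^ 2 * d ^ 2 - 8 * B * n * d ^ 3 + A ^ 2 * d ^ 4 =
      d ^ 4 * Nd A B (n / d) := by
  simp only [Nd]
  field_simp

theorem F2_eq (h4 : (4 : K) ≠ 0) {X : K} (hf : f A B X ≠ 0) :
    F2 A B X = (4 * f A B X) ^ 3 * f A B (dup A B X) :=
  f_div (Nd A B X) (4 * f A B X) (mul_ne_zero h4 hf)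

theorem N2_eq (h4 : (4 : K) ≠ 0) {X : K} (hf : f A B X ≠ 0) :
    N2 A B X = (4 * f A B X) ^ 4 * Nd A B (dup A B X) :=
  Nd_div (Nd A B X) (4 * f A B X) (mul_ne_zero h4 hf)

/-- A root of `psi3` is not a root of `f`. -/
theorem f_ne_zero_of_psi3 (hd : disc A B ≠ 0) {X : K} (h3 : psi3 A B X = 0) : f A B X ≠ 0 :=
  fun h => hd (disc_eq_zero_of_f_of_psi3 h h3)

/-- The fixed points of the duplication map are the roots of `psi3`. -/
theorem dup_eq_self_iff (h4 : (4 : K) ≠ 0) {X : K} (hf : f A B X ≠ 0) :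
    dup A B X = X ↔ psi3 A B X = 0 := by
  have h4f : 4 * f A B X ≠ 0 := mul_ne_zero h4 hf
  have h := Nd_sub A B X
  rw [dup, div_eq_iff h4f]
  constructor
  · intro h0
    rw [h0] at h
    have : -psi3 A B X = 0 := by
      rw [← h]
      ring
    exact neg_eq_zero.mp this
  · intro h0
    rw [h0, neg_zero] at h
    rw [sub_eq_zero.mp h]
    ring

/-- **Structure of a root of `psi5`.** If `x₁` is a root of `psi5` and `x₂ = dup x₁`, then
`f`, `psi3` do not vanish at `x₁`, `f x₂ ≠ 0`, `x₂ ≠ x₁` and `dup x₂ = x₁`. -/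
theorem dup_facts (h2 : (2 : K) ≠ 0) (hd : disc A B ≠ 0) {x₁ : K} (h5 : psi5 A B x₁ = 0) :
    f A B x₁ ≠ 0 ∧ psi3 A B x₁ ≠ 0 ∧ f A B (dup A B x₁) ≠ 0 ∧ dup A B x₁ ≠ x₁ ∧
      Nd A B x₁ = 4 * dup A B x₁ * f A B x₁ ∧
      Nd A B (dup A B x₁) = 4 * x₁ * f A B (dup A B x₁) ∧ dup A B (dup A B x₁) = x₁ := by
  have h4 : (4 : K) ≠ 0 := by
    have : (4 : K) = 2 ^ 2 := by norm_num
    rw [this]
    exact pow_ne_zero _ h2
  have hf := f_ne_zero_of_psi5 hd h5
  have h3 := psi3_ne_zero_of_psi5 h2 hd h5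
  have h4f : 4 * f A B x₁ ≠ 0 := mul_ne_zero h4 hf
  have h12 : Nd A B x₁ = 4 * dup A B x₁ * f A B x₁ := by
    rw [dup]
    field_simp
  have hN := N2_sub A B x₁
  rw [h5, mul_zero, neg_zero, N2_eq h4 hf, F2_eq h4 hf] at hN
  have h21 : Nd A B (dup A B x₁) = 4 * x₁ * f A B (dup A B x₁) := by
    have h6 : (4 * f A B x₁) ^ 4 *
        (Nd A B (dup A B x₁) - 4 * x₁ * f A B (dup A B x₁)) = 0 := by
      rw [← hN]
      ring
    rcases mul_eq_zero.mp h6 with h6 | h6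
    · exact absurd (pow_eq_zero_iff (by norm_num) |>.mp h6) h4f
    · exact sub_eq_zero.mp h6
  have hf2 : f A B (dup A B x₁) ≠ 0 := by
    intro h0
    rw [h0, mul_zero] at h21
    exact hd (disc_eq_zero_of_f_of_Nd h0 h21)
  have hne : dup A B x₁ ≠ x₁ := by
    intro h0
    rw [h0] at h12
    have := Nd_sub A B x₁
    rw [h12, sub_self] at this
    exact h3 (neg_eq_zero.mp this.symm)
  refine ⟨hf, h3, hf2, hne, h12, h21, ?_⟩
  have h4f2 : 4 * f A B (dup A B x₁) ≠ 0 := mul_ne_zero h4 hf2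
  rw [dup, h21]
  field_simp

/-- A pair swapped by the duplication map consists of roots of `psi5`. -/
theorem psi5_eq_zero_of_dup (h2 : (2 : K) ≠ 0) (hd : disc A B ≠ 0) {x₁ x₂ : K}
    (h12 : Nd A B x₁ = 4 * x₂ * f A B x₁) (h21 : Nd A B x₂ = 4 * x₁ * f A B x₂)
    (hne : x₁ ≠ x₂) : psi5 A B x₁ = 0 := by
  have h4 : (4 : K) ≠ 0 := by
    have : (4 : K) = 2 ^ 2 := by norm_num
    rw [this]
    exact pow_ne_zero _ h2
  have hf : f A B x₁ ≠ 0 := by
    intro h0
    rw [h0, mul_zero] at h12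
    exact hd (disc_eq_zero_of_f_of_Nd h0 h12)
  have h4f : 4 * f A B x₁ ≠ 0 := mul_ne_zero h4 hf
  have hdup : dup A B x₁ = x₂ := by
    rw [dup, h12]
    field_simp
  have hN := N2_sub A B x₁
  rw [N2_eq h4 hf, F2_eq h4 hf, hdup, h21] at hN
  have h0 : psi3 A B x₁ * psi5 A B x₁ = 0 := by
    have : -(psi3 A B x₁ * psi5 A B x₁) = 0 := by
      rw [← hN]
      ring
    exact neg_eq_zero.mp this
  have h3 : psi3 A B x₁ ≠ 0 := by
    intro h3
    have := Nd_sub A B x₁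
    rw [h3, h12, neg_zero] at this
    have h7 : 4 * f A B x₁ * (x₂ - x₁) = 0 := by
      rw [← this]
      ring
    rcases mul_eq_zero.mp h7 with h7 | h7
    · exact h4f h7
    · exact hne (sub_eq_zero.mp h7).symm
  rcases mul_eq_zero.mp h0 with h0 | h0
  · exact absurd h0 h3
  · exact h0

/-- First relation between `A` and the symmetric functions of a pair swapped by `dup`. -/
theorem rel_A {x₁ x₂ : K} (h12 : Nd A B x₁ = 4 * x₂ * f A B x₁)
    (h21 : Nd A B x₂ = 4 * x₁ * f A B x₂) (hne : x₁ ≠ x₂) :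
    A ^ 2 + 2 * ((x₁ + x₂) ^ 2 - x₁ * x₂) * A
        - ((x₁ + x₂) ^ 4 - 5 * (x₁ + x₂) ^ 2 * (x₁ * x₂) - 5 * (x₁ * x₂) ^ 2) = 0 := by
  have h := rel_A_aux A B x₁ x₂
  rw [h12, h21, sub_self, sub_self, mul_zero, mul_zero, sub_zero] at h
  rcases mul_eq_zero.mp h with h | h
  · exact absurd (sub_eq_zero.mp h).symm hne
  · exact h

/-- Second relation: `B` in terms of `A` and the symmetric functions of a pair swapped by
`dup`. -/
theorem rel_B {x₁ x₂ : K} (h12 : Nd A B x₁ = 4 * x₂ * f A B x₁)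
    (h21 : Nd A B x₂ = 4 * x₁ * f A B x₂) :
    12 * (x₁ + x₂) * B = 2 * A ^ 2 - 2 * A * ((x₁ + x₂) ^ 2 + 2 * (x₁ * x₂)) + (x₁ + x₂) ^ 4
        - 8 * (x₁ + x₂) ^ 2 * (x₁ * x₂) + 10 * (x₁ * x₂) ^ 2 := by
  have h := rel_B_aux A B x₁ x₂
  rw [h12, h21, sub_self, sub_self, add_zero] at h
  exact (sub_eq_zero.mp h.symm).symm

/-- A root of `psi3` is not a root of `X² - (x₁ + x₂) X + x₁ x₂` for a pair swapped by `dup`. -/
theorem quad_ne_zero_of_psi3 (h2 : (2 : K) ≠ 0) (hd : disc A B ≠ 0) {x₁ x₂ : K}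
    (h12 : Nd A B x₁ = 4 * x₂ * f A B x₁) (h21 : Nd A B x₂ = 4 * x₁ * f A B x₂)
    (hne : x₁ ≠ x₂) {x : K} (h3 : psi3 A B x = 0) :
    x ^ 2 - (x₁ + x₂) * x + x₁ * x₂ ≠ 0 := by
  intro h0
  have h1 : (x - x₁) * (x - x₂) = 0 := by
    rw [← h0]
    ring
  have key : ∀ y₁ y₂ : K, Nd A B y₁ = 4 * y₂ * f A B y₁ → Nd A B y₂ = 4 * y₁ * f A B y₂ →
      y₁ ≠ y₂ → psi3 A B y₁ ≠ 0 := by
    intro y₁ y₂ g12 g21 gne
    exact psi3_ne_zero_of_psi5 h2 hd (psi5_eq_zero_of_dup h2 hd g12 g21 gne)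
  rcases mul_eq_zero.mp h1 with h1 | h1
  · rw [sub_eq_zero.mp h1] at h3
    exact key x₁ x₂ h12 h21 hne h3
  · rw [sub_eq_zero.mp h1] at h3
    exact key x₂ x₁ h21 h12 hne.symm h3

/-- **The algebraic content of `five_data`.** For a pair `x₁ ≠ x₂` in an extension field swapped
by the duplication map and with symmetric functions `s`, `t` in the base field, the base-field
relations hold. -/
theorem five_relations {k : Type*} [Field k] (φ : k →+* K) (a b s t : k) {x₁ x₂ : K}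
    (h2 : (2 : K) ≠ 0) (hd : disc (φ a) (φ b) ≠ 0)
    (hs : φ s = x₁ + x₂) (ht : φ t = x₁ * x₂)
    (h12 : Nd (φ a) (φ b) x₁ = 4 * x₂ * f (φ a) (φ b) x₁)
    (h21 : Nd (φ a) (φ b) x₂ = 4 * x₁ * f (φ a) (φ b) x₂) (hne : x₁ ≠ x₂) :
    s ^ 2 - 4 * t ≠ 0 ∧
      a ^ 2 + 2 * (s ^ 2 - t) * a - (s ^ 4 - 5 * s ^ 2 * t - 5 * t ^ 2) = 0 ∧
      12 * s * b = 2 * a ^ 2 - 2 * a * (s ^ 2 + 2 * t) + s ^ 4 - 8 * s ^ 2 * t + 10 * t ^ 2 ∧
      ∀ x : k, 3 * x ^ 4 + 6 * a * x ^ 2 + 12 * b * x - a ^ 2 = 0 → x ^ 2 - s * x + t ≠ 0 := by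
  have hinj : Function.Injective φ := φ.injective
  refine ⟨?_, ?_, ?_, ?_⟩
  · intro h0
    have h1 := congrArg φ h0
    simp only [map_sub, map_pow, map_mul, map_ofNat, map_zero, hs, ht] at h1
    have h3 : (x₁ - x₂) ^ 2 = 0 := by
      rw [← h1]
      ring
    exact hne (sub_eq_zero.mp (pow_eq_zero_iff (by norm_num) |>.mp h3))
  · apply hinj
    simp only [map_sub, map_add, map_pow, map_mul, map_ofNat, map_zero, hs, ht]
    exact rel_A h12 h21 hne
  · apply hinj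
    simp only [map_sub, map_add, map_pow, map_mul, map_ofNat, hs, ht]
    exact rel_B h12 h21
  · intro x hx h0
    have h3 : psi3 (φ a) (φ b) (φ x) = 0 := by
      have := congrArg φ hx
      simpa only [psi3, map_sub, map_add, map_pow, map_mul, map_ofNat, map_zero] using this
    have h1 := congrArg φ h0
    simp only [map_sub, map_add, map_pow, map_mul, map_zero, hs, ht] at h1
    exact quad_ne_zero_of_psi3 h2 hd h12 h21 hne h3 h1

end Field

section Poly

open Polynomial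

variable {K : Type*} [Field K] (A B : K)

/-- `psi3` as a polynomial. -/
noncomputable def psi3Poly : K[X] :=
  C 3 * X ^ 4 + C (6 * A) * X ^ 2 + C (12 * B) * X - C (A ^ 2)

/-- `psi5` as a polynomial. -/
noncomputable def psi5Poly : K[X] :=
  C 5 * X ^ 12 + C (62 * A) * X ^ 10 + C (380 * B) * X ^ 9 - C (105 * A ^ 2) * X ^ 8
    + C (240 * A * B) * X ^ 7 + C (-300 * A ^ 3 - 240 * B ^ 2) * X ^ 6
    - C (696 * A ^ 2 * B) * X ^ 5 + C (-125 * A ^ 4 - 1920 * A * B ^ 2) * X ^ 4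
    + C (-80 * A ^ 3 * B - 1600 * B ^ 3) * X ^ 3 + C (-50 * A ^ 5 - 240 * A ^ 2 * B ^ 2) * X ^ 2
    + C (-100 * A ^ 4 * B - 640 * A * B ^ 3) * X + C (A ^ 6 - 32 * A ^ 3 * B ^ 2 - 256 * B ^ 4)

@[simp] theorem eval_psi3Poly (x : K) : (psi3Poly A B).eval x = psi3 A B x := by
  simp [psi3Poly, psi3]

@[simp] theorem eval_psi5Poly (x : K) : (psi5Poly A B).eval x = psi5 A B x := by
  simp [psi5Poly, psi5]

theorem natDegree_psi3Poly (h3 : (3 : K) ≠ 0) : (psi3Poly A B).natDegree = 4 := by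
  rw [psi3Poly]
  compute_degree!

theorem natDegree_psi5Poly (h5 : (5 : K) ≠ 0) : (psi5Poly A B).natDegree = 12 := by
  rw [psi5Poly]
  compute_degree!

theorem psi3Poly_ne_zero (h3 : (3 : K) ≠ 0) : psi3Poly A B ≠ 0 := by
  intro h
  have := natDegree_psi3Poly A B h3
  rw [h, natDegree_zero] at this
  omega

theorem psi5Poly_ne_zero (h5 : (5 : K) ≠ 0) : psi5Poly A B ≠ 0 := by
  intro h
  have := natDegree_psi5Poly A B h5
  rw [h, natDegree_zero] at this
  omega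

/-- `psi3` has at most four roots. -/
theorem exists_finset_psi3 (h3 : (3 : K) ≠ 0) [DecidableEq K] :
    ∃ s : Finset K, s.card ≤ 4 ∧ ∀ x, psi3 A B x = 0 ↔ x ∈ s := by
  refine ⟨(psi3Poly A B).roots.toFinset, ?_, fun x => ?_⟩
  · refine (Multiset.toFinset_card_le _).trans ?_
    exact ((psi3Poly A B).card_roots').trans (natDegree_psi3Poly A B h3).le
  · rw [Multiset.mem_toFinset, mem_roots (psi3Poly_ne_zero A B h3), IsRoot.def, eval_psi3Poly]

/-- `psi5` has at most twelve roots. -/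
theorem exists_finset_psi5 (h5 : (5 : K) ≠ 0) [DecidableEq K] :
    ∃ s : Finset K, s.card ≤ 12 ∧ ∀ x, psi5 A B x = 0 ↔ x ∈ s := by
  refine ⟨(psi5Poly A B).roots.toFinset, ?_, fun x => ?_⟩
  · refine (Multiset.toFinset_card_le _).trans ?_
    exact ((psi5Poly A B).card_roots').trans (natDegree_psi5Poly A B h5).le
  · rw [Multiset.mem_toFinset, mem_roots (psi5Poly_ne_zero A B h5), IsRoot.def, eval_psi5Poly]

/-- `psi3` has a root in an algebraically closed field of characteristic different from `3`. -/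
theorem exists_psi3_root [IsAlgClosed K] (h3 : (3 : K) ≠ 0) : ∃ x : K, psi3 A B x = 0 := by
  have hdeg : (psi3Poly A B).degree ≠ 0 := by
    rw [degree_eq_natDegree (psi3Poly_ne_zero A B h3), natDegree_psi3Poly A B h3]
    norm_num
  obtain ⟨x, hx⟩ := IsAlgClosed.exists_root (psi3Poly A B) hdeg
  exact ⟨x, by rwa [IsRoot.def, eval_psi3Poly] at hx⟩

/-- `psi5` has a root in an algebraically closed field of characteristic different from `5`. -/
theorem exists_psi5_root [IsAlgClosed K] (h5 : (5 : K) ≠ 0) : ∃ x : K, psi5 A B x = 0 := by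
  have hdeg : (psi5Poly A B).degree ≠ 0 := by
    rw [degree_eq_natDegree (psi5Poly_ne_zero A B h5), natDegree_psi5Poly A B h5]
    norm_num
  obtain ⟨x, hx⟩ := IsAlgClosed.exists_root (psi5Poly A B) hdeg
  exact ⟨x, by rwa [IsRoot.def, eval_psi5Poly] at hx⟩

end Poly

end Fermat.Agent.S51.FiveAlg
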