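import Fermat.Agent.S51.ModularCert

/-!
# S51, modular algebra: main statement

`modular_core`: from the rational 3- and 5-torsion data of `y² = x³ + A x + B` over `ℚ` we get a
rational point `(ξ, κ)`, `ξ κ ≠ 0`, on `ξ²κ - ξκ² - 5ξκ - 9ξ - κ = 0` with
`j = (σ+27)(σ+3)³/σ`, `σ = 729 ξ²/κ³`.
-/

set_option autoImplicit false

namespace Fermat.Agent.S51.Modular

/-- Consequence of `ψ₃(x) = 0`: `(x²+3A)(3x²+A)³ = 16 x² (4A³+27B²)`. -/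
theorem three_torsion_identity {R : Type*} [CommRing R] (A B x : R)
    (h3 : 3 * x ^ 4 + 6 * A * x ^ 2 + 12 * B * x - A ^ 2 = 0) :
    (x ^ 2 + 3 * A) * (3 * x ^ 2 + A) ^ 3 = 16 * x ^ 2 * (4 * A ^ 3 + 27 * B ^ 2) := by
  linear_combination (3 * (3 * x ^ 4 + 6 * A * x ^ 2 - A ^ 2) - 36 * x * B) * h3

/-- Generic-atom form of the curve expression. -/
theorem curve_expr_eq (P R D E : ℚ) (hP : P ≠ 0) (hR : R ≠ 0) (hD : D ≠ 0) :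
    (P * E ^ 3 / (9 * R * D ^ 3)) ^ 2 * (-(P * E ^ 2) / (R * D ^ 2))
      - (P * E ^ 3 / (9 * R * D ^ 3)) * (-(P * E ^ 2) / (R * D ^ 2)) ^ 2
      - 5 * (P * E ^ 3 / (9 * R * D ^ 3)) * (-(P * E ^ 2) / (R * D ^ 2))
      - 9 * (P * E ^ 3 / (9 * R * D ^ 3)) - (-(P * E ^ 2) / (R * D ^ 2)) =
    P * E ^ 2 / (81 * R ^ 3 * D ^ 8) *
      (-P ^ 2 * E ^ 6 - 9 * P ^ 2 * E ^ 5 * D + 45 * P * E ^ 3 * R * D ^ 3
        - 81 * E * R ^ 2 * D ^ 5 + 81 * R ^ 2 * D ^ 6) := by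
  field_simp
  ring

/-- Generic-atom form of `σ = 729 ξ²/κ³`. -/
theorem sigma_expr_eq (P R D E : ℚ) (hP : P ≠ 0) (hR : R ≠ 0) (hD : D ≠ 0) (hE : E ≠ 0) :
    729 * (P * E ^ 3 / (9 * R * D ^ 3)) ^ 2 / (-(P * E ^ 2) / (R * D ^ 2)) ^ 3 = -9 * R / P := by
  field_simp
  ring

/-- Generic-atom form of the `j`-expression. -/
theorem j_expr_eq (P R x A : ℚ) (hP : P ≠ 0) (hR : R ≠ 0) (h1 : -9 * R + 27 * P = 72 * x ^ 2)
    (h2 : -9 * R + 3 * P = -24 * A) :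
    (-9 * R / P + 27) * (-9 * R / P + 3) ^ 3 / (-9 * R / P) =
      110592 * x ^ 2 * A ^ 3 / (R * P ^ 3) := by
  have e1 : -9 * R / P + 27 = 72 * x ^ 2 / P := by
    rw [eq_div_iff hP, add_mul, div_mul_cancel₀ _ hP, h1]
  have e2 : -9 * R / P + 3 = -24 * A / P := by
    rw [eq_div_iff hP, add_mul, div_mul_cancel₀ _ hP, h2]
  rw [e1, e2]
  field_simp
  ring

theorem modular_core (A B x s t : ℚ) (hA : A ≠ 0) (hΔ : 4 * A ^ 3 + 27 * B ^ 2 ≠ 0)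
    (h3 : 3 * x ^ 4 + 6 * A * x ^ 2 + 12 * B * x - A ^ 2 = 0)
    (he : s ^ 2 - 4 * t ≠ 0)
    (hQ : A ^ 2 + 2 * (s ^ 2 - t) * A - (s ^ 4 - 5 * s ^ 2 * t - 5 * t ^ 2) = 0)
    (hL : 12 * s * B = 2 * A ^ 2 - 2 * A * (s ^ 2 + 2 * t) + s ^ 4 - 8 * s ^ 2 * t + 10 * t ^ 2)
    (hnd : x ^ 2 - s * x + t ≠ 0) :
    ∃ ξ κ : ℚ, ξ ≠ 0 ∧ κ ≠ 0 ∧ ξ ^ 2 * κ - ξ * κ ^ 2 - 5 * ξ * κ - 9 * ξ - κ = 0 ∧
      6912 * A ^ 3 / (4 * A ^ 3 + 27 * B ^ 2) =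
        (729 * ξ ^ 2 / κ ^ 3 + 27) * (729 * ξ ^ 2 / κ ^ 3 + 3) ^ 3 / (729 * ξ ^ 2 / κ ^ 3) := by
  -- `x ≠ 0`
  have hx : x ≠ 0 := by
    rintro rfl
    apply hA
    have : A ^ 2 = 0 := by linear_combination -h3
    exact pow_eq_zero_iff (two_ne_zero) |>.mp this
  -- `s ≠ 0`
  have hs : s ≠ 0 := by
    rintro rfl
    have h1 : (A - t) ^ 2 + (2 * t) ^ 2 = 0 := by linear_combination hQ
    have h2 : (A - t) ^ 2 = 0 ∧ (2 * t) ^ 2 = 0 :=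
      (add_eq_zero_iff_of_nonneg (sq_nonneg _) (sq_nonneg _)).mp h1
    have ht : t = 0 := by
      have := pow_eq_zero_iff (two_ne_zero) |>.mp h2.2
      linarith
    have hAt : A - t = 0 := pow_eq_zero_iff (two_ne_zero) |>.mp h2.1
    apply hA; linarith
  have hRP := three_torsion_identity A B x h3
  have hRP0 : (x ^ 2 + 3 * A) * (3 * x ^ 2 + A) ^ 3 ≠ 0 := by
    rw [hRP]; exact mul_ne_zero (mul_ne_zero (by norm_num) (pow_ne_zero _ hx)) hΔ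
  have hR : x ^ 2 + 3 * A ≠ 0 := left_ne_zero_of_mul hRP0
  have hP : 3 * x ^ 2 + A ≠ 0 := fun h => (right_ne_zero_of_mul hRP0) (by rw [h]; ring)
  -- the combined relation
  have h3' : s * (3 * x ^ 4 + 6 * A * x ^ 2 - A ^ 2)
      + x * (2 * A ^ 2 - 2 * A * (s ^ 2 + 2 * t) + s ^ 4 - 8 * s ^ 2 * t + 10 * t ^ 2) = 0 := by
    linear_combination s * h3 - x * hL
  have hN : curveNum A x s t = 0 := by
    have := curveNum_certificate A x s t h3' hQ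
    rcases mul_eq_zero.mp this with h | h
    · exfalso
      exact (mul_ne_zero (by norm_num) (pow_ne_zero _ hs)) h
    · exact h
  refine ⟨(3 * x ^ 2 + A) * (s ^ 2 - 4 * t) ^ 3 / (9 * (x ^ 2 + 3 * A) * (x ^ 2 - s * x + t) ^ 3),
    -((3 * x ^ 2 + A) * (s ^ 2 - 4 * t) ^ 2) / ((x ^ 2 + 3 * A) * (x ^ 2 - s * x + t) ^ 2),
    ?_, ?_, ?_, ?_⟩
  · exact div_ne_zero (mul_ne_zero hP (pow_ne_zero _ he))
      (mul_ne_zero (mul_ne_zero (by norm_num) hR) (pow_ne_zero _ hnd))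
  · exact div_ne_zero (neg_ne_zero.mpr (mul_ne_zero hP (pow_ne_zero _ he)))
      (mul_ne_zero hR (pow_ne_zero _ hnd))
  · rw [curve_expr_eq _ _ _ _ hP hR hnd]
    have : -(3 * x ^ 2 + A) ^ 2 * (s ^ 2 - 4 * t) ^ 6
        - 9 * (3 * x ^ 2 + A) ^ 2 * (s ^ 2 - 4 * t) ^ 5 * (x ^ 2 - s * x + t)
        + 45 * (3 * x ^ 2 + A) * (s ^ 2 - 4 * t) ^ 3 * (x ^ 2 + 3 * A) * (x ^ 2 - s * x + t) ^ 3
        - 81 * (s ^ 2 - 4 * t) * (x ^ 2 + 3 * A) ^ 2 * (x ^ 2 - s * x + t) ^ 5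
        + 81 * (x ^ 2 + 3 * A) ^ 2 * (x ^ 2 - s * x + t) ^ 6 = 0 := hN
    rw [this, mul_zero]
  · rw [sigma_expr_eq _ _ _ _ hP hR hnd he,
      j_expr_eq (3 * x ^ 2 + A) (x ^ 2 + 3 * A) x A hP hR (by ring) (by ring),
      div_eq_div_iff hΔ hRP0]
    linear_combination (6912 * A ^ 3) * hRP

end Fermat.Agent.S51.Modular
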