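import Mathlib

/-!
# S51, modular algebra: from the 3- and 5-torsion data to a rational point on `X₀(15)`

Given a short Weierstrass curve `y² = x³ + A x + B` over `ℚ`, a rational root `x` of the
3-division polynomial and the symmetric functions `s, t` of the x-coordinates of a rational
5-subgroup, the two modular units

  `ξ = (3x²+A)(s²-4t)³ / (9 (x²+3A)(x²-sx+t)³)`,  `κ = -(3x²+A)(s²-4t)² / ((x²+3A)(x²-sx+t)²)`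

satisfy `ξ²κ - ξκ² - 5ξκ - 9ξ - κ = 0`, a model of `X₀(15)`, and `j = (σ+27)(σ+3)³/σ` with
`σ = 729 ξ²/κ³`.
-/

set_option autoImplicit false

namespace Fermat.Agent.S51.Modular

/-- The numerator of `ξ²κ - ξκ² - 5ξκ - 9ξ - κ`. -/
def curveNum {R : Type*} [CommRing R] (A x s t : R) : R :=
  -(3 * x ^ 2 + A) ^ 2 * (s ^ 2 - 4 * t) ^ 6
    - 9 * (3 * x ^ 2 + A) ^ 2 * (s ^ 2 - 4 * t) ^ 5 * (x ^ 2 - s * x + t)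
    + 45 * (3 * x ^ 2 + A) * (s ^ 2 - 4 * t) ^ 3 * (x ^ 2 + 3 * A) * (x ^ 2 - s * x + t) ^ 3
    - 81 * (s ^ 2 - 4 * t) * (x ^ 2 + 3 * A) ^ 2 * (x ^ 2 - s * x + t) ^ 5
    + 81 * (x ^ 2 + 3 * A) ^ 2 * (x ^ 2 - s * x + t) ^ 6

/-- Polynomial certificate: the numerator lies in the ideal of the torsion relations. -/
theorem curveNum_certificate {R : Type*} [CommRing R] (A x s t : R)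
    (h3 : s * (3 * x ^ 4 + 6 * A * x ^ 2 - A ^ 2)
      + x * (2 * A ^ 2 - 2 * A * (s ^ 2 + 2 * t) + s ^ 4 - 8 * s ^ 2 * t + 10 * t ^ 2) = 0)
    (hQ : A ^ 2 + 2 * (s ^ 2 - t) * A - (s ^ 4 - 5 * s ^ 2 * t - 5 * t ^ 2) = 0) :
    3 * s ^ 5 * curveNum A x s t = 0 := by
  unfold curveNum
  linear_combination
    (
      16 * A ^ 8 + 48 * A ^ 7 * x * s - 64 * A ^ 7 * s ^ 2 - 128 * A ^ 7 * t - 24 * A ^ 6 * x ^ 3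
      * s + 72 * A ^ 6 * x ^ 2 * s ^ 2 + 258 * A ^ 6 * x * s ^ 3 - 528 * A ^ 6 * x * s * t - 904 *
      A ^ 6 * s ^ 4 + 1184 * A ^ 6 * s ^ 2 * t + 704 * A ^ 6 * t ^ 2 - 144 * A ^ 5 * x ^ 3 * s ^ 3
      + 144 * A ^ 5 * x ^ 3 * s * t + 468 * A ^ 5 * x ^ 2 * s ^ 4 - 576 * A ^ 5 * x ^ 2 * s ^ 2 *
      t + 270 * A ^ 5 * x * s ^ 5 - 1764 * A ^ 5 * x * s ^ 3 * t + 2736 * A ^ 5 * x * s * t ^ 2 -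
      2428 * A ^ 5 * s ^ 6 + 7824 * A ^ 5 * s ^ 4 * t - 8256 * A ^ 5 * s ^ 2 * t ^ 2 - 2432 * A ^
      5 * t ^ 3 + 36 * A ^ 4 * x ^ 6 * s ^ 2 - 90 * A ^ 4 * x ^ 5 * s ^ 3 + 360 * A ^ 4 * x ^ 4 *
      s ^ 2 * t - 180 * A ^ 4 * x ^ 3 * s ^ 5 - 108 * A ^ 4 * x ^ 3 * s ^ 3 * t - 648 * A ^ 4 * x
      ^ 3 * s * t ^ 2 + 1026 * A ^ 4 * x ^ 2 * s ^ 6 - 2664 * A ^ 4 * x ^ 2 * s ^ 4 * t + 4140 * A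
      ^ 4 * x ^ 2 * s ^ 2 * t ^ 2 - 669 * A ^ 4 * x * s ^ 7 + 1242 * A ^ 4 * x * s ^ 5 * t + 2484
      * A ^ 4 * x * s ^ 3 * t ^ 2 - 9744 * A ^ 4 * x * s * t ^ 3 - 1874 * A ^ 4 * s ^ 8 + 9548 * A
      ^ 4 * s ^ 6 * t - 30360 * A ^ 4 * s ^ 4 * t ^ 2 + 31904 * A ^ 4 * s ^ 2 * t ^ 3 + 6496 * A ^
      4 * t ^ 4 - 108 * A ^ 3 * x ^ 7 * s ^ 3 + 468 * A ^ 3 * x ^ 6 * s ^ 4 - 144 * A ^ 3 * x ^ 6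
      * s ^ 2 * t - 558 * A ^ 3 * x ^ 5 * s ^ 5 - 468 * A ^ 3 * x ^ 5 * s ^ 3 * t - 144 * A ^ 3 *
      x ^ 4 * s ^ 6 + 3096 * A ^ 3 * x ^ 4 * s ^ 4 * t - 1440 * A ^ 3 * x ^ 4 * s ^ 2 * t ^ 2 +
      384 * A ^ 3 * x ^ 3 * s ^ 7 - 3312 * A ^ 3 * x ^ 3 * s ^ 5 * t - 324 * A ^ 3 * x ^ 3 * s ^ 3
      * t ^ 2 + 1632 * A ^ 3 * x ^ 3 * s * t ^ 3 + 702 * A ^ 3 * x ^ 2 * s ^ 8 - 2988 * A ^ 3 * x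
      ^ 2 * s ^ 6 * t + 14652 * A ^ 3 * x ^ 2 * s ^ 4 * t ^ 2 - 13392 * A ^ 3 * x ^ 2 * s ^ 2 * t
      ^ 3 - 1350 * A ^ 3 * x * s ^ 9 + 7386 * A ^ 3 * x * s ^ 7 * t - 17406 * A ^ 3 * x * s ^ 5 *
      t ^ 2 - 2196 * A ^ 3 * x * s ^ 3 * t ^ 3 + 22800 * A ^ 3 * x * s * t ^ 4 + 760 * A ^ 3 * s ^
      10 - 5312 * A ^ 3 * s ^ 8 * t - 7352 * A ^ 3 * s ^ 6 * t ^ 2 + 68576 * A ^ 3 * s ^ 4 * t ^ 3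
      - 83392 * A ^ 3 * s ^ 2 * t ^ 4 - 12160 * A ^ 3 * t ^ 5 - 54 * A ^ 2 * x ^ 9 * s ^ 3 + 432 *
      A ^ 2 * x ^ 8 * s ^ 4 - 1296 * A ^ 2 * x ^ 7 * s ^ 5 - 324 * A ^ 2 * x ^ 7 * s ^ 3 * t +
      1746 * A ^ 2 * x ^ 6 * s ^ 6 + 2340 * A ^ 2 * x ^ 6 * s ^ 4 * t + 504 * A ^ 2 * x ^ 6 * s ^
      2 * t ^ 2 - 747 * A ^ 2 * x ^ 5 * s ^ 7 - 6066 * A ^ 2 * x ^ 5 * s ^ 5 * t - 2124 * A ^ 2 *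
      x ^ 5 * s ^ 3 * t ^ 2 - 666 * A ^ 2 * x ^ 4 * s ^ 8 + 7668 * A ^ 2 * x ^ 4 * s ^ 6 * t +
      2376 * A ^ 2 * x ^ 4 * s ^ 4 * t ^ 2 + 5040 * A ^ 2 * x ^ 4 * s ^ 2 * t ^ 3 + 846 * A ^ 2 *
      x ^ 3 * s ^ 9 - 4734 * A ^ 2 * x ^ 3 * s ^ 7 * t - 3384 * A ^ 2 * x ^ 3 * s ^ 5 * t ^ 2 -
      6228 * A ^ 2 * x ^ 3 * s ^ 3 * t ^ 3 - 3240 * A ^ 2 * x ^ 3 * s * t ^ 4 - 243 * A ^ 2 * x ^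
      2 * s ^ 10 + 990 * A ^ 2 * x ^ 2 * s ^ 8 * t + 10242 * A ^ 2 * x ^ 2 * s ^ 6 * t ^ 2 - 21132
      * A ^ 2 * x ^ 2 * s ^ 4 * t ^ 3 + 35280 * A ^ 2 * x ^ 2 * s ^ 2 * t ^ 4 - 195 * A ^ 2 * x *
      s ^ 11 + 1149 * A ^ 2 * x * s ^ 9 * t - 11115 * A ^ 2 * x * s ^ 7 * t ^ 2 + 21030 * A ^ 2 *
      x * s ^ 5 * t ^ 3 - 14280 * A ^ 2 * x * s ^ 3 * t ^ 4 - 39600 * A ^ 2 * x * s * t ^ 5 + 728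
      * A ^ 2 * s ^ 12 - 5796 * A ^ 2 * s ^ 10 * t + 12660 * A ^ 2 * s ^ 8 * t ^ 2 + 14360 * A ^ 2
      * s ^ 6 * t ^ 3 - 102456 * A ^ 2 * s ^ 4 * t ^ 4 + 138720 * A ^ 2 * s ^ 2 * t ^ 5 + 17600 *
      A ^ 2 * t ^ 6 + 324 * A * x ^ 10 * s ^ 4 - 1890 * A * x ^ 9 * s ^ 5 + 108 * A * x ^ 9 * s ^
      3 * t + 4212 * A * x ^ 8 * s ^ 6 + 2592 * A * x ^ 8 * s ^ 4 * t - 4158 * A * x ^ 7 * s ^ 7 -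
      13716 * A * x ^ 7 * s ^ 5 * t + 540 * A * x ^ 7 * s ^ 3 * t ^ 2 + 1098 * A * x ^ 6 * s ^ 8 +
      24084 * A * x ^ 6 * s ^ 6 * t + 9396 * A * x ^ 6 * s ^ 4 * t ^ 2 - 720 * A * x ^ 6 * s ^ 2 *
      t ^ 3 + 1026 * A * x ^ 5 * s ^ 9 - 16038 * A * x ^ 5 * s ^ 7 * t - 37746 * A * x ^ 5 * s ^ 5
      * t ^ 2 + 2700 * A * x ^ 5 * s ^ 3 * t ^ 3 - 594 * A * x ^ 4 * s ^ 10 - 684 * A * x ^ 4 * s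
      ^ 8 * t + 48924 * A * x ^ 4 * s ^ 6 * t ^ 2 + 11880 * A * x ^ 4 * s ^ 4 * t ^ 3 - 7200 * A *
      x ^ 4 * s ^ 2 * t ^ 4 - 54 * A * x ^ 3 * s ^ 11 + 4806 * A * x ^ 3 * s ^ 9 * t - 23094 * A *
      x ^ 3 * s ^ 7 * t ^ 2 - 32076 * A * x ^ 3 * s ^ 5 * t ^ 3 + 8100 * A * x ^ 3 * s ^ 3 * t ^ 4
      + 3600 * A * x ^ 3 * s * t ^ 5 - 180 * A * x ^ 2 * s ^ 12 + 1008 * A * x ^ 2 * s ^ 10 * t -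
      4716 * A * x ^ 2 * s ^ 8 * t ^ 2 + 22536 * A * x ^ 2 * s ^ 6 * t ^ 3 + 36900 * A * x ^ 2 * s
      ^ 4 * t ^ 4 - 46800 * A * x ^ 2 * s ^ 2 * t ^ 5 + 450 * A * x * s ^ 13 - 4776 * A * x * s ^
      11 * t + 16230 * A * x * s ^ 9 * t ^ 2 - 18096 * A * x * s ^ 7 * t ^ 3 - 36750 * A * x * s ^
      5 * t ^ 4 + 16980 * A * x * s ^ 3 * t ^ 5 + 42000 * A * x * s * t ^ 6 - 356 * A * s ^ 14 +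
      3848 * A * s ^ 12 * t - 10428 * A * s ^ 10 * t ^ 2 - 6944 * A * s ^ 8 * t ^ 3 + 42932 * A *
      s ^ 6 * t ^ 4 + 77712 * A * s ^ 4 * t ^ 5 - 152000 * A * s ^ 2 * t ^ 6 - 16000 * A * t ^ 7 +
      81 * x ^ 12 * s ^ 4 - 486 * x ^ 11 * s ^ 5 + 1134 * x ^ 10 * s ^ 6 + 810 * x ^ 10 * s ^ 4 *
      t - 1242 * x ^ 9 * s ^ 7 - 3834 * x ^ 9 * s ^ 5 * t - 270 * x ^ 9 * s ^ 3 * t ^ 2 + 567 * x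
      ^ 8 * s ^ 8 + 6399 * x ^ 8 * s ^ 6 * t + 4455 * x ^ 8 * s ^ 4 * t ^ 2 - 54 * x ^ 7 * s ^ 9 -
      3726 * x ^ 7 * s ^ 7 * t - 12960 * x ^ 7 * s ^ 5 * t ^ 2 - 2700 * x ^ 7 * s ^ 3 * t ^ 3 +
      225 * x ^ 6 * s ^ 10 - 2034 * x ^ 6 * s ^ 8 * t + 16686 * x ^ 6 * s ^ 6 * t ^ 2 + 8280 * x ^
      6 * s ^ 4 * t ^ 3 + 900 * x ^ 6 * s ^ 2 * t ^ 4 - 513 * x ^ 5 * s ^ 11 + 5049 * x ^ 5 * s ^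
      9 * t - 14661 * x ^ 5 * s ^ 7 * t ^ 2 + 1890 * x ^ 5 * s ^ 5 * t ^ 3 - 14850 * x ^ 5 * s ^ 3
      * t ^ 4 + 423 * x ^ 4 * s ^ 12 - 3762 * x ^ 4 * s ^ 10 * t + 9549 * x ^ 4 * s ^ 8 * t ^ 2 -
      13950 * x ^ 4 * s ^ 6 * t ^ 3 + 14535 * x ^ 4 * s ^ 4 * t ^ 4 + 9000 * x ^ 4 * s ^ 2 * t ^ 5
      - 210 * x ^ 3 * s ^ 13 + 2088 * x ^ 3 * s ^ 11 * t - 7686 * x ^ 3 * s ^ 9 * t ^ 2 + 15036 *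
      x ^ 3 * s ^ 7 * t ^ 3 + 9090 * x ^ 3 * s ^ 5 * t ^ 4 - 25200 * x ^ 3 * s ^ 3 * t ^ 5 - 3000
      * x ^ 3 * s * t ^ 6 + 90 * x ^ 2 * s ^ 14 - 1026 * x ^ 2 * s ^ 12 * t + 2646 * x ^ 2 * s ^
      10 * t ^ 2 + 9054 * x ^ 2 * s ^ 8 * t ^ 3 - 47250 * x ^ 2 * s ^ 6 * t ^ 4 + 13230 * x ^ 2 *
      s ^ 4 * t ^ 5 + 49500 * x ^ 2 * s ^ 2 * t ^ 6 - 60 * x * s ^ 15 + 762 * x * s ^ 13 * t -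
      2070 * x * s ^ 11 * t ^ 2 - 4326 * x * s ^ 9 * t ^ 3 + 10770 * x * s ^ 7 * t ^ 4 + 23130 * x
      * s ^ 5 * t ^ 5 - 24450 * x * s ^ 3 * t ^ 6 - 30000 * x * s * t ^ 7 + 61 * s ^ 16 - 1121 * s
      ^ 14 * t + 8290 * s ^ 12 * t ^ 2 - 33773 * s ^ 10 * t ^ 3 + 78346 * s ^ 8 * t ^ 4 - 59465 *
      s ^ 6 * t ^ 5 - 58655 * s ^ 4 * t ^ 6 + 76000 * s ^ 2 * t ^ 7 + 10000 * t ^ 8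
    ) * h3 +
    (
      -32 * A ^ 8 * x + 16 * A ^ 8 * s - 192 * A ^ 7 * x ^ 2 * s + 272 * A ^ 7 * x * s ^ 2 + 256 *
      A ^ 7 * x * t - 96 * A ^ 7 * s ^ 3 - 96 * A ^ 7 * s * t - 456 * A ^ 6 * x ^ 3 * s ^ 2 + 420
      * A ^ 6 * x ^ 2 * s ^ 3 + 1632 * A ^ 6 * x ^ 2 * s * t + 1346 * A ^ 6 * x * s ^ 4 - 3088 * A
      ^ 6 * x * s ^ 2 * t - 1408 * A ^ 6 * x * t ^ 2 - 696 * A ^ 6 * s ^ 5 + 1104 * A ^ 6 * s ^ 3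
      * t + 432 * A ^ 6 * s * t ^ 2 - 1572 * A ^ 5 * x ^ 3 * s ^ 4 + 3840 * A ^ 5 * x ^ 3 * s ^ 2
      * t + 4788 * A ^ 5 * x ^ 2 * s ^ 5 - 5256 * A ^ 5 * x ^ 2 * s ^ 3 * t - 8064 * A ^ 5 * x ^ 2
      * s * t ^ 2 + 962 * A ^ 5 * x * s ^ 6 - 11280 * A ^ 5 * x * s ^ 4 * t + 19008 * A ^ 5 * x *
      s ^ 2 * t ^ 2 + 4864 * A ^ 5 * x * t ^ 3 - 1132 * A ^ 5 * s ^ 7 + 4608 * A ^ 5 * s ^ 5 * t -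
      5952 * A ^ 5 * s ^ 3 * t ^ 2 - 1088 * A ^ 5 * s * t ^ 3 - 300 * A ^ 4 * x ^ 3 * s ^ 6 + 8556
      * A ^ 4 * x ^ 3 * s ^ 4 * t - 18408 * A ^ 4 * x ^ 3 * s ^ 2 * t ^ 2 + 8058 * A ^ 4 * x ^ 2 *
      s ^ 7 - 32328 * A ^ 4 * x ^ 2 * s ^ 5 * t + 35676 * A ^ 4 * x ^ 2 * s ^ 3 * t ^ 2 + 26016 *
      A ^ 4 * x ^ 2 * s * t ^ 3 - 1451 * A ^ 4 * x * s ^ 8 - 5668 * A ^ 4 * x * s ^ 6 * t + 42522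
      * A ^ 4 * x * s ^ 4 * t ^ 2 - 66880 * A ^ 4 * x * s ^ 2 * t ^ 3 - 12992 * A ^ 4 * x * t ^ 4
      - 306 * A ^ 4 * s ^ 9 + 2652 * A ^ 4 * s ^ 7 * t - 10848 * A ^ 4 * s ^ 5 * t ^ 2 + 14496 * A
      ^ 4 * s ^ 3 * t ^ 3 + 2160 * A ^ 4 * s * t ^ 4 + 3606 * A ^ 3 * x ^ 3 * s ^ 8 - 7704 * A ^ 3
      * x ^ 3 * s ^ 6 * t - 13608 * A ^ 3 * x ^ 3 * s ^ 4 * t ^ 2 + 53184 * A ^ 3 * x ^ 3 * s ^ 2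
      * t ^ 3 + 1710 * A ^ 3 * x ^ 2 * s ^ 9 - 19740 * A ^ 3 * x ^ 2 * s ^ 7 * t + 80280 * A ^ 3 *
      x ^ 2 * s ^ 5 * t ^ 2 - 84528 * A ^ 3 * x ^ 2 * s ^ 3 * t ^ 3 - 58560 * A ^ 3 * x ^ 2 * s *
      t ^ 4 - 326 * A ^ 3 * x * s ^ 10 - 5294 * A ^ 3 * x * s ^ 8 * t + 44116 * A ^ 3 * x * s ^ 6
      * t ^ 2 - 153808 * A ^ 3 * x * s ^ 4 * t ^ 3 + 166160 * A ^ 3 * x * s ^ 2 * t ^ 4 + 24320 *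
      A ^ 3 * x * t ^ 5 + 240 * A ^ 3 * s ^ 11 - 960 * A ^ 3 * s ^ 9 * t - 3684 * A ^ 3 * s ^ 7 *
      t ^ 2 + 23520 * A ^ 3 * s ^ 5 * t ^ 3 - 23520 * A ^ 3 * s ^ 3 * t ^ 4 - 2400 * A ^ 3 * s * t
      ^ 5 + 2298 * A ^ 2 * x ^ 3 * s ^ 10 - 10650 * A ^ 2 * x ^ 3 * s ^ 8 * t + 14328 * A ^ 2 * x
      ^ 3 * s ^ 6 * t ^ 2 + 56472 * A ^ 2 * x ^ 3 * s ^ 4 * t ^ 3 - 107160 * A ^ 2 * x ^ 3 * s ^ 2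
      * t ^ 4 - 1806 * A ^ 2 * x ^ 2 * s ^ 11 + 3624 * A ^ 2 * x ^ 2 * s ^ 9 * t + 42444 * A ^ 2 *
      x ^ 2 * s ^ 7 * t ^ 2 - 192576 * A ^ 2 * x ^ 2 * s ^ 5 * t ^ 3 + 137820 * A ^ 2 * x ^ 2 * s
      ^ 3 * t ^ 4 + 93600 * A ^ 2 * x ^ 2 * s * t ^ 5 + 944 * A ^ 2 * x * s ^ 12 - 7860 * A ^ 2 *
      x * s ^ 10 * t + 32394 * A ^ 2 * x * s ^ 8 * t ^ 2 - 125512 * A ^ 2 * x * s ^ 6 * t ^ 3 +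
      319350 * A ^ 2 * x * s ^ 4 * t ^ 4 - 258960 * A ^ 2 * x * s ^ 2 * t ^ 5 - 35200 * A ^ 2 * x
      * t ^ 6 - 58 * A ^ 2 * s ^ 13 + 786 * A ^ 2 * s ^ 11 * t - 4470 * A ^ 2 * s ^ 9 * t ^ 2 +
      15428 * A ^ 2 * s ^ 7 * t ^ 3 - 24456 * A ^ 2 * s ^ 5 * t ^ 4 + 13200 * A ^ 2 * s ^ 3 * t ^
      5 + 2000 * A ^ 2 * s * t ^ 6 - 702 * A * x ^ 3 * s ^ 12 + 5670 * A * x ^ 3 * s ^ 10 * t -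
      11178 * A * x ^ 3 * s ^ 8 * t ^ 2 + 31320 * A * x ^ 3 * s ^ 6 * t ^ 3 - 118260 * A * x ^ 3 *
      s ^ 4 * t ^ 4 + 129600 * A * x ^ 3 * s ^ 2 * t ^ 5 + 834 * A * x ^ 2 * s ^ 13 - 10482 * A *
      x ^ 2 * s ^ 11 * t + 52014 * A * x ^ 2 * s ^ 9 * t ^ 2 - 157932 * A * x ^ 2 * s ^ 7 * t ^ 3
      + 216276 * A * x ^ 2 * s ^ 5 * t ^ 4 - 41160 * A * x ^ 2 * s ^ 3 * t ^ 5 - 96000 * A * x ^ 2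
      * s * t ^ 6 - 356 * A * x * s ^ 14 + 4184 * A * x * s ^ 12 * t - 11814 * A * x * s ^ 10 * t
      ^ 2 - 31226 * A * x * s ^ 8 * t ^ 3 + 260330 * A * x * s ^ 6 * t ^ 4 - 492384 * A * x * s ^
      4 * t ^ 5 + 272800 * A * x * s ^ 2 * t ^ 6 + 32000 * A * x * t ^ 7 + 90 * x ^ 3 * s ^ 14 -
      1296 * x ^ 3 * s ^ 12 * t + 5724 * x ^ 3 * s ^ 10 * t ^ 2 - 234 * x ^ 3 * s ^ 8 * t ^ 3 -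
      65772 * x ^ 3 * s ^ 6 * t ^ 4 + 151740 * x ^ 3 * s ^ 4 * t ^ 5 - 99000 * x ^ 3 * s ^ 2 * t ^
      6 - 60 * x ^ 2 * s ^ 15 + 942 * x ^ 2 * s ^ 13 * t - 4356 * x ^ 2 * s ^ 11 * t ^ 2 + 2784 *
      x ^ 2 * s ^ 9 * t ^ 3 + 16818 * x ^ 2 * s ^ 7 * t ^ 4 - 8280 * x ^ 2 * s ^ 5 * t ^ 5 - 59100
      * x ^ 2 * s ^ 3 * t ^ 6 + 60000 * x ^ 2 * s * t ^ 7 + 61 * x * s ^ 16 - 1304 * x * s ^ 14 *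
      t + 11653 * x * s ^ 12 * t ^ 2 - 59558 * x * s ^ 10 * t ^ 3 + 191905 * x * s ^ 8 * t ^ 4 -
      362228 * x * s ^ 6 * t ^ 5 + 348910 * x * s ^ 4 * t ^ 6 - 116000 * x * s ^ 2 * t ^ 7 - 20000
      * x * t ^ 8
    ) * hQ

end Fermat.Agent.S51.Modular
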