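import Mathlib

/-!
# S51: from the rational points of the quartic model of `X₀(15)` to the four `j`-values
-/

set_option autoImplicit false

namespace Fermat.Agent.S51.Points

/-- A point of the `(ξ, κ)`-model gives a point of the quartic model. -/
theorem quartic_of_curve (ξ κ : ℚ) (hc : ξ ^ 2 * κ - ξ * κ ^ 2 - 5 * ξ * κ - 9 * ξ - κ = 0) :
    (2 * ξ * κ - (ξ ^ 2 - 5 * ξ - 1)) ^ 2 = ξ ^ 4 - 10 * ξ ^ 3 - 13 * ξ ^ 2 + 10 * ξ + 1 := by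
  linear_combination (-4 * ξ) * hc

/-- The non-cuspidal rational points of the `(ξ, κ)`-model. -/
theorem curve_points
    (HQ : ∀ x y : ℚ, y ^ 2 = x ^ 4 - 10 * x ^ 3 - 13 * x ^ 2 + 10 * x + 1 →
      x = 0 ∨ x = -2 ∨ x = 1 / 2)
    (ξ κ : ℚ) (hξ : ξ ≠ 0)
    (hc : ξ ^ 2 * κ - ξ * κ ^ 2 - 5 * ξ * κ - 9 * ξ - κ = 0) :
    (ξ = -2 ∨ ξ = 1 / 2) ∧ (κ = -9 / 2 ∨ κ = -2) := by
  have hq := quartic_of_curve ξ κ hc
  have hκ : (2 * κ + 9) * (κ + 2) = 0 → (κ = -9 / 2 ∨ κ = -2) := by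
    intro h
    rcases mul_eq_zero.mp h with h | h
    · left; linarith
    · right; linarith
  rcases HQ ξ _ hq with h | h | h
  · exact absurd h hξ
  · refine ⟨Or.inl h, hκ ?_⟩
    subst h
    linear_combination hc
  · refine ⟨Or.inr h, hκ ?_⟩
    subst h
    linear_combination (-4) * hc

/-- The four `j`-invariants. -/
theorem j_values
    (HQ : ∀ x y : ℚ, y ^ 2 = x ^ 4 - 10 * x ^ 3 - 13 * x ^ 2 + 10 * x + 1 →
      x = 0 ∨ x = -2 ∨ x = 1 / 2)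
    (ξ κ j : ℚ) (hξ : ξ ≠ 0)
    (hc : ξ ^ 2 * κ - ξ * κ ^ 2 - 5 * ξ * κ - 9 * ξ - κ = 0)
    (hj : j = (729 * ξ ^ 2 / κ ^ 3 + 27) * (729 * ξ ^ 2 / κ ^ 3 + 3) ^ 3 / (729 * ξ ^ 2 / κ ^ 3)) :
    j = -25 / 2 ∨ j = -349938025 / 8 ∨ j = -121945 / 32 ∨ j = 46969655 / 32768 := by
  obtain ⟨h1, h2⟩ := curve_points HQ ξ κ hξ hc
  rcases h1 with rfl | rfl <;> rcases h2 with rfl | rfl
  · right; right; left; rw [hj]; norm_num
  · right; left; rw [hj]; norm_num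
  · left; rw [hj]; norm_num
  · right; right; right; rw [hj]; norm_num

end Fermat.Agent.S51.Points
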