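import Mathlib

set_option autoImplicit false

/-!
# Two models of `X₀(15)`: transfer of the lists of rational points

The quartic model `y² = x⁴ - 10x³ - 13x² + 10x + 1` and the cubic model `Y² = Z(Z+9)(Z-16)`
are related by `t = y - x² + 5x`, `Z = -2t - 2`, `Y = 4(19+t)x - 10(t+1)`.
Each list of rational points implies the other one.
-/

namespace Fermat.Agent.S51.QuarticOfCubic

/-- Transfer of the list of rational points from the cubic model `Y² = Z(Z+9)(Z-16)` of `X₀(15)`
to the quartic model `y² = x⁴ - 10x³ - 13x² + 10x + 1`. -/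
theorem quartic_points_of_cubic
    (hcubic : ∀ Z Y : ℚ, Y ^ 2 = Z * (Z + 9) * (Z - 16) →
      Z = 0 ∨ Z = -9 ∨ Z = 16 ∨ Z = 36 ∨ Z = -4)
    (x y : ℚ) (h : y ^ 2 = x ^ 4 - 10 * x ^ 3 - 13 * x ^ 2 + 10 * x + 1) :
    x = 0 ∨ x = -2 ∨ x = 1 / 2 := by
  -- `t = y - x² + 5x`, `Z = -2t - 2`, `Y = 4(19+t)x - 10(t+1)`
  set t : ℚ := y - x ^ 2 + 5 * x with ht
  have hquad : (38 + 2 * t) * x ^ 2 - (10 * t + 10) * x + (t ^ 2 - 1) = 0 := by
    rw [ht]; linear_combination h
  have hY : (4 * (19 + t) * x - 10 * (t + 1)) ^ 2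
      = (-2 * t - 2) * ((-2 * t - 2) + 9) * ((-2 * t - 2) - 16) := by
    linear_combination (4 * (38 + 2 * t)) * hquad
  rcases hcubic _ _ hY with hZ | hZ | hZ | hZ | hZ
  · -- t = -1
    have ht1 : t = -1 := by linarith
    rw [ht1] at hquad
    left
    have : x ^ 2 = 0 := by linarith
    exact pow_eq_zero_iff (two_ne_zero) |>.mp this
  · -- t = 7/2
    have ht1 : t = 7 / 2 := by linarith
    rw [ht1] at hquad
    right; right
    have : (x - 1 / 2) ^ 2 = 0 := by linarith
    have := pow_eq_zero_iff (two_ne_zero) |>.mp this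
    linarith
  · -- t = -9
    have ht1 : t = -9 := by linarith
    rw [ht1] at hquad
    right; left
    have : (x + 2) ^ 2 = 0 := by linarith
    have := pow_eq_zero_iff (two_ne_zero) |>.mp this
    linarith
  · -- t = -19
    have ht1 : t = -19 := by linarith
    rw [ht1] at hquad
    right; left
    linarith
  · -- t = 1
    have ht1 : t = 1 := by linarith
    rw [ht1] at hquad
    have : x * (x - 1 / 2) = 0 := by linarith
    rcases mul_eq_zero.mp this with h0 | h0
    · left; exact h0
    · right; right; linarith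


/-- Transfer in the other direction: the list of rational points of the quartic model gives the
list of (affine) rational points of the cubic model. -/
theorem cubic_points_of_quartic
    (hquartic : ∀ x y : ℚ, y ^ 2 = x ^ 4 - 10 * x ^ 3 - 13 * x ^ 2 + 10 * x + 1 →
      x = 0 ∨ x = -2 ∨ x = 1 / 2)
    (Z Y : ℚ) (h : Y ^ 2 = Z * (Z + 9) * (Z - 16)) :
    Z = 0 ∨ Z = -9 ∨ Z = 16 ∨ Z = 36 ∨ Z = -4 := by
  by_cases hZ : Z = 36
  · right; right; right; left; exact hZ
  set t : ℚ := -(Z + 2) / 2 with ht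
  have hZt : Z = -2 * t - 2 := by rw [ht]; ring
  have h19 : 19 + t ≠ 0 := by
    intro h0
    apply hZ
    rw [hZt]; linarith
  set x : ℚ := (Y + 10 * (t + 1)) / (4 * (19 + t)) with hx
  have hxY : Y = 4 * (19 + t) * x - 10 * (t + 1) := by
    rw [hx]; field_simp; ring
  have hquad : (38 + 2 * t) * x ^ 2 - (10 * t + 10) * x + (t ^ 2 - 1) = 0 := by
    have h1 : (4 * (19 + t) * x - 10 * (t + 1)) ^ 2
        = (-2 * t - 2) * ((-2 * t - 2) + 9) * ((-2 * t - 2) - 16) := by
      rw [← hxY, ← hZt]; exact h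
    have h2 : (8 * (19 + t)) * ((38 + 2 * t) * x ^ 2 - (10 * t + 10) * x + (t ^ 2 - 1)) = 0 := by
      linear_combination h1
    rcases mul_eq_zero.mp h2 with h3 | h3
    · exfalso; apply h19; linarith
    · exact h3
  have hy : (t + x ^ 2 - 5 * x) ^ 2 = x ^ 4 - 10 * x ^ 3 - 13 * x ^ 2 + 10 * x + 1 := by
    linear_combination hquad
  rcases hquartic x _ hy with hx0 | hx0 | hx0
  · rw [hx0] at hquad
    have : (t - 1) * (t + 1) = 0 := by linarith
    rcases mul_eq_zero.mp this with h0 | h0
    · right; right; right; right; rw [hZt]; linarith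
    · left; rw [hZt]; linarith
  · rw [hx0] at hquad
    have : (t + 9) * (t + 19) = 0 := by linarith
    rcases mul_eq_zero.mp this with h0 | h0
    · right; right; left; rw [hZt]; linarith
    · exfalso; exact h19 (by linarith)
  · rw [hx0] at hquad
    have : (t - 1) * (t - 7 / 2) = 0 := by linarith
    rcases mul_eq_zero.mp this with h0 | h0
    · right; right; right; right; rw [hZt]; linarith
    · right; left; rw [hZt]; linarith

end Fermat.Agent.S51.QuarticOfCubic
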