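import Fermat.Agent.S51.Concordant
import Fermat.Agent.S51.Transfer15
import Fermat.Agent.S51.QuarticTransfer

/-!
# S51: the rational points of `X₀(15)` (rank `0`)

Assembles the Fermat descent (`Concordant.no_concordant`), the `2`-isogeny transfer
(`Transfer15`) and the birational map to the quartic model (`QuarticTransfer`).
-/

set_option autoImplicit false

namespace Fermat.Agent.S51.Rank0

/-- The rational points of `y² = x (x + 9) (x - 16)` (Cremona `15a1`). -/
theorem weierstrass_points (x y : ℚ) (h : y ^ 2 = x * (x + 9) * (x - 16)) :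
    x = 0 ∨ x = -9 ∨ x = 16 ∨ x = 36 ∨ x = -4 :=
  Transfer15.weierstrass_points Concordant.no_concordant x y h

/-- The rational points of `y² = x (x - 1) (x - 81)` (Cremona `15a2`) are the `2`-torsion. -/
theorem Eprime_points (x y : ℚ) (h : y ^ 2 = x * (x - 1) * (x - 81)) : y = 0 :=
  Transfer15.Eprime_points Concordant.no_concordant x y h

/-- The rational points of the quartic model of `X₀(15)`. -/
theorem quartic_points (x y : ℚ)
    (h : y ^ 2 = x ^ 4 - 10 * x ^ 3 - 13 * x ^ 2 + 10 * x + 1) :
    x = 0 ∨ x = -2 ∨ x = 1 / 2 :=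
  QuarticTransfer.quartic_points_of_weierstrass weierstrass_points x y h

end Fermat.Agent.S51.Rank0
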