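import Mathlib
import Fermat.Prelude.Def_FLTPrelim_GaloisRep

/-!
# S51: the reduced `x`-coordinate on a general Weierstrass curve

For a Weierstrass curve `E` over a field `K` of characteristic zero, the reduced coordinate
`X(P) = x(P) + b₂/12` is the `x`-coordinate on the short model `Y² = X³ + A X + B` with
`A = -c₄/48`, `B = -c₆/864`.  We prove the duplication formula
`X(2P) · 4 f(X(P)) = Nd(X(P))` where `f = X³ + A X + B` and `Nd = X⁴ - 2 A X² - 8 B X + A²`,
the criterion `2P = 0 ↔ f(X(P)) = 0`, and `X(P) = X(Q) → P = ± Q`, directly on the general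
model (no change of variables on points).
-/

set_option autoImplicit false

noncomputable section

namespace Fermat.Agent.S51.RedCoord

open WeierstrassCurve WeierstrassCurve.Affine

variable {K : Type*} [Field K] (E : WeierstrassCurve K)

/-- Short Weierstrass coefficient `A = -c₄/48`. -/
def cA : K := -E.c₄ / 48

/-- Short Weierstrass coefficient `B = -c₆/864`. -/
def cB : K := -E.c₆ / 864

/-- The cubic `f(X) = X³ + A X + B`. -/
def fR (X : K) : K := X ^ 3 + cA E * X + cB E

/-- The numerator `Nd(X) = X⁴ - 2 A X² - 8 B X + A²` of the duplication map. -/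
def NdR (X : K) : K := X ^ 4 - 2 * cA E * X ^ 2 - 8 * cB E * X + cA E ^ 2

variable [CharZero K]

theorem disc_eq : 4 * cA E ^ 3 + 27 * cB E ^ 2 = -E.Δ / 16 := by
  have h := E.c_relation
  simp only [cA, cB]
  linear_combination (1 / 27648 : K) * h

/-- `(2y + a₁x + a₃)² = 4 f(x + b₂/12)` on the curve. -/
theorem eta_sq {x y : K} (h : E.toAffine.Equation x y) :
    (2 * y + E.a₁ * x + E.a₃) ^ 2 = 4 * fR E (x + E.b₂ / 12) := by
  rw [Affine.equation_iff] at h
  change y ^ 2 + E.a₁ * x * y + E.a₃ * y = x ^ 3 + E.a₂ * x ^ 2 + E.a₄ * x + E.a₆ at h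
  simp only [fR, cA, cB, c₄, c₆, b₂, b₄, b₆]
  linear_combination 4 * h

theorem dup_key {x y : K} (h : E.toAffine.Equation x y) :
    (3 * x ^ 2 + 2 * E.a₂ * x + E.a₄ - E.a₁ * y) ^ 2 +
      E.a₁ * (3 * x ^ 2 + 2 * E.a₂ * x + E.a₄ - E.a₁ * y) * (2 * y + E.a₁ * x + E.a₃)
      - (E.a₂ + 2 * x - E.b₂ / 12) * (2 * y + E.a₁ * x + E.a₃) ^ 2 =
      NdR E (x + E.b₂ / 12) := by
  rw [Affine.equation_iff] at h
  change y ^ 2 + E.a₁ * x * y + E.a₃ * y = x ^ 3 + E.a₂ * x ^ 2 + E.a₄ * x + E.a₆ at h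
  simp only [NdR, cA, cB, c₄, c₆, b₂, b₄, b₆]
  linear_combination (-(2 * E.a₁ ^ 2 / 3 + 8 * E.a₂ / 3 + 8 * x)) * h

/-- The reduced `x`-coordinate of a point (junk value `0` at the origin). -/
def Xr : E.toAffine.Point → K
  | .zero => 0
  | .some x _ _ => x + E.b₂ / 12

omit [CharZero K] in
@[simp] theorem Xr_some {x y : K} (h : E.toAffine.Nonsingular x y) :
    Xr E (Point.some x y h) = x + E.b₂ / 12 := rfl

omit [CharZero K] in
theorem Xr_neg (P : E.toAffine.Point) : Xr E (-P) = Xr E P := by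
  cases P with
  | zero => rfl
  | some x y h => rfl

variable [DecidableEq K]

omit [CharZero K] [DecidableEq K] in
/-- Two nonzero points with the same reduced coordinate are equal or opposite. -/
theorem eq_or_eq_neg_of_Xr_eq {P Q : E.toAffine.Point} (hP : P ≠ 0) (hQ : Q ≠ 0)
    (h : Xr E P = Xr E Q) : P = Q ∨ P = -Q := by
  cases P with
  | zero => exact absurd rfl hP
  | some x₁ y₁ h₁ =>
    cases Q with
    | zero => exact absurd rfl hQ
    | some x₂ y₂ h₂ =>
      have hx : x₁ = x₂ := by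
        simp only [Xr_some] at h
        exact add_right_cancel h
      exact Point.X_eq_iff.mp hx

/-- `2 • P = 0` iff `f(X(P)) = 0`, for an affine point `P`. -/
theorem two_nsmul_eq_zero_iff {x y : K} (h : E.toAffine.Nonsingular x y) :
    (2 : ℕ) • (Point.some x y h : E.toAffine.Point) = 0 ↔ fR E (x + E.b₂ / 12) = 0 := by
  rw [two_nsmul]
  have h4 := eta_sq E h.1
  constructor
  · intro h0
    by_cases hy : y = E.toAffine.negY x y
    · have : 2 * y + E.a₁ * x + E.a₃ = 0 := by
        simp only [Affine.negY] at hy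
        linear_combination hy
      rw [this] at h4
      have : (4 : K) * fR E (x + E.b₂ / 12) = 0 := by rw [← h4]; ring
      exact (mul_eq_zero.mp this).resolve_left (by norm_num)
    · rw [Point.add_self_of_Y_ne hy] at h0
      exact absurd h0 (Point.some_ne_zero _)
  · intro h0
    rw [h0, mul_zero] at h4
    have h5 : 2 * y + E.a₁ * x + E.a₃ = 0 := by
      exact pow_eq_zero_iff (two_ne_zero) |>.mp h4
    apply Point.add_self_of_Y_eq
    simp only [Affine.negY]
    linear_combination h5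

/-- Duplication formula in the reduced coordinate. -/
theorem Xr_two_nsmul {x y : K} (h : E.toAffine.Nonsingular x y)
    (hf : fR E (x + E.b₂ / 12) ≠ 0) :
    Xr E ((2 : ℕ) • (Point.some x y h : E.toAffine.Point)) * (4 * fR E (x + E.b₂ / 12)) =
      NdR E (x + E.b₂ / 12) := by
  have h4 := eta_sq E h.1
  have hη : 2 * y + E.a₁ * x + E.a₃ ≠ 0 := by
    intro h0
    rw [h0] at h4
    have : (4 : K) * fR E (x + E.b₂ / 12) = 0 := by rw [← h4]; ring
    exact hf ((mul_eq_zero.mp this).resolve_left (by norm_num))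
  have hy : y ≠ E.toAffine.negY x y := by
    intro hy
    apply hη
    simp only [Affine.negY] at hy
    linear_combination hy
  rw [two_nsmul, Point.add_self_of_Y_ne hy, Xr_some, ← h4, ← dup_key E h.1,
    Affine.slope_of_Y_ne rfl hy]
  have hden : y - E.toAffine.negY x y = 2 * y + E.a₁ * x + E.a₃ := by
    simp only [Affine.negY]; ring
  rw [hden]
  show (((3 * x ^ 2 + 2 * E.a₂ * x + E.a₄ - E.a₁ * y) / (2 * y + E.a₁ * x + E.a₃)) ^ 2 +
      E.a₁ * ((3 * x ^ 2 + 2 * E.a₂ * x + E.a₄ - E.a₁ * y) / (2 * y + E.a₁ * x + E.a₃)) -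
      E.a₂ - x - x + E.b₂ / 12) * (2 * y + E.a₁ * x + E.a₃) ^ 2 = _
  generalize 2 * y + E.a₁ * x + E.a₃ = η at hη
  generalize 3 * x ^ 2 + 2 * E.a₂ * x + E.a₄ - E.a₁ * y = ν
  field_simp
  ring

/-- `2 • P = 0` iff `f(X(P)) = 0`, for a nonzero point `P`. -/
theorem two_nsmul_eq_zero_iff' {P : E.toAffine.Point} (hP : P ≠ 0) :
    (2 : ℕ) • P = 0 ↔ fR E (Xr E P) = 0 := by
  cases P with
  | zero => exact absurd rfl hP
  | some x y h => exact two_nsmul_eq_zero_iff E h

/-- Duplication formula in the reduced coordinate, for a point `P` with `2 • P ≠ 0`. -/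
theorem Xr_two_nsmul' {P : E.toAffine.Point} (h2 : (2 : ℕ) • P ≠ 0) :
    Xr E ((2 : ℕ) • P) * (4 * fR E (Xr E P)) = NdR E (Xr E P) := by
  cases P with
  | zero => exact absurd (smul_zero _) h2
  | some x y h =>
    exact Xr_two_nsmul E h fun hf => h2 ((two_nsmul_eq_zero_iff E h).mpr hf)

theorem fR_Xr_ne_zero {P : E.toAffine.Point} (hP : P ≠ 0) (h2 : (2 : ℕ) • P ≠ 0) :
    fR E (Xr E P) ≠ 0 := fun h => h2 ((two_nsmul_eq_zero_iff' E hP).mpr h)

omit [DecidableEq K] in
/-- Converse of `eta_sq`: the curve equation follows from `(2y + a₁x + a₃)² = 4 f(x + b₂/12)`. -/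
theorem equation_of_eta_sq {x y : K}
    (h : (2 * y + E.a₁ * x + E.a₃) ^ 2 = 4 * fR E (x + E.b₂ / 12)) :
    E.toAffine.Equation x y := by
  rw [Affine.equation_iff]
  show y ^ 2 + E.a₁ * x * y + E.a₃ * y = x ^ 3 + E.a₂ * x ^ 2 + E.a₄ * x + E.a₆
  simp only [fR, cA, cB, c₄, c₆, b₂, b₄, b₆] at h
  linear_combination (1 / 4 : K) * h

/-- Over an algebraically closed field, every element is the reduced coordinate of a nonzero
point (if the curve is nonsingular). -/
theorem exists_point_Xr_eq [IsAlgClosed K] (hΔ : E.Δ ≠ 0) (X : K) :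
    ∃ P : E.toAffine.Point, P ≠ 0 ∧ Xr E P = X := by
  obtain ⟨η, hη⟩ := IsAlgClosed.exists_pow_nat_eq (4 * fR E X) (n := 2) (by norm_num)
  set x : K := X - E.b₂ / 12 with hx
  set y : K := (η - E.a₁ * x - E.a₃) / 2 with hy
  have hX : x + E.b₂ / 12 = X := by rw [hx]; ring
  have heq : E.toAffine.Equation x y := by
    apply equation_of_eta_sq
    rw [hX, ← hη, hy]
    ring
  have hns : E.toAffine.Nonsingular x y :=
    (E.toAffine.equation_iff_nonsingular_of_Δ_ne_zero hΔ).mp heq
  exact ⟨Point.some x y hns, Point.some_ne_zero _, by rw [Xr_some, hX]⟩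

section Galois

open WeierstrassCurve.Affine.Point

universe r s v

variable {R : Type r} {S : Type s} {F : Type v} [CommRing R] [CommRing S] [Field F]
  [DecidableEq F] {W' : Affine R} [Algebra R S] [Algebra R F] [Algebra S F]
  [IsScalarTower R S F]

/-- The reduced coordinate is Galois-equivariant. -/
theorem Xr_smul (σ : F ≃ₐ[S] F) (P : (W'⁄F).Point) :
    Xr (W'⁄F) (σ • P) = σ (Xr (W'⁄F) P) := by
  cases P with
  | zero =>
    show (0 : F) = σ 0
    rw [_root_.map_zero]
  | some x y h =>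
    show σ x + (W'⁄F).b₂ / 12 = σ (x + (W'⁄F).b₂ / 12)
    have hb : σ ((W'⁄F).b₂) = (W'⁄F).b₂ := by
      have : (W'⁄F).b₂ = algebraMap R F W'.b₂ := WeierstrassCurve.map_b₂ _ _
      rw [this, IsScalarTower.algebraMap_apply R S F]
      exact σ.commutes _
    rw [map_add, map_div₀, hb, map_ofNat]

end Galois

end Fermat.Agent.S51.RedCoord
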