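import Fermat.Agent.S51.Defs

/-!
# S51: the arithmetic of a semistable model at the prime `5`

For a semistable integral model `W` with `Δ ≠ 0`: `c₄ ≠ 0`, the reduced discriminant
`4A³ + 27B² = -Δ/16` is non-zero, `6912 A³/(4A³+27B²) = c₄³/Δ`, and the `j`-invariant cannot be
one of the four non-cuspidal rational values on `X₀(15)`.
-/

set_option autoImplicit false

open WeierstrassCurve

namespace Fermat.Agent.S51

theorem redDisc_eq (W : WeierstrassCurve ℤ) :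
    4 * redA W ^ 3 + 27 * redB W ^ 2 = -(W.Δ : ℚ) / 16 := by
  have h : (1728 : ℚ) * (W.Δ : ℚ) = (W.c₄ : ℚ) ^ 3 - (W.c₆ : ℚ) ^ 2 := by
    exact_mod_cast W.c_relation
  unfold redA redB
  linear_combination (1 / 27648 : ℚ) * h

theorem redDisc_ne_zero (W : WeierstrassCurve ℤ) (hΔ : W.Δ ≠ 0) :
    4 * redA W ^ 3 + 27 * redB W ^ 2 ≠ 0 := by
  rw [redDisc_eq]
  have : (W.Δ : ℚ) ≠ 0 := by exact_mod_cast hΔ
  exact div_ne_zero (neg_ne_zero.mpr this) (by norm_num)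

theorem redJ_eq (W : WeierstrassCurve ℤ) (hΔ : W.Δ ≠ 0) :
    6912 * redA W ^ 3 / (4 * redA W ^ 3 + 27 * redB W ^ 2) = (W.c₄ : ℚ) ^ 3 / (W.Δ : ℚ) := by
  have hΔ' : (W.Δ : ℚ) ≠ 0 := by exact_mod_cast hΔ
  rw [redDisc_eq, div_eq_div_iff (div_ne_zero (neg_ne_zero.mpr hΔ') (by norm_num)) hΔ']
  unfold redA
  ring

theorem c₄_ne_zero_of_semistable (W : WeierstrassCurve ℤ) (hΔ : W.Δ ≠ 0)
    (hW : W.IsSemistableModel) : W.c₄ ≠ 0 := by
  intro h4
  -- no prime divides `Δ`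
  have hnat : W.Δ.natAbs = 1 := by
    by_contra hne
    obtain ⟨p, hp, hpd⟩ := Nat.exists_prime_and_dvd hne
    have hpΔ : (p : ℤ) ∣ W.Δ := Int.natCast_dvd.mpr hpd
    exact hW p hp hpΔ (h4 ▸ dvd_zero _)
  have hrel : 1728 * W.Δ = W.c₄ ^ 3 - W.c₆ ^ 2 := W.c_relation
  rw [h4] at hrel
  rcases Int.natAbs_eq W.Δ with h | h <;> rw [hnat] at h
  · -- `Δ = 1`: `c₆² = -1728`
    rw [h] at hrel
    push_cast at hrel
    nlinarith [sq_nonneg W.c₆]
  · -- `Δ = -1`: `c₆² = 1728`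
    rw [h] at hrel
    push_cast at hrel
    have h6 : W.c₆ ^ 2 = 1728 := by linarith
    have hb1 : W.c₆ ≤ 41 ∨ 42 ≤ W.c₆ := by omega
    have hb2 : -41 ≤ W.c₆ ∨ W.c₆ ≤ -42 := by omega
    rcases hb1 with hb1 | hb1 <;> rcases hb2 with hb2 | hb2 <;> nlinarith

theorem redA_ne_zero (W : WeierstrassCurve ℤ) (hΔ : W.Δ ≠ 0) (hW : W.IsSemistableModel) :
    redA W ≠ 0 := by
  have h4 : (W.c₄ : ℚ) ≠ 0 := by exact_mod_cast c₄_ne_zero_of_semistable W hΔ hW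
  unfold redA
  exact div_ne_zero (neg_ne_zero.mpr h4) (by norm_num)

/-- The local obstruction at `5`. -/
theorem semistable_five_aux (W : WeierstrassCurve ℤ) (hW : W.IsSemistableModel) (n d : ℤ)
    (h : d * W.c₄ ^ 3 = n * W.Δ) (h5n : (5 : ℤ) ∣ n) (h5d : ¬ (5 : ℤ) ∣ d)
    (h125 : ¬ (125 : ℤ) ∣ n) : False := by
  have hp5 : Prime (5 : ℤ) := Int.prime_iff_natAbs_prime.mpr (by norm_num)
  have h5c : (5 : ℤ) ∣ W.c₄ := by
    have h1 : (5 : ℤ) ∣ d * W.c₄ ^ 3 := by rw [h]; exact Dvd.dvd.mul_right h5n _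
    rcases hp5.dvd_or_dvd h1 with h2 | h2
    · exact absurd h2 h5d
    · exact hp5.dvd_of_dvd_pow h2
  by_cases h5Δ : (5 : ℤ) ∣ W.Δ
  · exact hW 5 Nat.prime_five (by exact_mod_cast h5Δ) (by exact_mod_cast h5c)
  · apply h125
    have hcop : IsCoprime ((5 : ℤ) ^ 3) W.Δ :=
      ((Prime.coprime_iff_not_dvd hp5).mpr h5Δ).pow_left
    have h2 : ((5 : ℤ) ^ 3) ∣ n * W.Δ := by
      rw [← h]; exact Dvd.dvd.mul_left (pow_dvd_pow_of_dvd h5c 3) _
    have := hcop.dvd_of_dvd_mul_right h2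
    simpa using this

theorem semistable_five (W : WeierstrassCurve ℤ) (hΔ : W.Δ ≠ 0) (hW : W.IsSemistableModel)
    (n d : ℤ) (hd : d ≠ 0)
    (hj : 6912 * redA W ^ 3 / (4 * redA W ^ 3 + 27 * redB W ^ 2) = (n : ℚ) / (d : ℚ))
    (h5n : (5 : ℤ) ∣ n) (h5d : ¬ (5 : ℤ) ∣ d) (h125 : ¬ (125 : ℤ) ∣ n) : False := by
  have hΔ' : (W.Δ : ℚ) ≠ 0 := by exact_mod_cast hΔ
  have hd' : (d : ℚ) ≠ 0 := by exact_mod_cast hd
  rw [redJ_eq W hΔ, div_eq_div_iff hΔ' hd'] at hj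
  have h : d * W.c₄ ^ 3 = n * W.Δ := by
    have : (W.c₄ : ℚ) ^ 3 * (d : ℚ) = (n : ℚ) * (W.Δ : ℚ) := hj
    have h' : ((d * W.c₄ ^ 3 : ℤ) : ℚ) = ((n * W.Δ : ℤ) : ℚ) := by
      push_cast; linarith
    exact_mod_cast h'
  exact semistable_five_aux W hW n d h h5n h5d h125

/-- A semistable model cannot have one of the four non-cuspidal `X₀(15)` `j`-invariants. -/
theorem semistable_false (W : WeierstrassCurve ℤ) (hΔ : W.Δ ≠ 0) (hW : W.IsSemistableModel)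
    (hj : 6912 * redA W ^ 3 / (4 * redA W ^ 3 + 27 * redB W ^ 2) = -25 / 2 ∨
      6912 * redA W ^ 3 / (4 * redA W ^ 3 + 27 * redB W ^ 2) = -349938025 / 8 ∨
      6912 * redA W ^ 3 / (4 * redA W ^ 3 + 27 * redB W ^ 2) = -121945 / 32 ∨
      6912 * redA W ^ 3 / (4 * redA W ^ 3 + 27 * redB W ^ 2) = 46969655 / 32768) : False := by
  rcases hj with h | h | h | h
  · exact semistable_five W hΔ hW (-25) 2 (by norm_num) (by rw [h]; norm_num)
      (by norm_num) (by norm_num) (by norm_num)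
  · exact semistable_five W hΔ hW (-349938025) 8 (by norm_num) (by rw [h]; norm_num)
      (by norm_num) (by norm_num) (by norm_num)
  · exact semistable_five W hΔ hW (-121945) 32 (by norm_num) (by rw [h]; norm_num)
      (by norm_num) (by norm_num) (by norm_num)
  · exact semistable_five W hΔ hW 46969655 32768 (by norm_num) (by rw [h]; norm_num)
      (by norm_num) (by norm_num) (by norm_num)

end Fermat.Agent.S51
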