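import Mathlib
import Fermat.Agent.S51.RedCoord
import Fermat.Agent.S51.DupRoots

/-!
# S51: 3- and 5-torsion points in the reduced coordinate

For a Weierstrass curve `E` over a field of characteristic zero with `Δ ≠ 0`:
* a nonzero 3-torsion point has `ψ₃(X(P)) = 0`;
* a nonzero 5-torsion point `P` gives a mutually duplicating pair `x₁ = X(P) ≠ x₂ = X(2P)`;
* the 3-torsion has at most `9` points and the 5-torsion at most `25` points;
* over an algebraically closed field there are nonzero 3- and 5-torsion points.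
-/

set_option autoImplicit false

noncomputable section

namespace Fermat.Agent.S51.TorsionGeo

open WeierstrassCurve WeierstrassCurve.Affine
open Fermat.Agent.S51.RedCoord Fermat.Agent.S51.DupAlgebra Fermat.Agent.S51.DupRoots

/-- Counting lemma: a set mapping at most two-to-one into a finite set is finite. -/
theorem finite_and_ncard_le {α β : Type*} (S : Set α) (g : α → β) (R : Set β) (hR : R.Finite)
    (hSR : ∀ a ∈ S, g a ∈ R)
    (h2 : ∀ a ∈ S, ∀ b ∈ S, ∀ c ∈ S, g a = g b → g a = g c → a = b ∨ a = c ∨ b = c) :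
    S.Finite ∧ S.ncard ≤ 2 * R.ncard := by
  classical
  -- each fibre is contained in a finset with at most two elements
  have hfib : ∀ r : β, ∃ T : Finset α, T.card ≤ 2 ∧ {x ∈ S | g x = r} ⊆ ↑T := by
    intro r
    by_cases h0 : ∃ a, a ∈ S ∧ g a = r
    · obtain ⟨a, haS, har⟩ := h0
      by_cases h1 : ∃ b, b ∈ S ∧ g b = r ∧ b ≠ a
      · obtain ⟨b, hbS, hbr, hba⟩ := h1
        refine ⟨{a, b}, Finset.card_le_two, fun c hc => ?_⟩
        obtain ⟨hcS, hcr⟩ := hc
        rcases h2 a haS b hbS c hcS (har.trans hbr.symm) (har.trans hcr.symm) with h | h | h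
        · exact absurd h.symm hba
        · simp [h]
        · simp [h]
      · refine ⟨{a}, by simp, fun c hc => ?_⟩
        obtain ⟨hcS, hcr⟩ := hc
        by_contra hca
        exact h1 ⟨c, hcS, hcr, fun h => hca (by simp [h])⟩
    · exact ⟨∅, by simp, fun c hc => absurd ⟨c, hc.1, hc.2⟩ h0⟩
  choose T hTcard hTsub using hfib
  have hsub : S ⊆ ↑(hR.toFinset.biUnion T) := by
    intro a ha
    simp only [Finset.coe_biUnion, Set.mem_iUnion, Finset.mem_coe, Set.Finite.mem_toFinset,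
      exists_prop]
    exact ⟨g a, hSR a ha, hTsub (g a) ⟨ha, rfl⟩⟩
  have hfin : S.Finite := (Finset.finite_toSet _).subset hsub
  refine ⟨hfin, ?_⟩
  calc S.ncard ≤ (↑(hR.toFinset.biUnion T) : Set α).ncard :=
        Set.ncard_le_ncard hsub (Finset.finite_toSet _)
    _ = (hR.toFinset.biUnion T).card := Set.ncard_coe_finset _
    _ ≤ ∑ r ∈ hR.toFinset, (T r).card := Finset.card_biUnion_le
    _ ≤ ∑ _r ∈ hR.toFinset, 2 := Finset.sum_le_sum fun r _ => hTcard r
    _ = 2 * R.ncard := by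
        rw [Finset.sum_const, smul_eq_mul, mul_comm, Set.ncard_eq_toFinset_card R hR]

variable {K : Type*} [Field K] [CharZero K] [DecidableEq K] (E : WeierstrassCurve K)

omit [CharZero K] [DecidableEq K] in
theorem fR_eq (X : K) : fR E X = cubic (cA E) (cB E) X := rfl

omit [CharZero K] [DecidableEq K] in
theorem NdR_eq (X : K) : NdR E X = dupNum (cA E) (cB E) X := rfl

omit [DecidableEq K] in
theorem disc_ne_zero (hΔ : E.Δ ≠ 0) : disc (cA E) (cB E) ≠ 0 := by
  unfold disc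
  rw [disc_eq]
  exact div_ne_zero (neg_ne_zero.mpr hΔ) (by norm_num)

omit [DecidableEq K] in
theorem two_ne_zero' : (2 : K) ≠ 0 := two_ne_zero

/-- A nonzero 3-torsion point has `ψ₃(X(P)) = 0`. -/
theorem psi3_Xr_of_three_torsion {P : E.toAffine.Point} (hP : P ≠ 0) (h3 : (3 : ℕ) • P = 0) :
    psi3 (cA E) (cB E) (Xr E P) = 0 := by
  have h2 : (2 : ℕ) • P = -P := by
    have : (3 : ℕ) • P = (2 : ℕ) • P + P := succ_nsmul P 2
    rw [this] at h3
    exact eq_neg_of_add_eq_zero_left h3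
  have h2ne : (2 : ℕ) • P ≠ 0 := by rw [h2]; exact neg_ne_zero.mpr hP
  have hdup := Xr_two_nsmul' E h2ne
  rw [h2, Xr_neg, fR_eq, NdR_eq] at hdup
  have := dupNum_sub (cA E) (cB E) (Xr E P)
  linear_combination this + hdup

/-- A nonzero 5-torsion point `P` gives a mutually duplicating pair `X(P) ≠ X(2P)`. -/
theorem five_pair_of_five_torsion {P : E.toAffine.Point} (hP : P ≠ 0) (h5 : (5 : ℕ) • P = 0) :
    (2 : ℕ) • P ≠ 0 ∧ (2 : ℕ) • ((2 : ℕ) • P) = -P ∧
    Xr E P ≠ Xr E ((2 : ℕ) • P) ∧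
    dupNum (cA E) (cB E) (Xr E P) =
      4 * Xr E ((2 : ℕ) • P) * cubic (cA E) (cB E) (Xr E P) ∧
    dupNum (cA E) (cB E) (Xr E ((2 : ℕ) • P)) =
      4 * Xr E P * cubic (cA E) (cB E) (Xr E ((2 : ℕ) • P)) := by
  have h5' : (2 : ℕ) • ((2 : ℕ) • P) + P = 0 := by
    rw [← h5, smul_smul]
    exact (succ_nsmul P 4).symm
  have h4 : (2 : ℕ) • ((2 : ℕ) • P) = -P := eq_neg_of_add_eq_zero_left h5'
  have h2ne : (2 : ℕ) • P ≠ 0 := by
    intro h0
    rw [h0, smul_zero, zero_add] at h5'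
    exact hP h5'
  have h4ne : (2 : ℕ) • ((2 : ℕ) • P) ≠ 0 := by rw [h4]; exact neg_ne_zero.mpr hP
  have R1 := Xr_two_nsmul' E h2ne
  have R2 := Xr_two_nsmul' E h4ne
  rw [h4, Xr_neg] at R2
  rw [fR_eq, NdR_eq] at R1 R2
  refine ⟨h2ne, h4, ?_, by linear_combination -R1, by linear_combination -R2⟩
  intro hX
  rcases eq_or_eq_neg_of_Xr_eq E hP h2ne hX with h | h
  · -- P = 2P
    rw [two_nsmul] at h
    exact hP (by simpa using h)
  · -- P = -(2P), so 2•(2•P) = -P gives 2•(-P) = ... contradiction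
    have h2P : (2 : ℕ) • P = -P := by
      rw [eq_comm, neg_eq_iff_eq_neg]
      exact h
    rw [h2P, smul_neg, h2P, neg_neg] at h4
    -- h4 : P = -P  ⟹ 2P = 0
    apply h2ne
    rw [two_nsmul]
    nth_rewrite 1 [h4]
    exact neg_add_cancel P

omit [CharZero K] in
/-- Counting torsion points through the reduced coordinate. -/
theorem torsion_count (n : ℕ) (R : Set K) (hR : R.Finite) (m : ℕ) (hm : R.ncard ≤ m)
    (h : ∀ P : E.toAffine.Point, P ≠ 0 → n • P = 0 → Xr E P ∈ R) :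
    {P : E.toAffine.Point | n • P = 0}.Finite ∧
      {P : E.toAffine.Point | n • P = 0}.ncard ≤ 2 * m + 1 := by
  set S : Set E.toAffine.Point := {P | P ≠ 0 ∧ n • P = 0} with hS
  obtain ⟨hfin, hcard⟩ := finite_and_ncard_le S (Xr E) R hR (fun P hP => h P hP.1 hP.2) (by
    intro a ha b hb c hc hab hac
    rcases eq_or_eq_neg_of_Xr_eq E ha.1 hb.1 hab with h1 | h1
    · exact Or.inl h1
    · rcases eq_or_eq_neg_of_Xr_eq E ha.1 hc.1 hac with h2 | h2
      · exact Or.inr (Or.inl h2)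
      · exact Or.inr (Or.inr (neg_injective (h1.symm.trans h2))))
  have hsub : {P : E.toAffine.Point | n • P = 0} ⊆ insert 0 S := by
    intro P hP
    by_cases h0 : P = 0
    · exact Or.inl h0
    · exact Or.inr ⟨h0, hP⟩
  have hfin' : (insert 0 S).Finite := hfin.insert 0
  refine ⟨hfin'.subset hsub, ?_⟩
  calc {P : E.toAffine.Point | n • P = 0}.ncard ≤ (insert 0 S).ncard :=
        Set.ncard_le_ncard hsub hfin'
    _ ≤ S.ncard + 1 := Set.ncard_insert_le 0 S
    _ ≤ 2 * m + 1 := by omega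

/-- The 3-torsion has at most `9` points. -/
theorem three_torsion_count :
    {P : E.toAffine.Point | (3 : ℕ) • P = 0}.Finite ∧
      {P : E.toAffine.Point | (3 : ℕ) • P = 0}.ncard ≤ 9 := by
  have h3 : (3 : K) ≠ 0 := by norm_num
  exact torsion_count E 3 {x | psi3 (cA E) (cB E) x = 0} (finite_psi3_roots _ _ h3) 4
    (ncard_psi3_roots_le _ _ h3) fun P hP h => psi3_Xr_of_three_torsion E hP h

/-- The 5-torsion has at most `25` points. -/
theorem five_torsion_count (hΔ : E.Δ ≠ 0) :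
    {P : E.toAffine.Point | (5 : ℕ) • P = 0}.Finite ∧
      {P : E.toAffine.Point | (5 : ℕ) • P = 0}.ncard ≤ 25 := by
  have h5 : (5 : K) ≠ 0 := by norm_num
  refine torsion_count E 5 {x | psi5 (cA E) (cB E) x = 0} (finite_psi5_roots _ _ h5) 12
    (ncard_psi5_roots_le _ _ h5) fun P hP h => ?_
  obtain ⟨-, -, hne, R1, R2⟩ := five_pair_of_five_torsion E hP h
  exact (psi5_of_five_pair two_ne_zero (disc_ne_zero E hΔ) hne R1 R2).2.2.2.2.2

/-- Over an algebraically closed field there is a nonzero 3-torsion point. -/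
theorem exists_three_torsion [IsAlgClosed K] (hΔ : E.Δ ≠ 0) :
    ∃ P : E.toAffine.Point, P ≠ 0 ∧ (3 : ℕ) • P = 0 := by
  have h3 : (3 : K) ≠ 0 := by norm_num
  have hd := disc_ne_zero E hΔ
  obtain ⟨x, hx⟩ := exists_psi3_root (cA E) (cB E) h3
  have hf : cubic (cA E) (cB E) x ≠ 0 := cubic_ne_zero_of_psi3 hd hx
  obtain ⟨P, hP, hPx⟩ := exists_point_Xr_eq E hΔ x
  refine ⟨P, hP, ?_⟩
  have h2ne : (2 : ℕ) • P ≠ 0 := by
    intro h0
    have := (two_nsmul_eq_zero_iff' E hP).mp h0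
    rw [hPx, fR_eq] at this
    exact hf this
  have hdup := Xr_two_nsmul' E h2ne
  rw [hPx, fR_eq, NdR_eq] at hdup
  have hsub := dupNum_sub (cA E) (cB E) x
  rw [hx, neg_zero] at hsub
  have hX2 : Xr E ((2 : ℕ) • P) = Xr E P := by
    rw [hPx]
    have h4f : 4 * cubic (cA E) (cB E) x ≠ 0 := mul_ne_zero (by norm_num) hf
    apply mul_right_cancel₀ h4f
    linear_combination hdup + hsub
  rcases eq_or_eq_neg_of_Xr_eq E h2ne hP hX2 with h | h
  · exfalso
    rw [two_nsmul] at h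
    exact hP (by simpa using h)
  · have : (3 : ℕ) • P = (2 : ℕ) • P + P := succ_nsmul P 2
    rw [this, h, neg_add_cancel]

/-- Over an algebraically closed field there is a nonzero 5-torsion point. -/
theorem exists_five_torsion [IsAlgClosed K] (hΔ : E.Δ ≠ 0) :
    ∃ P : E.toAffine.Point, P ≠ 0 ∧ (5 : ℕ) • P = 0 := by
  have h5 : (5 : K) ≠ 0 := by norm_num
  have h2 : (2 : K) ≠ 0 := two_ne_zero
  have hd := disc_ne_zero E hΔ
  obtain ⟨x₁, hx₁⟩ := exists_psi5_root (cA E) (cB E) h5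
  obtain ⟨hf1, hf2, R1, R2, hne, -⟩ := five_pair_of_psi5 h2 hd hx₁
  set x₂ := dup (cA E) (cB E) x₁ with hx₂
  obtain ⟨P, hP, hPx⟩ := exists_point_Xr_eq E hΔ x₁
  refine ⟨P, hP, ?_⟩
  have h2ne : (2 : ℕ) • P ≠ 0 := by
    intro h0
    have := (two_nsmul_eq_zero_iff' E hP).mp h0
    rw [hPx, fR_eq] at this
    exact hf1 this
  have hdup := Xr_two_nsmul' E h2ne
  rw [hPx, fR_eq, NdR_eq] at hdup
  have hX2 : Xr E ((2 : ℕ) • P) = x₂ := by
    have h4f : 4 * cubic (cA E) (cB E) x₁ ≠ 0 := mul_ne_zero (by norm_num) hf1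
    apply mul_right_cancel₀ h4f
    linear_combination hdup + R1
  have h4ne : (2 : ℕ) • ((2 : ℕ) • P) ≠ 0 := by
    intro h0
    have := (two_nsmul_eq_zero_iff' E h2ne).mp h0
    rw [hX2, fR_eq] at this
    exact hf2 this
  have hdup2 := Xr_two_nsmul' E h4ne
  rw [hX2, fR_eq, NdR_eq] at hdup2
  have hX4 : Xr E ((2 : ℕ) • ((2 : ℕ) • P)) = Xr E P := by
    rw [hPx]
    have h4f : 4 * cubic (cA E) (cB E) x₂ ≠ 0 := mul_ne_zero (by norm_num) hf2
    apply mul_right_cancel₀ h4f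
    linear_combination hdup2 + R2
  have h5eq : (5 : ℕ) • P = (2 : ℕ) • ((2 : ℕ) • P) + P := by
    rw [smul_smul]
    exact succ_nsmul P 4
  rcases eq_or_eq_neg_of_Xr_eq E h4ne hP hX4 with h | h
  · -- 4P = P, so 3P = 0, so 2P = -P and X(2P) = X(P): contradiction
    exfalso
    have h3 : (2 : ℕ) • P + P = 0 := by
      have h' : (2 : ℕ) • ((2 : ℕ) • P) = (2 : ℕ) • P + P + P := by
        rw [smul_smul]
        show (4 : ℕ) • P = _
        rw [show (4 : ℕ) = 2 + 1 + 1 from rfl, add_nsmul, add_nsmul, one_nsmul]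
      rw [h'] at h
      exact add_eq_right.mp h
    have h2P : (2 : ℕ) • P = -P := eq_neg_of_add_eq_zero_left h3
    have : Xr E ((2 : ℕ) • P) = Xr E P := by rw [h2P, Xr_neg]
    rw [hX2, hPx] at this
    exact hne this
  · rw [h5eq, h, neg_add_cancel]

end Fermat.Agent.S51.TorsionGeo
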