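import Fermat.Agent.S51.Defs
import Fermat.Agent.S51.TorsionGeo
import Fermat.Agent.S51.StableLine

/-!
# S51: the 3-torsion and 5-torsion data of a curve with reducible mod 3 / mod 5 representation

`three` and `five` in exactly the shape consumed by `Fermat.Agent.S51.result_of_inputs`.
-/

set_option autoImplicit false

noncomputable section

namespace Fermat.Agent.S51.ThreeFive

open WeierstrassCurve WeierstrassCurve.Affine WeierstrassCurve.Affine.Point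
open Fermat.Agent.S51.RedCoord Fermat.Agent.S51.DupAlgebra Fermat.Agent.S51.DupRoots
open Fermat.Agent.S51.TorsionGeo Fermat.Agent.S51.StableLine

/-- `ℚ̄`. -/
abbrev Qbar : Type := AlgebraicClosure ℚ

variable (W : WeierstrassCurve ℤ)

/-- The curve over `ℚ`. -/
abbrev WQ : Affine ℚ := W.map (Int.castRingHom ℚ)

/-- The curve over `ℚ̄`. -/
abbrev EK : WeierstrassCurve Qbar := (WQ W)⁄Qbar

/-- The structure map `ℚ → ℚ̄`. -/
abbrev φ : ℚ →+* Qbar := algebraMap ℚ Qbar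

theorem Δ_EK : (EK W).Δ = φ ((W.Δ : ℤ) : ℚ) := by
  show ((WQ W).map (algebraMap ℚ Qbar)).Δ = _
  rw [WeierstrassCurve.map_Δ]
  show algebraMap ℚ Qbar (W.map (Int.castRingHom ℚ)).Δ = _
  rw [WeierstrassCurve.map_Δ]
  rfl

theorem Δ_EK_ne_zero (hΔ : W.Δ ≠ 0) : (EK W).Δ ≠ 0 := by
  rw [Δ_EK]
  exact (map_ne_zero (φ)).mpr (by exact_mod_cast hΔ)

theorem cA_EK : cA (EK W) = φ (redA W) := by
  have h : (EK W).c₄ = φ ((W.c₄ : ℤ) : ℚ) := by
    show ((WQ W).map (algebraMap ℚ Qbar)).c₄ = _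
    rw [WeierstrassCurve.map_c₄]
    show algebraMap ℚ Qbar (W.map (Int.castRingHom ℚ)).c₄ = _
    rw [WeierstrassCurve.map_c₄]
    rfl
  rw [cA, h, redA, map_div₀, map_neg, map_ofNat]

theorem cB_EK : cB (EK W) = φ (redB W) := by
  have h : (EK W).c₆ = φ ((W.c₆ : ℤ) : ℚ) := by
    show ((WQ W).map (algebraMap ℚ Qbar)).c₆ = _
    rw [WeierstrassCurve.map_c₆]
    show algebraMap ℚ Qbar (W.map (Int.castRingHom ℚ)).c₆ = _
    rw [WeierstrassCurve.map_c₆]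
    rfl
  rw [cB, h, redB, map_div₀, map_neg, map_ofNat]

theorem mem_torsionBy_iff_nsmul (n : ℕ) (P : ((WQ W)⁄Qbar).Point) :
    P ∈ Submodule.torsionBy ℤ ((WQ W)⁄Qbar).Point n ↔ n • P = 0 := by
  rw [Submodule.mem_torsionBy_iff, natCast_zsmul]

theorem coe_torsionBy (n : ℕ) :
    ((Submodule.torsionBy ℤ ((WQ W)⁄Qbar).Point n : Submodule ℤ ((WQ W)⁄Qbar).Point) :
      Set ((WQ W)⁄Qbar).Point) = {P | n • P = 0} := by
  ext P
  exact mem_torsionBy_iff_nsmul W n P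

theorem finite_torsion_three :
    Finite (Submodule.torsionBy ℤ ((WQ W)⁄Qbar).Point (3 : ℕ)) := by
  have h := (three_torsion_count (EK W)).1
  rw [← coe_torsionBy W 3] at h
  exact h.to_subtype

theorem card_torsion_three :
    Nat.card (Submodule.torsionBy ℤ ((WQ W)⁄Qbar).Point (3 : ℕ)) < 3 ^ 3 := by
  have h := (three_torsion_count (EK W)).2
  rw [← coe_torsionBy W 3] at h
  have h2 : Nat.card (Submodule.torsionBy ℤ ((WQ W)⁄Qbar).Point (3 : ℕ)) =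
      ((Submodule.torsionBy ℤ ((WQ W)⁄Qbar).Point (3 : ℕ) :
        Submodule ℤ ((WQ W)⁄Qbar).Point) : Set ((WQ W)⁄Qbar).Point).ncard :=
    Nat.card_coe_set_eq _
  rw [h2]
  omega

theorem finite_torsion_five (hΔ : W.Δ ≠ 0) :
    Finite (Submodule.torsionBy ℤ ((WQ W)⁄Qbar).Point (5 : ℕ)) := by
  have h := (five_torsion_count (EK W) (Δ_EK_ne_zero W hΔ)).1
  rw [← coe_torsionBy W 5] at h
  exact h.to_subtype

theorem card_torsion_five (hΔ : W.Δ ≠ 0) :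
    Nat.card (Submodule.torsionBy ℤ ((WQ W)⁄Qbar).Point (5 : ℕ)) < 5 ^ 3 := by
  have h := (five_torsion_count (EK W) (Δ_EK_ne_zero W hΔ)).2
  rw [← coe_torsionBy W 5] at h
  have h2 : Nat.card (Submodule.torsionBy ℤ ((WQ W)⁄Qbar).Point (5 : ℕ)) =
      ((Submodule.torsionBy ℤ ((WQ W)⁄Qbar).Point (5 : ℕ) :
        Submodule ℤ ((WQ W)⁄Qbar).Point) : Set ((WQ W)⁄Qbar).Point).ncard :=
    Nat.card_coe_set_eq _
  rw [h2]
  omega

theorem isAlgClosed_Qbar : IsAlgClosed Qbar := inferInstance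

theorem nontrivial_torsion_three (hΔ : W.Δ ≠ 0) :
    Nontrivial (Submodule.torsionBy ℤ ((WQ W)⁄Qbar).Point (3 : ℕ)) := by
  obtain ⟨P, hP, h3⟩ := exists_three_torsion (EK W) (Δ_EK_ne_zero W hΔ)
  refine ⟨⟨⟨P, (mem_torsionBy_iff_nsmul W 3 P).mpr h3⟩, 0, fun h => hP ?_⟩⟩
  exact congrArg Subtype.val h

theorem nontrivial_torsion_five (hΔ : W.Δ ≠ 0) :
    Nontrivial (Submodule.torsionBy ℤ ((WQ W)⁄Qbar).Point (5 : ℕ)) := by
  obtain ⟨P, hP, h5⟩ := exists_five_torsion (EK W) (Δ_EK_ne_zero W hΔ)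
  refine ⟨⟨⟨P, (mem_torsionBy_iff_nsmul W 5 P).mpr h5⟩, 0, fun h => hP ?_⟩⟩
  exact congrArg Subtype.val h

/-- The 3-torsion data: a rational root of `ψ₃`. -/
theorem three (hΔ : W.Δ ≠ 0) (h : ¬ W.ModRepIsIrreducible 3) :
    ∃ x : ℚ, 3 * x ^ 4 + 6 * redA W * x ^ 2 + 12 * redB W * x - redA W ^ 2 = 0 := by
  unfold WeierstrassCurve.ModRepIsIrreducible GaloisRepIsIrreducible at h
  have hnt := nontrivial_torsion_three W hΔ
  have h' : ¬ ∀ N : Submodule (ZMod 3) (Submodule.torsionBy ℤ ((WQ W)⁄Qbar).Point (3 : ℕ)),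
      IsGaloisStable ℚ N → N = ⊥ ∨ N = ⊤ := fun hall => h ⟨hnt, hall⟩
  push Not at h'
  obtain ⟨N, hN, h0, h1⟩ := h'
  have : Fact (Nat.Prime 3) := ⟨by norm_num⟩
  have := finite_torsion_three W
  obtain ⟨P, hP, h3P, hσ, -⟩ :=
    exists_stable_point (S := ℚ) (card_torsion_three W) N hN h0 h1
  have h3 : (3 : ℕ) • P = 0 := by rwa [natCast_zsmul] at h3P
  have hψ := psi3_Xr_of_three_torsion (EK W) hP h3
  -- the reduced coordinate of `P` is Galois-fixed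
  have hfix : ∀ σ : Qbar ≃ₐ[ℚ] Qbar, σ (Xr (EK W) P) = Xr (EK W) P := by
    intro σ
    obtain ⟨k, hk, hkP⟩ := hσ σ
    rw [← Xr_smul (W' := WQ W) σ P, hkP]
    have hk0 : k ≠ 0 := by
      rintro rfl
      rw [zero_smul] at hkP
      exact hP ((smul_eq_zero_iff_eq σ).mp hkP)
    interval_cases k
    · exact absurd rfl hk0
    · rw [one_smul]
    · have : (2 : ℕ) • P = -P := by
        have h' : (3 : ℕ) • P = (2 : ℕ) • P + P := succ_nsmul P 2
        rw [h'] at h3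
        exact eq_neg_of_add_eq_zero_left h3
      rw [this, Xr_neg]
  obtain ⟨q, hq⟩ := exists_rat_of_fixed _ hfix
  refine ⟨q, ?_⟩
  apply three_data_of_root (φ) (redA W) (redB W) q
  rw [← cA_EK, ← cB_EK]
  show psi3 (cA (EK W)) (cB (EK W)) (algebraMap ℚ Qbar q) = 0
  rw [hq]
  exact hψ

/-- The 5-torsion data: rational `s = x₁ + x₂`, `t = x₁ x₂` for the reduced coordinates
`x₁ = X(P)`, `x₂ = X(2P)` of a generator `P` of a Galois-stable line in the 5-torsion. -/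
theorem five (hΔ : W.Δ ≠ 0) (h : ¬ W.ModRepIsIrreducible 5) :
    ∃ s t : ℚ, s ^ 2 - 4 * t ≠ 0 ∧
      redA W ^ 2 + 2 * (s ^ 2 - t) * redA W - (s ^ 4 - 5 * s ^ 2 * t - 5 * t ^ 2) = 0 ∧
      12 * s * redB W =
        2 * redA W ^ 2 - 2 * redA W * (s ^ 2 + 2 * t) + s ^ 4 - 8 * s ^ 2 * t + 10 * t ^ 2 ∧
      ∀ x : ℚ, 3 * x ^ 4 + 6 * redA W * x ^ 2 + 12 * redB W * x - redA W ^ 2 = 0 →
        x ^ 2 - s * x + t ≠ 0 := by
  unfold WeierstrassCurve.ModRepIsIrreducible GaloisRepIsIrreducible at h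
  have hnt := nontrivial_torsion_five W hΔ
  have h' : ¬ ∀ N : Submodule (ZMod 5) (Submodule.torsionBy ℤ ((WQ W)⁄Qbar).Point (5 : ℕ)),
      IsGaloisStable ℚ N → N = ⊥ ∨ N = ⊤ := fun hall => h ⟨hnt, hall⟩
  push Not at h'
  obtain ⟨N, hN, h0, h1⟩ := h'
  have : Fact (Nat.Prime 5) := ⟨by norm_num⟩
  have := finite_torsion_five W hΔ
  obtain ⟨P, hP, h5P, hσ, -⟩ :=
    exists_stable_point (S := ℚ) (card_torsion_five W hΔ) N hN h0 h1
  have h5 : (5 : ℕ) • P = 0 := by rwa [natCast_zsmul] at h5P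
  obtain ⟨h2ne, h4, hne, R1, R2⟩ := five_pair_of_five_torsion (EK W) hP h5
  set x₁ := Xr (EK W) P with hx₁
  set x₂ := Xr (EK W) ((2 : ℕ) • P) with hx₂
  -- multiples of `P`
  have h3P : (3 : ℕ) • P = -((2 : ℕ) • P) := by
    have e : (5 : ℕ) • P = (3 : ℕ) • P + (2 : ℕ) • P := add_nsmul P 3 2
    rw [e] at h5
    exact eq_neg_of_add_eq_zero_left h5
  have h4P : (4 : ℕ) • P = -P := by
    rw [← h4, smul_smul]
    rfl
  have h6P : (6 : ℕ) • P = P := by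
    have e : (6 : ℕ) • P = (5 : ℕ) • P + P := succ_nsmul P 5
    rw [e, h5, zero_add]
  have h8P : (8 : ℕ) • P = -((2 : ℕ) • P) := by
    have e : (8 : ℕ) • P = (5 : ℕ) • P + (3 : ℕ) • P := add_nsmul P 5 3
    rw [e, h5, zero_add, h3P]
  -- Galois action on the pair
  have hpair : ∀ σ : Qbar ≃ₐ[ℚ] Qbar, (σ x₁ = x₁ ∧ σ x₂ = x₂) ∨ (σ x₁ = x₂ ∧ σ x₂ = x₁) := by
    intro σ
    obtain ⟨k, hk, hkP⟩ := hσ σ
    have hk0 : k ≠ 0 := by
      rintro rfl
      rw [zero_smul] at hkP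
      exact hP ((smul_eq_zero_iff_eq σ).mp hkP)
    have e1 : σ x₁ = Xr (EK W) (k • P) := by
      rw [hx₁, ← Xr_smul (W' := WQ W) σ P, hkP]
    have e2 : σ x₂ = Xr (EK W) ((2 * k) • P) := by
      rw [hx₂, ← Xr_smul (W' := WQ W) σ ((2 : ℕ) • P)]
      have : σ • ((2 : ℕ) • P) = (2 : ℕ) • (σ • P) := by
        have := algEquiv_smul_zsmul σ (2 : ℤ) P
        simpa [← natCast_zsmul] using this
      rw [this, hkP, smul_smul]
    interval_cases k
    · exact absurd rfl hk0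
    · left
      rw [e1, e2, one_smul]
      exact ⟨rfl, rfl⟩
    · right
      rw [e1, e2]
      refine ⟨rfl, ?_⟩
      show Xr (EK W) ((4 : ℕ) • P) = x₁
      rw [h4P, Xr_neg]
    · right
      rw [e1, e2]
      refine ⟨?_, ?_⟩
      · rw [h3P, Xr_neg]
      · show Xr (EK W) ((6 : ℕ) • P) = x₁
        rw [h6P]
    · left
      rw [e1, e2]
      refine ⟨?_, ?_⟩
      · rw [h4P, Xr_neg]
      · show Xr (EK W) ((8 : ℕ) • P) = x₂
        rw [h8P, Xr_neg]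
  obtain ⟨⟨s, hs⟩, ⟨t, ht⟩⟩ := exists_rat_add_mul_of_stable_pair x₁ x₂ hpair
  refine ⟨s, t, ?_⟩
  have hd : disc (redA W) (redB W) ≠ 0 := by
    have := disc_ne_zero (EK W) (Δ_EK_ne_zero W hΔ)
    rw [cA_EK, cB_EK, ← map_disc] at this
    exact fun h0 => this (by rw [h0, _root_.map_zero])
  rw [cA_EK, cB_EK] at R1 R2
  exact five_data_of_pair (φ) (redA W) (redB W) s t hd hs.symm ht.symm hne R1 R2

end Fermat.Agent.S51.ThreeFive
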