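import Mathlib

/-!
# Abstract geometry of the `3`- and `5`-torsion via the `x`-coordinate duplication map

Let `G` be an additive commutative group with an "`x`-coordinate" `Xc : G → K` (`K` a field of
characteristic zero) behaving like the reduced `x`-coordinate `x + b₂/12` of a Weierstrass curve
with short invariants `A`, `B` (`XData`):

* two nonzero points have the same coordinate iff they are equal or opposite;
* a nonzero point `P` is `2`-torsion iff `f (Xc P) = 0`, `f X = X³ + A X + B`;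
* otherwise `Xc (2P) · 4 f (Xc P) = Nd (Xc P)`, `Nd X = X⁴ - 2AX² - 8BX + A²`;
* every element of `K` is the coordinate of a nonzero point.

Then, if `4A³ + 27B² ≠ 0`:

* the `5`-torsion of `G` is contained in a finite set with at most `25` elements, and contains a
  nonzero element;
* the `3`-torsion of `G` is contained in a finite set with at most `9` elements, and contains a
  nonzero element;
* for a nonzero `5`-torsion point `P`, the coordinates `x₁ = Xc P`, `x₂ = Xc (2P)` are distinct,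
  `f x₁ ≠ 0`, `f x₂ ≠ 0`, and they are exchanged by the duplication map; an additive map of `G`
  sending `P` to a multiple of `P` and compatible with a map of `K` on coordinates either fixes
  or exchanges `x₁` and `x₂`.
-/

set_option autoImplicit false

namespace Fermat.Agent.S51.TorsionCount

section Alg

variable {K : Type*} [Field K] (A B : K)

/-- The cubic `X³ + A X + B`. -/
def f (X : K) : K := X ^ 3 + A * X + B

/-- Numerator of the duplication map. -/
def Nd (X : K) : K := X ^ 4 - 2 * A * X ^ 2 - 8 * B * X + A ^ 2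

/-- The third division polynomial. -/
def psi3 (X : K) : K := 3 * X ^ 4 + 6 * A * X ^ 2 + 12 * B * X - A ^ 2

/-- The fourth division polynomial divided by `4y`. -/
def h6 (X : K) : K :=
  X ^ 6 + 5 * A * X ^ 4 + 20 * B * X ^ 3 - 5 * A ^ 2 * X ^ 2 - 4 * A * B * X - 8 * B ^ 2 - A ^ 3

/-- The fifth division polynomial. -/
def psi5 (X : K) : K :=
  5 * X ^ 12 + 62 * A * X ^ 10 + 380 * B * X ^ 9 - 105 * A ^ 2 * X ^ 8 + 240 * A * B * X ^ 7
    + (-300 * A ^ 3 - 240 * B ^ 2) * X ^ 6 - 696 * A ^ 2 * B * X ^ 5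
    + (-125 * A ^ 4 - 1920 * A * B ^ 2) * X ^ 4 + (-80 * A ^ 3 * B - 1600 * B ^ 3) * X ^ 3
    + (-50 * A ^ 5 - 240 * A ^ 2 * B ^ 2) * X ^ 2 + (-100 * A ^ 4 * B - 640 * A * B ^ 3) * X
    + (A ^ 6 - 32 * A ^ 3 * B ^ 2 - 256 * B ^ 4)

theorem Nd_eq (X : K) : Nd A B X = 4 * X * f A B X - psi3 A B X := by
  simp only [Nd, f, psi3]; ring

theorem psi5_eq (X : K) :
    psi5 A B X = 32 * f A B X ^ 2 * h6 A B X - psi3 A B X ^ 3 := by
  simp only [psi5, f, h6, psi3]; ring

/-- `f (x₂) · (4 f x₁)³ = h6 x₁ ²` when `x₂ · 4 f x₁ = Nd x₁`. -/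
theorem F2_eq (X : K) :
    Nd A B X ^ 3 + A * Nd A B X * (4 * f A B X) ^ 2 + B * (4 * f A B X) ^ 3 = h6 A B X ^ 2 := by
  simp only [Nd, f, h6]; ring

theorem N2_eq (X : K) :
    Nd A B X ^ 4 - 2 * A * Nd A B X ^ 2 * (4 * f A B X) ^ 2 - 8 * B * Nd A B X * (4 * f A B X) ^ 3
        + A ^ 2 * (4 * f A B X) ^ 4 - X * (4 * f A B X) * (4 * h6 A B X ^ 2)
      = - psi3 A B X * psi5 A B X := by
  simp only [Nd, f, h6, psi3, psi5]; ring

theorem h6_sq_eq (X : K) :
    h6 A B X ^ 2 - 64 * f A B X ^ 4 = psi3 A B X *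
      (-21 * X ^ 8 - 40 * A * X ^ 6 + 12 * B * X ^ 5 - 50 * A ^ 2 * X ^ 4 - 56 * A * B * X ^ 3
        - (16 * A ^ 3 + 48 * B ^ 2) * X ^ 2 - 20 * A ^ 2 * B * X - A ^ 4 - 16 * A * B ^ 2) := by
  simp only [f, h6, psi3]; ring

theorem disc_eq (X : K) :
    4 * A ^ 3 + 27 * B ^ 2 = (4 * A ^ 2 + 6 * A * X ^ 2 - 9 * B * X) * (3 * X ^ 2 + A)
      - (18 * A * X - 27 * B) * f A B X := by
  simp only [f]; ring

theorem psi3_eq (X : K) : psi3 A B X = 12 * X * f A B X - (3 * X ^ 2 + A) ^ 2 := by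
  simp only [f, psi3]; ring

theorem f_mul_pow {x H N : K} (h : x * H = N) :
    f A B x * H ^ 3 = N ^ 3 + A * N * H ^ 2 + B * H ^ 3 := by
  subst h; simp only [f]; ring

theorem Nd_mul_pow {x H N : K} (h : x * H = N) :
    Nd A B x * H ^ 4 = N ^ 4 - 2 * A * N ^ 2 * H ^ 2 - 8 * B * N * H ^ 3 + A ^ 2 * H ^ 4 := by
  subst h; simp only [Nd]; ring

variable {A B}

/-- `f` and `ψ₃` have no common root when the discriminant is nonzero. -/
theorem f_ne_zero_of_psi3 (hd : 4 * A ^ 3 + 27 * B ^ 2 ≠ 0) {X : K} (h3 : psi3 A B X = 0) :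
    f A B X ≠ 0 := by
  intro hf
  have h1 : (3 * X ^ 2 + A) ^ 2 = 0 := by
    have := psi3_eq A B X
    rw [h3, hf] at this
    linear_combination this
  have h2 : 3 * X ^ 2 + A = 0 := by simpa using h1
  apply hd
  rw [disc_eq A B X, h2, hf]; ring

/-- `f` and `ψ₅` have no common root when the discriminant is nonzero. -/
theorem f_ne_zero_of_psi5 (hd : 4 * A ^ 3 + 27 * B ^ 2 ≠ 0) {X : K} (h5 : psi5 A B X = 0) :
    f A B X ≠ 0 := by
  intro hf
  have h1 : psi3 A B X ^ 3 = 0 := by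
    have := psi5_eq A B X
    rw [h5, hf] at this
    linear_combination this
  have h2 : psi3 A B X = 0 := by simpa using h1
  exact f_ne_zero_of_psi3 hd h2 hf

variable [CharZero K]

/-- `ψ₃` and `h6` have no common root when the discriminant is nonzero. -/
theorem h6_ne_zero_of_psi3 (hd : 4 * A ^ 3 + 27 * B ^ 2 ≠ 0) {X : K} (h3 : psi3 A B X = 0) :
    h6 A B X ≠ 0 := by
  intro h6z
  have h1 : (64 : K) * f A B X ^ 4 = 0 := by
    have := h6_sq_eq A B X
    rw [h3, h6z] at this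
    linear_combination -this
  have h2 : f A B X = 0 := by
    rcases mul_eq_zero.mp h1 with h | h
    · norm_num at h
    · simpa using h
  exact f_ne_zero_of_psi3 hd h3 h2

/-- `ψ₃` and `ψ₅` have no common root when the discriminant is nonzero. -/
theorem psi3_ne_zero_of_psi5 (hd : 4 * A ^ 3 + 27 * B ^ 2 ≠ 0) {X : K} (h5 : psi5 A B X = 0) :
    psi3 A B X ≠ 0 := by
  intro h3
  have h1 : (32 : K) * f A B X ^ 2 * h6 A B X = 0 := by
    have := psi5_eq A B X
    rw [h5, h3] at this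
    linear_combination -this
  rcases mul_eq_zero.mp h1 with h | h
  · rcases mul_eq_zero.mp h with h' | h'
    · norm_num at h'
    · exact f_ne_zero_of_psi3 hd h3 (by simpa using h')
  · exact h6_ne_zero_of_psi3 hd h3 h

/-- `ψ₅` and `h6` have no common root when the discriminant is nonzero. -/
theorem h6_ne_zero_of_psi5 (hd : 4 * A ^ 3 + 27 * B ^ 2 ≠ 0) {X : K} (h5 : psi5 A B X = 0) :
    h6 A B X ≠ 0 := by
  intro h6z
  have h1 : psi3 A B X ^ 3 = 0 := by
    have := psi5_eq A B X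
    rw [h5, h6z] at this
    linear_combination this
  exact psi3_ne_zero_of_psi5 hd h5 (by simpa using h1)

/-- Forward direction: two distinct coordinates exchanged by the duplication map are roots of
`ψ₅`. -/
theorem psi5_eq_zero_of_dup {x₁ x₂ : K} (hf1 : f A B x₁ ≠ 0)
    (h12 : x₂ * (4 * f A B x₁) = Nd A B x₁) (h21 : x₁ * (4 * f A B x₂) = Nd A B x₂)
    (hne : x₁ ≠ x₂) : psi5 A B x₁ = 0 := by
  have hH : (4 : K) * f A B x₁ ≠ 0 := mul_ne_zero (by norm_num) hf1
  have h3 : psi3 A B x₁ ≠ 0 := by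
    intro h3
    apply hne
    have : (x₁ - x₂) * (4 * f A B x₁) = 0 := by
      have := Nd_eq A B x₁
      rw [h3] at this
      linear_combination -this - h12
    rcases mul_eq_zero.mp this with h | h
    · exact sub_eq_zero.mp h
    · exact absurd h hH
  -- express `f x₂` and `Nd x₂` through `x₁`
  have hfx2 : f A B x₂ * (4 * f A B x₁) ^ 3 = h6 A B x₁ ^ 2 := by
    rw [← F2_eq, f_mul_pow A B h12]
  have hNx2 : Nd A B x₂ * (4 * f A B x₁) ^ 4 =
      Nd A B x₁ ^ 4 - 2 * A * Nd A B x₁ ^ 2 * (4 * f A B x₁) ^ 2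
        - 8 * B * Nd A B x₁ * (4 * f A B x₁) ^ 3 + A ^ 2 * (4 * f A B x₁) ^ 4 :=
    Nd_mul_pow A B h12
  have key : psi3 A B x₁ * psi5 A B x₁ = 0 := by
    have h1 := N2_eq A B x₁
    rw [← hNx2, ← hfx2, ← h21] at h1
    linear_combination h1
  rcases mul_eq_zero.mp key with h | h
  · exact absurd h h3
  · exact h

/-- Backward direction: a root `x₁` of `ψ₅` and its image `x₂` under the duplication map. -/
theorem dup_of_psi5_eq_zero (hd : 4 * A ^ 3 + 27 * B ^ 2 ≠ 0) {x₁ : K}
    (h5 : psi5 A B x₁ = 0) :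
    f A B x₁ ≠ 0 ∧ f A B (Nd A B x₁ / (4 * f A B x₁)) ≠ 0 ∧
      x₁ * (4 * f A B (Nd A B x₁ / (4 * f A B x₁))) = Nd A B (Nd A B x₁ / (4 * f A B x₁)) ∧
      x₁ ≠ Nd A B x₁ / (4 * f A B x₁) := by
  have hf1 := f_ne_zero_of_psi5 hd h5
  have hH : (4 : K) * f A B x₁ ≠ 0 := mul_ne_zero (by norm_num) hf1
  have h3 := psi3_ne_zero_of_psi5 hd h5
  have h6' := h6_ne_zero_of_psi5 hd h5
  set x₂ : K := Nd A B x₁ / (4 * f A B x₁) with hx2
  have h12 : x₂ * (4 * f A B x₁) = Nd A B x₁ := div_mul_cancel₀ _ hH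
  have hfx2 : f A B x₂ * (4 * f A B x₁) ^ 3 = h6 A B x₁ ^ 2 := by
    rw [← F2_eq, f_mul_pow A B h12]
  have hNx2 : Nd A B x₂ * (4 * f A B x₁) ^ 4 =
      Nd A B x₁ ^ 4 - 2 * A * Nd A B x₁ ^ 2 * (4 * f A B x₁) ^ 2
        - 8 * B * Nd A B x₁ * (4 * f A B x₁) ^ 3 + A ^ 2 * (4 * f A B x₁) ^ 4 :=
    Nd_mul_pow A B h12
  refine ⟨hf1, ?_, ?_, ?_⟩
  · intro h
    rw [h, zero_mul] at hfx2
    exact h6' (by simpa using hfx2.symm)
  · have h1 := N2_eq A B x₁
    rw [h5, mul_zero, ← hNx2, ← hfx2] at h1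
    have h2 : (Nd A B x₂ - x₁ * (4 * f A B x₂)) * (4 * f A B x₁) ^ 4 = 0 := by
      linear_combination h1
    rcases mul_eq_zero.mp h2 with h | h
    · linear_combination -h
    · exact absurd (by simpa using h) hH
  · intro h
    apply h3
    have h4 : x₁ * (4 * f A B x₁) = Nd A B x₁ := by
      rw [← h12, ← h]
    have h5' := Nd_eq A B x₁
    linear_combination h4 + h5'

end Alg

section Poly

open Polynomial

variable {K : Type*} [Field K] (A B : K)

/-- `ψ₃` as a polynomial. -/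
noncomputable def psi3Poly : K[X] :=
  C 3 * X ^ 4 + C (6 * A) * X ^ 2 + C (12 * B) * X - C (A ^ 2)

/-- `ψ₅` as a polynomial. -/
noncomputable def psi5Poly : K[X] :=
  C 5 * X ^ 12 + C (62 * A) * X ^ 10 + C (380 * B) * X ^ 9 - C (105 * A ^ 2) * X ^ 8
    + C (240 * A * B) * X ^ 7
    + C (-300 * A ^ 3 - 240 * B ^ 2) * X ^ 6 - C (696 * A ^ 2 * B) * X ^ 5
    + C (-125 * A ^ 4 - 1920 * A * B ^ 2) * X ^ 4 + C (-80 * A ^ 3 * B - 1600 * B ^ 3) * X ^ 3
    + C (-50 * A ^ 5 - 240 * A ^ 2 * B ^ 2) * X ^ 2 + C (-100 * A ^ 4 * B - 640 * A * B ^ 3) * X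
    + C (A ^ 6 - 32 * A ^ 3 * B ^ 2 - 256 * B ^ 4)

theorem eval_psi3Poly (x : K) : (psi3Poly A B).eval x = psi3 A B x := by
  simp [psi3Poly, psi3]

theorem eval_psi5Poly (x : K) : (psi5Poly A B).eval x = psi5 A B x := by
  simp [psi5Poly, psi5]

variable [CharZero K]

theorem natDegree_psi3Poly : (psi3Poly A B).natDegree = 4 := by
  unfold psi3Poly
  compute_degree!

theorem natDegree_psi5Poly : (psi5Poly A B).natDegree = 12 := by
  unfold psi5Poly
  compute_degree!

theorem psi3Poly_ne_zero : psi3Poly A B ≠ 0 := by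
  intro h
  have := natDegree_psi3Poly A B
  rw [h] at this
  simp at this

theorem psi5Poly_ne_zero : psi5Poly A B ≠ 0 := by
  intro h
  have := natDegree_psi5Poly A B
  rw [h] at this
  simp at this

theorem card_roots_psi3Poly [DecidableEq K] : (psi3Poly A B).roots.toFinset.card ≤ 4 :=
  ((psi3Poly A B).roots.toFinset_card_le).trans
    (((psi3Poly A B).card_roots').trans (natDegree_psi3Poly A B).le)

theorem card_roots_psi5Poly [DecidableEq K] : (psi5Poly A B).roots.toFinset.card ≤ 12 :=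
  ((psi5Poly A B).roots.toFinset_card_le).trans
    (((psi5Poly A B).card_roots').trans (natDegree_psi5Poly A B).le)

theorem mem_roots_psi3Poly [DecidableEq K] {x : K} (h : psi3 A B x = 0) :
    x ∈ (psi3Poly A B).roots.toFinset := by
  rw [Multiset.mem_toFinset, mem_roots (psi3Poly_ne_zero A B), IsRoot, eval_psi3Poly, h]

theorem mem_roots_psi5Poly [DecidableEq K] {x : K} (h : psi5 A B x = 0) :
    x ∈ (psi5Poly A B).roots.toFinset := by
  rw [Multiset.mem_toFinset, mem_roots (psi5Poly_ne_zero A B), IsRoot, eval_psi5Poly, h]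

theorem exists_root_psi3 [IsAlgClosed K] : ∃ x : K, psi3 A B x = 0 := by
  obtain ⟨x, hx⟩ := IsAlgClosed.exists_root (psi3Poly A B) (by
    rw [degree_eq_natDegree (psi3Poly_ne_zero A B), natDegree_psi3Poly]; norm_num)
  exact ⟨x, by rw [← eval_psi3Poly]; exact hx⟩

theorem exists_root_psi5 [IsAlgClosed K] : ∃ x : K, psi5 A B x = 0 := by
  obtain ⟨x, hx⟩ := IsAlgClosed.exists_root (psi5Poly A B) (by
    rw [degree_eq_natDegree (psi5Poly_ne_zero A B), natDegree_psi5Poly]; norm_num)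
  exact ⟨x, by rw [← eval_psi5Poly]; exact hx⟩

end Poly

section Geo

variable {G : Type*} [AddCommGroup G] {K : Type*} [Field K] (A B : K) (Xc : G → K)

/-- The properties of the reduced `x`-coordinate on the group of points of a Weierstrass curve
with short invariants `A`, `B`. -/
structure XData : Prop where
  eq_iff : ∀ P Q : G, P ≠ 0 → Q ≠ 0 → (Xc P = Xc Q ↔ P = Q ∨ P = -Q)
  two_iff : ∀ P : G, P ≠ 0 → (P + P = 0 ↔ f A B (Xc P) = 0)
  dup : ∀ P : G, P ≠ 0 → P + P ≠ 0 → Xc (P + P) * (4 * f A B (Xc P)) = Nd A B (Xc P)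

variable {A B Xc}

theorem XData.Xc_neg (h : XData A B Xc) {P : G} (hP : P ≠ 0) : Xc (-P) = Xc P :=
  (h.eq_iff (-P) P (neg_ne_zero.mpr hP) hP).mpr (Or.inr rfl)

/-! ### `3`-torsion -/

/-- The coordinate of a nonzero `3`-torsion point is a root of `ψ₃`. -/
theorem XData.psi3_eq_zero (h : XData A B Xc) {P : G} (hP : P ≠ 0) (h3 : 3 • P = 0) :
    f A B (Xc P) ≠ 0 ∧ psi3 A B (Xc P) = 0 := by
  have e3 : (3 : ℕ) • P = P + P + P := by abel
  have h2 : P + P ≠ 0 := by
    intro h2
    apply hP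
    rw [e3, h2, zero_add] at h3
    exact h3
  have hf : f A B (Xc P) ≠ 0 := fun hf => h2 ((h.two_iff P hP).mpr hf)
  refine ⟨hf, ?_⟩
  have hneg : P + P = -P := by
    rw [e3] at h3
    exact eq_neg_of_add_eq_zero_left h3
  have hd := h.dup P hP h2
  rw [hneg, h.Xc_neg hP] at hd
  have := Nd_eq A B (Xc P)
  linear_combination hd + this

/-- The `3`-torsion is contained in a finite set with at most `9` elements. -/
theorem XData.exists_finset_three [CharZero K] (h : XData A B Xc) :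
    ∃ s : Finset G, s.card ≤ 9 ∧ ∀ P : G, 3 • P = 0 → P ∈ s := by
  classical
  let R := (psi3Poly A B).roots.toFinset
  let pick : K → G := fun r => if hr : ∃ P : G, P ≠ 0 ∧ Xc P = r then hr.choose else 0
  refine ⟨{0} ∪ (R.image pick ∪ R.image fun r => -pick r), ?_, ?_⟩
  · calc _ ≤ ({0} : Finset G).card + (R.image pick ∪ R.image fun r => -pick r).card :=
          Finset.card_union_le _ _
      _ ≤ 1 + ((R.image pick).card + (R.image fun r => -pick r).card) := by
          gcongr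
          · simp
          · exact Finset.card_union_le _ _
      _ ≤ 1 + (R.card + R.card) := by
          gcongr <;> exact Finset.card_image_le
      _ ≤ 1 + (4 + 4) := by
          gcongr <;> exact card_roots_psi3Poly A B
      _ = 9 := by norm_num
  · intro P h3
    by_cases hP : P = 0
    · simp [hP]
    have hroot := (h.psi3_eq_zero hP h3).2
    have hR : Xc P ∈ R := mem_roots_psi3Poly A B hroot
    have hex : ∃ Q : G, Q ≠ 0 ∧ Xc Q = Xc P := ⟨P, hP, rfl⟩
    have hpick : pick (Xc P) = hex.choose := dif_pos hex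
    obtain ⟨hQ0, hQX⟩ := hex.choose_spec
    rw [← hpick] at hQ0 hQX
    rcases (h.eq_iff P _ hP hQ0).mp hQX.symm with h1 | h1
    · simp only [Finset.mem_union, Finset.mem_singleton, Finset.mem_image]
      exact Or.inr (Or.inl ⟨Xc P, hR, h1.symm⟩)
    · simp only [Finset.mem_union, Finset.mem_singleton, Finset.mem_image]
      exact Or.inr (Or.inr ⟨Xc P, hR, h1.symm⟩)

/-- Existence of a nonzero `3`-torsion point. -/
theorem XData.exists_three [CharZero K] [IsAlgClosed K] (h : XData A B Xc)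
    (hd : 4 * A ^ 3 + 27 * B ^ 2 ≠ 0) (hsurj : ∀ x : K, ∃ P : G, P ≠ 0 ∧ Xc P = x) :
    ∃ P : G, P ≠ 0 ∧ 3 • P = 0 := by
  obtain ⟨x, hx⟩ := exists_root_psi3 A B
  obtain ⟨P, hP, rfl⟩ := hsurj x
  refine ⟨P, hP, ?_⟩
  have hf := f_ne_zero_of_psi3 hd hx
  have h2 : P + P ≠ 0 := fun h2 => hf ((h.two_iff P hP).mp h2)
  have hdup := h.dup P hP h2
  have hH : (4 : K) * f A B (Xc P) ≠ 0 := mul_ne_zero (by norm_num) hf
  have hX : Xc (P + P) = Xc P := by
    have := Nd_eq A B (Xc P)
    rw [hx] at this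
    apply mul_right_cancel₀ hH
    linear_combination hdup + this
  have e3 : (3 : ℕ) • P = P + P + P := by abel
  rcases (h.eq_iff _ _ h2 hP).mp hX with h1 | h1
  · exact absurd (by simpa using h1) hP
  · rw [e3, h1, neg_add_cancel]

/-- An additive map preserving the line of a `3`-torsion point fixes its coordinate. -/
theorem XData.three_fixed (h : XData A B Xc) {P : G} (hP : P ≠ 0) (h3 : 3 • P = 0)
    (τ : G → G) (τK : K → K) (hτ : Xc (τ P) = τK (Xc P)) (hτ0 : τ P ≠ 0)
    {k : ℕ} (hk : k < 3) (hkP : τ P = k • P) : τK (Xc P) = Xc P := by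
  have e3 : (3 : ℕ) • P = P + P + P := by abel
  rw [← hτ, hkP]
  interval_cases k
  · exact absurd (by simpa using hkP) hτ0
  · simp
  · have : (2 : ℕ) • P = -P := by
      rw [e3] at h3
      rw [two_nsmul]
      exact eq_neg_of_add_eq_zero_left h3
    rw [this, h.Xc_neg hP]

/-! ### `5`-torsion -/

/-- For a nonzero `5`-torsion point `P`, the coordinates of `P` and `2P` are distinct and
exchanged by the duplication map. -/
theorem XData.five_data (h : XData A B Xc) {P : G} (hP : P ≠ 0) (h5 : 5 • P = 0) :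
    P + P ≠ 0 ∧ f A B (Xc P) ≠ 0 ∧ f A B (Xc (P + P)) ≠ 0 ∧
      Xc (P + P) * (4 * f A B (Xc P)) = Nd A B (Xc P) ∧
      Xc P * (4 * f A B (Xc (P + P))) = Nd A B (Xc (P + P)) ∧ Xc P ≠ Xc (P + P) := by
  have e5 : (5 : ℕ) • P = (P + P) + (P + P) + P := by abel
  rw [e5] at h5
  have h2 : P + P ≠ 0 := by
    intro h2
    apply hP
    rw [h2, zero_add, zero_add] at h5
    exact h5
  have h4 : (P + P) + (P + P) ≠ 0 := by
    intro h4
    apply hP
    rw [h4, zero_add] at h5
    exact h5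
  have hf1 : f A B (Xc P) ≠ 0 := fun hf => h2 ((h.two_iff P hP).mpr hf)
  have hf2 : f A B (Xc (P + P)) ≠ 0 := fun hf => h4 ((h.two_iff _ h2).mpr hf)
  have hneg : (P + P) + (P + P) = -P := eq_neg_of_add_eq_zero_left h5
  have hd1 := h.dup P hP h2
  have hd2 := h.dup (P + P) h2 h4
  rw [hneg, h.Xc_neg hP] at hd2
  refine ⟨h2, hf1, hf2, hd1, hd2, ?_⟩
  intro hX
  rcases (h.eq_iff _ _ hP h2).mp hX with h1 | h1
  · apply hP
    have : P + P = P + 0 := by rw [add_zero]; exact h1.symm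
    exact add_left_cancel this
  · -- `P = -(P+P)`, so `3P = 0`, hence `2P = 0`
    apply h2
    have h3 : P + (P + P) = 0 := by
      rw [eq_neg_iff_add_eq_zero] at h1; exact h1
    have : P + P + (P + P) + P = (P + P) + (P + (P + P)) := by abel
    rw [this, h3, add_zero] at h5
    exact h5

/-- The coordinate of a nonzero `5`-torsion point is a root of `ψ₅`. -/
theorem XData.psi5_eq_zero [CharZero K] (h : XData A B Xc) {P : G} (hP : P ≠ 0)
    (h5 : 5 • P = 0) : psi5 A B (Xc P) = 0 := by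
  obtain ⟨-, hf1, -, hd1, hd2, hne⟩ := h.five_data hP h5
  exact psi5_eq_zero_of_dup hf1 hd1 hd2 hne

/-- The `5`-torsion is contained in a finite set with at most `25` elements. -/
theorem XData.exists_finset_five [CharZero K] (h : XData A B Xc) :
    ∃ s : Finset G, s.card ≤ 25 ∧ ∀ P : G, 5 • P = 0 → P ∈ s := by
  classical
  let R := (psi5Poly A B).roots.toFinset
  let pick : K → G := fun r => if hr : ∃ P : G, P ≠ 0 ∧ Xc P = r then hr.choose else 0
  refine ⟨{0} ∪ (R.image pick ∪ R.image fun r => -pick r), ?_, ?_⟩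
  · calc _ ≤ ({0} : Finset G).card + (R.image pick ∪ R.image fun r => -pick r).card :=
          Finset.card_union_le _ _
      _ ≤ 1 + ((R.image pick).card + (R.image fun r => -pick r).card) := by
          gcongr
          · simp
          · exact Finset.card_union_le _ _
      _ ≤ 1 + (R.card + R.card) := by
          gcongr <;> exact Finset.card_image_le
      _ ≤ 1 + (12 + 12) := by
          gcongr <;> exact card_roots_psi5Poly A B
      _ = 25 := by norm_num
  · intro P h5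
    by_cases hP : P = 0
    · simp [hP]
    have hroot := h.psi5_eq_zero hP h5
    have hR : Xc P ∈ R := mem_roots_psi5Poly A B hroot
    have hex : ∃ Q : G, Q ≠ 0 ∧ Xc Q = Xc P := ⟨P, hP, rfl⟩
    have hpick : pick (Xc P) = hex.choose := dif_pos hex
    obtain ⟨hQ0, hQX⟩ := hex.choose_spec
    rw [← hpick] at hQ0 hQX
    rcases (h.eq_iff P _ hP hQ0).mp hQX.symm with h1 | h1
    · simp only [Finset.mem_union, Finset.mem_singleton, Finset.mem_image]
      exact Or.inr (Or.inl ⟨Xc P, hR, h1.symm⟩)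
    · simp only [Finset.mem_union, Finset.mem_singleton, Finset.mem_image]
      exact Or.inr (Or.inr ⟨Xc P, hR, h1.symm⟩)

/-- Existence of a nonzero `5`-torsion point. -/
theorem XData.exists_five [CharZero K] [IsAlgClosed K] (h : XData A B Xc)
    (hd : 4 * A ^ 3 + 27 * B ^ 2 ≠ 0) (hsurj : ∀ x : K, ∃ P : G, P ≠ 0 ∧ Xc P = x) :
    ∃ P : G, P ≠ 0 ∧ 5 • P = 0 := by
  obtain ⟨x, hx⟩ := exists_root_psi5 A B
  obtain ⟨P, hP, rfl⟩ := hsurj x
  refine ⟨P, hP, ?_⟩
  obtain ⟨hf1, hf2, hd2, hne⟩ := dup_of_psi5_eq_zero hd hx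
  have hH : (4 : K) * f A B (Xc P) ≠ 0 := mul_ne_zero (by norm_num) hf1
  have h2 : P + P ≠ 0 := fun h2 => hf1 ((h.two_iff P hP).mp h2)
  have hX2 : Xc (P + P) = Nd A B (Xc P) / (4 * f A B (Xc P)) := by
    rw [eq_div_iff hH]; exact h.dup P hP h2
  rw [← hX2] at hf2 hd2 hne
  have h4 : (P + P) + (P + P) ≠ 0 := fun h4 => hf2 ((h.two_iff _ h2).mp h4)
  have hH2 : (4 : K) * f A B (Xc (P + P)) ≠ 0 := mul_ne_zero (by norm_num) hf2
  have hX4 : Xc ((P + P) + (P + P)) = Xc P := by
    apply mul_right_cancel₀ hH2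
    rw [h.dup _ h2 h4, hd2]
  have e5 : (5 : ℕ) • P = (P + P) + (P + P) + P := by abel
  rcases (h.eq_iff _ _ h4 hP).mp hX4 with h1 | h1
  · -- `4P = P`, so `3P = 0`, `2P = -P`, same coordinate: contradiction
    exfalso
    apply hne
    have h3 : P + P = -P := by
      have : P + P + P = 0 := by
        have : P + P + (P + P) = P + (P + P + P) := by abel
        rw [this] at h1
        exact add_left_cancel (a := P) (by rw [h1, add_zero])
      exact eq_neg_of_add_eq_zero_left this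
    rw [h3, h.Xc_neg hP]
  · rw [e5, h1, neg_add_cancel]

/-- An additive map preserving the line of a `5`-torsion point `P` and compatible with a map
`τK` on coordinates: `τK` either fixes or exchanges the coordinates of `P` and `2P`. -/
theorem XData.five_pair (h : XData A B Xc) {P : G} (hP : P ≠ 0) (h5 : 5 • P = 0)
    (τ : G → G) (τK : K → K) (hτ1 : Xc (τ P) = τK (Xc P))
    (hτ2 : Xc (τ P + τ P) = τK (Xc (P + P))) (hτ0 : τ P ≠ 0)
    {k : ℕ} (hk : k < 5) (hkP : τ P = k • P) :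
    (τK (Xc P) = Xc P ∧ τK (Xc (P + P)) = Xc (P + P)) ∨
      (τK (Xc P) = Xc (P + P) ∧ τK (Xc (P + P)) = Xc P) := by
  have e5 : (5 : ℕ) • P = (P + P) + (P + P) + P := by abel
  rw [e5] at h5
  have h2 : P + P ≠ 0 := (h.five_data hP (by rw [e5]; exact h5)).1
  have hneg : (P + P) + (P + P) = -P := eq_neg_of_add_eq_zero_left h5
  rw [← hτ1, ← hτ2, hkP]
  interval_cases k
  · exact absurd (by simpa using hkP) hτ0
  · left; simp
  · right
    refine ⟨by rw [two_nsmul], ?_⟩
    rw [two_nsmul, hneg, h.Xc_neg hP]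
  · right
    have h3 : (3 : ℕ) • P = -(P + P) := by
      have : (3 : ℕ) • P + (P + P) = 0 := by rw [← h5]; abel
      exact eq_neg_of_add_eq_zero_left this
    rw [h3, h.Xc_neg h2]
    refine ⟨rfl, ?_⟩
    have : -(P + P) + -(P + P) = P := by
      have : -(P + P) + -(P + P) = -((P + P) + (P + P)) := by abel
      rw [this, hneg, neg_neg]
    rw [this]
  · left
    have h4 : (4 : ℕ) • P = -P := by
      rw [← hneg]; abel
    rw [h4, h.Xc_neg hP]
    refine ⟨rfl, ?_⟩
    have : -P + -P = -(P + P) := by abel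
    rw [this, h.Xc_neg h2]

end Geo

end Fermat.Agent.S51.TorsionCount
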