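import Fermat.Agent.S51.Defs
import Fermat.Agent.S51.RedCoord
import Fermat.Agent.S51.TorsionCount
import Fermat.Agent.S51.StableLine
import Fermat.Agent.S51.DupRoots
import Fermat.Agent.S51.SemistableJ

/-!
# S51: the `3`-torsion and `5`-torsion data of a curve with reducible mod `3` / mod `5`
representation

Glue of `RedCoord` (reduced `x`-coordinate on the general Weierstrass model), `TorsionCount`
(abstract counting and existence of torsion points through the duplication map), `StableLine`
(a Galois-stable proper nonzero submodule of a small torsion module is a line; Galois-fixed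
elements are rational) and `DupRoots` (descent of the relations to `ℚ`).
-/

set_option autoImplicit false

namespace Fermat.Agent.S51.TorsionData

open WeierstrassCurve WeierstrassCurve.Affine WeierstrassCurve.Affine.Point
open Fermat.Agent.S51

section XData

variable {K : Type*} [Field K] [CharZero K] [DecidableEq K] (E : WeierstrassCurve K)

/-- The reduced coordinate of `RedCoord` satisfies the axioms of `TorsionCount.XData`. -/
theorem xdata : TorsionCount.XData (RedCoord.cA E) (RedCoord.cB E) (RedCoord.Xr E) where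
  eq_iff P Q hP hQ := by
    constructor
    · exact RedCoord.eq_or_eq_neg_of_Xr_eq E hP hQ
    · rintro (rfl | rfl)
      · rfl
      · exact RedCoord.Xr_neg E Q
  two_iff P hP := by
    rw [← two_nsmul]
    exact RedCoord.two_nsmul_eq_zero_iff' E hP
  dup P _ h2 := by
    rw [← two_nsmul] at h2 ⊢
    exact RedCoord.Xr_two_nsmul' E h2

end XData

/-- The algebraic closure of `ℚ` used by the frozen statement. -/
local notation "Qbar" => AlgebraicClosure ℚ

section Curve

variable (W : WeierstrassCurve ℤ)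

/-- The curve `W` over `AlgebraicClosure ℚ`. -/
noncomputable abbrev EK : WeierstrassCurve Qbar :=
  ((W.map (Int.castRingHom ℚ)).toAffine⁄Qbar)

theorem cA_EK : RedCoord.cA (EK W) = algebraMap ℚ Qbar (redA W) := by
  simp only [RedCoord.cA, EK, redA, WeierstrassCurve.baseChange, WeierstrassCurve.toAffine,
    WeierstrassCurve.map_c₄, map_div₀, map_neg, map_ofNat, eq_intCast, map_intCast]

theorem cB_EK : RedCoord.cB (EK W) = algebraMap ℚ Qbar (redB W) := by
  simp only [RedCoord.cB, EK, redB, WeierstrassCurve.baseChange, WeierstrassCurve.toAffine,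
    WeierstrassCurve.map_c₆, map_div₀, map_neg, map_ofNat, eq_intCast, map_intCast]

theorem Δ_EK_ne_zero (hΔ : W.Δ ≠ 0) : (EK W).Δ ≠ 0 := by
  simp only [EK, WeierstrassCurve.baseChange, WeierstrassCurve.toAffine, WeierstrassCurve.map_Δ,
    eq_intCast, map_intCast]
  exact_mod_cast hΔ

theorem disc_EK_ne_zero (hΔ : W.Δ ≠ 0) :
    4 * RedCoord.cA (EK W) ^ 3 + 27 * RedCoord.cB (EK W) ^ 2 ≠ 0 := by
  rw [RedCoord.disc_eq]
  exact div_ne_zero (neg_ne_zero.mpr (Δ_EK_ne_zero W hΔ)) (by norm_num)

end Curve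

section Main

variable (W : WeierstrassCurve ℤ)

/-- The `n`-torsion module of the frozen statement is finite of cardinality at most `c` as soon
as all `n`-torsion points lie in a finset of cardinality at most `c`. -/
theorem finite_torsion {n c : ℕ} (s : Finset (EK W).toAffine.Point) (hs : s.card ≤ c)
    (hmem : ∀ P : (EK W).toAffine.Point, n • P = 0 → P ∈ s) :
    Finite (Submodule.torsionBy ℤ (EK W).toAffine.Point n) ∧
      Nat.card (Submodule.torsionBy ℤ (EK W).toAffine.Point n) ≤ c := by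
  have hsub : ∀ x : Submodule.torsionBy ℤ (EK W).toAffine.Point n,
      (x : (EK W).toAffine.Point) ∈ s := by
    intro x
    apply hmem
    have := (Submodule.mem_torsionBy_iff _ _).mp x.2
    rwa [natCast_zsmul] at this
  let g : Submodule.torsionBy ℤ (EK W).toAffine.Point n → s := fun x => ⟨x, hsub x⟩
  have hg : Function.Injective g := by
    intro x y hxy
    exact Subtype.ext (congrArg (fun z : s => (z : (EK W).toAffine.Point)) hxy)
  have : Finite (Submodule.torsionBy ℤ (EK W).toAffine.Point n) := Finite.of_injective g hg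
  refine ⟨inferInstance, ?_⟩
  calc Nat.card (Submodule.torsionBy ℤ (EK W).toAffine.Point n)
      ≤ Nat.card s := Nat.card_le_card_of_injective g hg
    _ = s.card := by simp
    _ ≤ c := hs

/-- **[five]** A curve with `Δ ≠ 0` whose mod `5` representation is not irreducible has a
Galois-stable `5`-line; the symmetric functions `s`, `t` of the reduced coordinates of its
generator and its double are rational and satisfy the duplication relations. -/
theorem five (hΔ : W.Δ ≠ 0) (h : ¬ W.ModRepIsIrreducible 5) :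
    ∃ s t : ℚ, s ^ 2 - 4 * t ≠ 0 ∧
      redA W ^ 2 + 2 * (s ^ 2 - t) * redA W - (s ^ 4 - 5 * s ^ 2 * t - 5 * t ^ 2) = 0 ∧
      12 * s * redB W =
        2 * redA W ^ 2 - 2 * redA W * (s ^ 2 + 2 * t) + s ^ 4 - 8 * s ^ 2 * t + 10 * t ^ 2 ∧
      ∀ x : ℚ, 3 * x ^ 4 + 6 * redA W * x ^ 2 + 12 * redB W * x - redA W ^ 2 = 0 →
        x ^ 2 - s * x + t ≠ 0 := by
  have hX := xdata (EK W)
  have hdisc := disc_EK_ne_zero W hΔ
  -- finiteness and cardinality
  obtain ⟨s5, hcard, hmem⟩ := hX.exists_finset_five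
  obtain ⟨hfin, hcard'⟩ := finite_torsion W s5 hcard hmem
  -- nontriviality
  obtain ⟨P0, hP0, h5P0⟩ := hX.exists_five hdisc (RedCoord.exists_point_Xr_eq (EK W)
    (Δ_EK_ne_zero W hΔ))
  have hnt : Nontrivial (Submodule.torsionBy ℤ (EK W).toAffine.Point (5 : ℕ)) := by
    refine ⟨⟨⟨P0, ?_⟩, 0, ?_⟩⟩
    · rw [Submodule.mem_torsionBy_iff, natCast_zsmul]; exact h5P0
    · intro h0
      exact hP0 (congrArg Subtype.val h0)
  -- a stable line
  unfold WeierstrassCurve.ModRepIsIrreducible GaloisRepIsIrreducible at h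
  rw [not_and] at h
  have h' := h hnt
  push Not at h'
  obtain ⟨N, hN, h0, h1⟩ := h'
  have : Fact (Nat.Prime 5) := ⟨by norm_num⟩
  obtain ⟨P, hP, h5P, hσ, -⟩ := StableLine.exists_stable_point (p := 5)
    (lt_of_le_of_lt hcard' (by norm_num)) N hN h0 h1
  have h5P' : (5 : ℕ) • P = 0 := by rwa [natCast_zsmul] at h5P
  obtain ⟨-, hf1, hf2, hd1, hd2, hne⟩ := hX.five_data hP h5P'
  -- rationality of the symmetric functions
  have hpair : ∀ σ : Qbar ≃ₐ[ℚ] Qbar,
      (σ (RedCoord.Xr (EK W) P) = RedCoord.Xr (EK W) P ∧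
        σ (RedCoord.Xr (EK W) (P + P)) = RedCoord.Xr (EK W) (P + P)) ∨
      (σ (RedCoord.Xr (EK W) P) = RedCoord.Xr (EK W) (P + P) ∧
        σ (RedCoord.Xr (EK W) (P + P)) = RedCoord.Xr (EK W) P) := by
    intro σ
    obtain ⟨k, hk, hkP⟩ := hσ σ
    refine hX.five_pair hP h5P' (fun Q => σ • Q) (fun x => σ x) (RedCoord.Xr_smul σ P) ?_ ?_
      hk hkP
    · show RedCoord.Xr (EK W) (σ • P + σ • P) = σ (RedCoord.Xr (EK W) (P + P))
      rw [← smul_add]
      exact RedCoord.Xr_smul σ (P + P)
    · show σ • P ≠ 0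
      rw [Ne, smul_eq_zero_iff_eq]
      exact hP
  obtain ⟨⟨s, hs⟩, ⟨t, ht⟩⟩ := StableLine.exists_rat_add_mul_of_stable_pair _ _ hpair
  refine ⟨s, t, ?_⟩
  refine DupRoots.five_data_of_pair (algebraMap ℚ Qbar) (redA W) (redB W) s t
    (redDisc_ne_zero W hΔ) hs.symm ht.symm hne ?_ ?_
  · rw [← cA_EK, ← cB_EK]
    simp only [TorsionCount.f, TorsionCount.Nd] at hd1
    simp only [DupAlgebra.dupNum, DupAlgebra.cubic]
    linear_combination -hd1
  · rw [← cA_EK, ← cB_EK]
    simp only [TorsionCount.f, TorsionCount.Nd] at hd2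
    simp only [DupAlgebra.dupNum, DupAlgebra.cubic]
    linear_combination -hd2

/-- **[three]** A curve with `Δ ≠ 0` whose mod `3` representation is not irreducible has a
rational root of `ψ₃` (in the reduced coordinate). -/
theorem three (hΔ : W.Δ ≠ 0) (h : ¬ W.ModRepIsIrreducible 3) :
    ∃ x : ℚ, 3 * x ^ 4 + 6 * redA W * x ^ 2 + 12 * redB W * x - redA W ^ 2 = 0 := by
  have hX := xdata (EK W)
  have hdisc := disc_EK_ne_zero W hΔ
  -- finiteness and cardinality
  obtain ⟨s3, hcard, hmem⟩ := hX.exists_finset_three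
  obtain ⟨hfin, hcard'⟩ := finite_torsion W s3 hcard hmem
  -- nontriviality
  obtain ⟨P0, hP0, h3P0⟩ := hX.exists_three hdisc (RedCoord.exists_point_Xr_eq (EK W)
    (Δ_EK_ne_zero W hΔ))
  have hnt : Nontrivial (Submodule.torsionBy ℤ (EK W).toAffine.Point (3 : ℕ)) := by
    refine ⟨⟨⟨P0, ?_⟩, 0, ?_⟩⟩
    · rw [Submodule.mem_torsionBy_iff, natCast_zsmul]; exact h3P0
    · intro h0
      exact hP0 (congrArg Subtype.val h0)
  -- a stable line
  unfold WeierstrassCurve.ModRepIsIrreducible GaloisRepIsIrreducible at h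
  rw [not_and] at h
  have h' := h hnt
  push Not at h'
  obtain ⟨N, hN, h0, h1⟩ := h'
  have : Fact (Nat.Prime 3) := ⟨by norm_num⟩
  obtain ⟨P, hP, h3P, hσ, -⟩ := StableLine.exists_stable_point (p := 3)
    (lt_of_le_of_lt hcard' (by norm_num)) N hN h0 h1
  have h3P' : (3 : ℕ) • P = 0 := by rwa [natCast_zsmul] at h3P
  obtain ⟨-, hroot⟩ := hX.psi3_eq_zero hP h3P'
  -- rationality of the coordinate
  have hfix : ∀ σ : Qbar ≃ₐ[ℚ] Qbar, σ (RedCoord.Xr (EK W) P) = RedCoord.Xr (EK W) P := by
    intro σ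
    obtain ⟨k, hk, hkP⟩ := hσ σ
    refine hX.three_fixed hP h3P' (fun Q => σ • Q) (fun x => σ x) (RedCoord.Xr_smul σ P) ?_
      hk hkP
    show σ • P ≠ 0
    rw [Ne, smul_eq_zero_iff_eq]
    exact hP
  obtain ⟨q, hq⟩ := StableLine.exists_rat_of_fixed _ hfix
  refine ⟨q, DupRoots.three_data_of_root (algebraMap ℚ Qbar) (redA W) (redB W) q ?_⟩
  rw [← cA_EK, ← cB_EK, hq]
  simp only [TorsionCount.psi3] at hroot
  simp only [DupAlgebra.psi3]
  exact hroot

end Main

end Fermat.Agent.S51.TorsionData
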