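import Fermat.Agent.S51.Defs
import Fermat.Agent.S51.Modular
import Fermat.Agent.S51.Points
import Fermat.Agent.S51.SemistableJ

/-!
# S51: final wiring

The statement of S51 from its three inputs: the 3-torsion data, the 5-torsion data and the
rational points of the quartic model of `X₀(15)`.
-/

set_option autoImplicit false

open WeierstrassCurve

namespace Fermat.Agent.S51

theorem result_of_inputs
    (three : ∀ W : WeierstrassCurve ℤ, W.Δ ≠ 0 → ¬ W.ModRepIsIrreducible 3 →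
      ∃ x : ℚ, 3 * x ^ 4 + 6 * redA W * x ^ 2 + 12 * redB W * x - redA W ^ 2 = 0)
    (five : ∀ W : WeierstrassCurve ℤ, W.Δ ≠ 0 → ¬ W.ModRepIsIrreducible 5 →
      ∃ s t : ℚ, s ^ 2 - 4 * t ≠ 0 ∧
        redA W ^ 2 + 2 * (s ^ 2 - t) * redA W - (s ^ 4 - 5 * s ^ 2 * t - 5 * t ^ 2) = 0 ∧
        12 * s * redB W =
          2 * redA W ^ 2 - 2 * redA W * (s ^ 2 + 2 * t) + s ^ 4 - 8 * s ^ 2 * t + 10 * t ^ 2 ∧
        ∀ x : ℚ, 3 * x ^ 4 + 6 * redA W * x ^ 2 + 12 * redB W * x - redA W ^ 2 = 0 →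
          x ^ 2 - s * x + t ≠ 0)
    (HQ : ∀ x y : ℚ, y ^ 2 = x ^ 4 - 10 * x ^ 3 - 13 * x ^ 2 + 10 * x + 1 →
      x = 0 ∨ x = -2 ∨ x = 1 / 2)
    (W : WeierstrassCurve ℤ) (hΔ : W.Δ ≠ 0) (hW : W.IsSemistableModel) :
    W.ModRepIsIrreducible 3 ∨ W.ModRepIsIrreducible 5 := by
  by_contra hcon
  rw [not_or] at hcon
  obtain ⟨h3, h5⟩ := hcon
  obtain ⟨x, hx⟩ := three W hΔ h3
  obtain ⟨s, t, he, hQ, hL, hnd⟩ := five W hΔ h5
  obtain ⟨ξ, κ, hξ, -, hc, hj⟩ :=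
    Modular.modular_core (redA W) (redB W) x s t (redA_ne_zero W hΔ hW) (redDisc_ne_zero W hΔ)
      hx he hQ hL (hnd x hx)
  have hvals := Points.j_values HQ ξ κ _ hξ hc hj
  exact semistable_false W hΔ hW hvals

end Fermat.Agent.S51
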